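import Mathlib
import Fermat.Prelude.Def_EllipticCurve_FrobeniusTrace
import Fermat.Prelude.Def_FLTPrelim_Ramification
import Fermat.Agent.Lib.CFT.Bridge.Inertia

/-!
# P10 / (C-TW) assembly: generalities on Frobenius elements

* `isFrobeniusAt_iff` : valuation-theoretic characterisation;
* `isFrobeniusAt_conj` : conjugates of Frobenius elements are Frobenius elements at the conjugate
  place;
* `frobenius_inv_mul_mem_inertia` : two Frobenius elements at the same place differ by inertia.
-/

set_option autoImplicit false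
set_option linter.unusedSectionVars false

open scoped Pointwise

namespace Fermat.Agent.TW

open Fermat.Agent.CFT.Bridge

variable {K L : Type*} [Field K] [Field L] [Algebra K L]

theorem isFrobeniusAt_iff (A : ValuationSubring L) (φ : L ≃ₐ[K] L) (q : ℕ) :
    A.IsFrobeniusAt φ q ↔
      φ ∈ A.decompositionSubgroup K ∧ ∀ x : L, x ∈ A → A.valuation (φ x - x ^ q) < 1 := by
  constructor
  · intro h
    refine ⟨h.mem_decompositionSubgroup, fun x hx => ?_⟩
    have h1 := h.smul_residue_eq (IsLocalRing.residue A ⟨x, hx⟩)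
    rw [← IsLocalRing.ResidueField.residue_smul, ← map_pow] at h1
    have hmem : ((⟨φ, h.mem_decompositionSubgroup⟩ : A.decompositionSubgroup K) • (⟨x, hx⟩ : A)) -
        (⟨x, hx⟩ : A) ^ q ∈ IsLocalRing.maximalIdeal A := by
      rw [← Ideal.Quotient.eq]
      exact h1
    exact (A.valuation_lt_one_iff _).mp hmem
  · rintro ⟨hdec, h⟩
    refine ⟨hdec, fun y => ?_⟩
    obtain ⟨⟨x, hx⟩, rfl⟩ := IsLocalRing.residue_surjective y
    rw [← IsLocalRing.ResidueField.residue_smul, ← map_pow]
    apply (Ideal.Quotient.eq).mpr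
    exact (A.valuation_lt_one_iff _).mpr (h x hx)

/-- elements of the decomposition group preserve `v < 1` -/
lemma valuation_apply_lt_one_iff_of_mem_decomp (A : ValuationSubring L) {τ : L ≃ₐ[K] L}
    (hτ : τ ∈ A.decompositionSubgroup K) (z : L) :
    A.valuation (τ z) < 1 ↔ A.valuation z < 1 := by
  have h1 : τ • A = A := hτ
  have := valuation_smul_lt_one_iff A τ z
  rwa [h1] at this

theorem isFrobeniusAt_conj {A : ValuationSubring L} {φ : L ≃ₐ[K] L} {q : ℕ}
    (h : A.IsFrobeniusAt φ q) (g : L ≃ₐ[K] L) : (g • A).IsFrobeniusAt (g * φ * g⁻¹) q := by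
  rw [isFrobeniusAt_iff] at h ⊢
  obtain ⟨hdec, hv⟩ := h
  constructor
  · rw [MulAction.mem_stabilizer_iff, mul_smul, mul_smul, inv_smul_smul]
    have : φ • A = A := hdec
    rw [this]
  · intro x hx
    obtain ⟨y, hy, rfl⟩ := (ValuationSubring.mem_smul_pointwise_iff_exists g x A).mp hx
    have h2 : (g * φ * g⁻¹) (g • y) - (g • y) ^ q = g (φ y - y ^ q) := by
      rw [map_sub, map_pow]
      congr 1
      change g (φ (g⁻¹ (g y))) = g (φ y)
      congr 2
      exact g.symm_apply_apply y
    rw [h2, valuation_smul_lt_one_iff]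
    exact hv y hy

theorem frobenius_inv_mul_mem_inertia {A : ValuationSubring L} {φ φ' : L ≃ₐ[K] L} {q : ℕ}
    (h : A.IsFrobeniusAt φ q) (h' : A.IsFrobeniusAt φ' q) :
    φ⁻¹ * φ' ∈ A.inertiaSubgroupIn K := by
  rw [isFrobeniusAt_iff] at h h'
  rw [mem_inertiaSubgroupIn_iff]
  have hinv : φ⁻¹ ∈ A.decompositionSubgroup K := Subgroup.inv_mem _ h.1
  refine ⟨Subgroup.mul_mem _ hinv h'.1, fun x hx => ?_⟩
  have h2 : (φ⁻¹ * φ') x - x = φ⁻¹ (φ' x - φ x) := by
    rw [map_sub]
    congr 1
    exact (φ.symm_apply_apply x).symm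
  rw [h2, valuation_apply_lt_one_iff_of_mem_decomp A hinv]
  have h3 : φ' x - φ x = (φ' x - x ^ q) - (φ x - x ^ q) := by ring
  rw [h3]
  exact Valuation.map_sub_lt _ (h'.2 x hx) (h.2 x hx)

end Fermat.Agent.TW
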