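import Fermat.Agent.Lib.TW.Ad0

/-!
# P10 / G5 (part 2): the tangent cocycle of a lift of `ρbar` to the dual numbers
-/

set_option autoImplicit false

open Fermat.Agent.S53Lib IsLocalRing groupCohomology Matrix

namespace Fermat.Agent.TW

noncomputable section

variable {k : Type} [Field k]

/-! ## Matrices over the dual numbers -/

/-- the constant part of a matrix over `k[ε]` -/
def mFst (A : Matrix (Fin 2) (Fin 2) (DualNumber k)) : Matrix (Fin 2) (Fin 2) k :=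
  A.map TrivSqZeroExt.fst

/-- the `ε`-part of a matrix over `k[ε]` -/
def mSnd (A : Matrix (Fin 2) (Fin 2) (DualNumber k)) : Matrix (Fin 2) (Fin 2) k :=
  A.map TrivSqZeroExt.snd

lemma mFst_mul (A B : Matrix (Fin 2) (Fin 2) (DualNumber k)) : mFst (A * B) = mFst A * mFst B := by
  ext i j
  simp [mFst, Matrix.mul_apply, Fin.sum_univ_two, TrivSqZeroExt.fst_mul, TrivSqZeroExt.fst_add]

lemma mSnd_mul (A B : Matrix (Fin 2) (Fin 2) (DualNumber k)) :
    mSnd (A * B) = mFst A * mSnd B + mSnd A * mFst B := by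
  ext i j
  simp [mFst, mSnd, Matrix.mul_apply, Fin.sum_univ_two, TrivSqZeroExt.snd_mul,
    TrivSqZeroExt.snd_add, Matrix.add_apply]
  ring

lemma mFst_one : mFst (1 : Matrix (Fin 2) (Fin 2) (DualNumber k)) = 1 := by
  ext i j
  fin_cases i <;> fin_cases j <;> simp [mFst]

lemma mSnd_one : mSnd (1 : Matrix (Fin 2) (Fin 2) (DualNumber k)) = 0 := by
  ext i j
  fin_cases i <;> fin_cases j <;> simp [mSnd]

lemma mat_ext_fst_snd {A B : Matrix (Fin 2) (Fin 2) (DualNumber k)} (h1 : mFst A = mFst B)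
    (h2 : mSnd A = mSnd B) : A = B := by
  ext i j
  · exact congrFun (congrFun h1 i) j
  · exact congrFun (congrFun h2 i) j

lemma snd_det (A : Matrix (Fin 2) (Fin 2) (DualNumber k)) :
    (A.det).snd = (mSnd A * (mFst A).adjugate).trace := by
  rw [Matrix.det_fin_two, Matrix.adjugate_fin_two, Matrix.trace_fin_two]
  simp [mFst, mSnd, Matrix.mul_apply, Fin.sum_univ_two, TrivSqZeroExt.snd_mul,
    TrivSqZeroExt.snd_sub]
  ring

lemma fst_det (A : Matrix (Fin 2) (Fin 2) (DualNumber k)) : (A.det).fst = (mFst A).det := by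
  rw [Matrix.det_fin_two, Matrix.det_fin_two]
  simp [mFst, TrivSqZeroExt.fst_mul, TrivSqZeroExt.fst_sub]

/-- the matrix `X + ε Y` -/
def mOf (X Y : Matrix (Fin 2) (Fin 2) k) : Matrix (Fin 2) (Fin 2) (DualNumber k) :=
  Matrix.of fun i j => (TrivSqZeroExt.inl (X i j) + TrivSqZeroExt.inr (Y i j) : DualNumber k)

@[simp] lemma mFst_mOf (X Y : Matrix (Fin 2) (Fin 2) k) : mFst (mOf X Y) = X := by
  ext i j; simp [mFst, mOf]

@[simp] lemma mSnd_mOf (X Y : Matrix (Fin 2) (Fin 2) k) : mSnd (mOf X Y) = Y := by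
  ext i j; simp [mSnd, mOf]

lemma mOf_one_mul_mOf_one_neg (X : Matrix (Fin 2) (Fin 2) k) : mOf 1 X * mOf 1 (-X) = 1 := by
  refine mat_ext_fst_snd ?_ ?_
  · rw [mFst_mul, mFst_mOf, mFst_mOf, mFst_one, one_mul]
  · rw [mSnd_mul, mFst_mOf, mFst_mOf, mSnd_mOf, mSnd_mOf, mSnd_one, one_mul, mul_one,
      neg_add_cancel]

/-- the unit `1 + ε X` of `M₂(k[ε])` -/
def mUnit (X : Matrix (Fin 2) (Fin 2) k) : (Matrix (Fin 2) (Fin 2) (DualNumber k))ˣ :=
  ⟨mOf 1 X, mOf 1 (-X), mOf_one_mul_mOf_one_neg X, by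
    have := mOf_one_mul_mOf_one_neg (-X)
    rwa [neg_neg] at this⟩

/-! ## Lifts of `ρbar` to the dual numbers -/

variable (ρbar : ResidualGaloisRep k) (b : Module.Basis (Fin 2) k ρbar.V)

/-- the matrices of `ρbar` in the basis `b` -/
def rbarMat (σ : GQ) : Matrix (Fin 2) (Fin 2) k := LinearMap.toMatrix b b (ρbar.ρ σ)

lemma rbarMat_mul (σ τ : GQ) : rbarMat ρbar b (σ * τ) = rbarMat ρbar b σ * rbarMat ρbar b τ := by
  unfold rbarMat
  rw [map_mul, Module.End.mul_eq_comp, LinearMap.toMatrix_comp b b b]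

lemma rbarMat_one : rbarMat ρbar b 1 = 1 := by
  unfold rbarMat
  rw [map_one, Module.End.one_eq_id, LinearMap.toMatrix_id]

lemma rbarMat_mul_inv (σ : GQ) : rbarMat ρbar b σ * rbarMat ρbar b σ⁻¹ = 1 := by
  rw [← rbarMat_mul, mul_inv_cancel, rbarMat_one]

lemma rbarMat_inv_mul (σ : GQ) : rbarMat ρbar b σ⁻¹ * rbarMat ρbar b σ = 1 := by
  rw [← rbarMat_mul, inv_mul_cancel, rbarMat_one]

lemma toLin_rbarMat (σ : GQ) : Matrix.toLin b b (rbarMat ρbar b σ) = ρbar.ρ σ := by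
  unfold rbarMat
  rw [Matrix.toLin_toMatrix]

/-- `r : GQ →* M₂(k[ε])` lifts `ρbar` (written in the basis `b`) -/
def IsDualLift (r : GQ →* Matrix (Fin 2) (Fin 2) (DualNumber k)) : Prop :=
  ∀ σ, mFst (r σ) = rbarMat ρbar b σ

/-- `det r = det ρbar` -/
def HasResidualDet (r : GQ →* Matrix (Fin 2) (Fin 2) (DualNumber k)) : Prop :=
  ∀ σ, ((r σ).det).snd = 0

variable {ρbar b}

/-- the matrix cocycle `σ ↦ B(σ) rbar(σ)⁻¹`, `r σ = rbar σ + ε B σ` -/
def tangentMat (r : GQ →* Matrix (Fin 2) (Fin 2) (DualNumber k)) (σ : GQ) :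
    Matrix (Fin 2) (Fin 2) k :=
  mSnd (r σ) * rbarMat ρbar b σ⁻¹

lemma tangentMat_mul {r : GQ →* Matrix (Fin 2) (Fin 2) (DualNumber k)} (hr : IsDualLift ρbar b r)
    (σ τ : GQ) :
    tangentMat (ρbar := ρbar) (b := b) r (σ * τ) =
      rbarMat ρbar b σ * tangentMat (ρbar := ρbar) (b := b) r τ * rbarMat ρbar b σ⁻¹ +
        tangentMat (ρbar := ρbar) (b := b) r σ := by
  unfold tangentMat
  rw [map_mul, mSnd_mul, hr σ, hr τ, _root_.mul_inv_rev, rbarMat_mul, add_mul]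
  congr 1
  · simp only [mul_assoc]
  · rw [mul_assoc, ← mul_assoc (rbarMat ρbar b τ), rbarMat_mul_inv, one_mul]

lemma trace_tangentMat {r : GQ →* Matrix (Fin 2) (Fin 2) (DualNumber k)}
    (hr : IsDualLift ρbar b r) (hdet : HasResidualDet r) (σ : GQ) :
    (tangentMat (ρbar := ρbar) (b := b) r σ).trace = 0 := by
  unfold tangentMat
  have h1 := snd_det (r σ)
  rw [hdet σ, hr σ] at h1
  have h2 : rbarMat ρbar b σ⁻¹ = (rbarMat ρbar b σ)⁻¹ :=
    (Matrix.inv_eq_right_inv (rbarMat_mul_inv ρbar b σ)).symm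
  rw [h2, Matrix.inv_def, Matrix.mul_smul, Matrix.trace_smul, ← h1, smul_zero]

/-- the tangent cocycle with values in `End_k(V)` -/
def tangentEnd (r : GQ →* Matrix (Fin 2) (Fin 2) (DualNumber k)) (σ : GQ) :
    Module.End k ρbar.V :=
  Matrix.toLin b b (tangentMat (ρbar := ρbar) (b := b) r σ)

lemma tangentEnd_mul {r : GQ →* Matrix (Fin 2) (Fin 2) (DualNumber k)} (hr : IsDualLift ρbar b r)
    (σ τ : GQ) :
    tangentEnd (ρbar := ρbar) (b := b) r (σ * τ) =
      adRepn ρbar σ (tangentEnd (ρbar := ρbar) (b := b) r τ) +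
        tangentEnd (ρbar := ρbar) (b := b) r σ := by
  unfold tangentEnd
  rw [tangentMat_mul hr, map_add, adRepn_apply, Matrix.toLin_mul b b b, Matrix.toLin_mul b b b,
    toLin_rbarMat, toLin_rbarMat]
  rfl

lemma trace_tangentEnd {r : GQ →* Matrix (Fin 2) (Fin 2) (DualNumber k)}
    (hr : IsDualLift ρbar b r) (hdet : HasResidualDet r) (σ : GQ) :
    LinearMap.trace k ρbar.V (tangentEnd (ρbar := ρbar) (b := b) r σ) = 0 := by
  unfold tangentEnd
  rw [LinearMap.trace_eq_matrix_trace k b, LinearMap.toMatrix_toLin, trace_tangentMat hr hdet]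

/-- the tangent cocycle of a lift with residual determinant, with values in `ad⁰ ρbar` -/
def tangentCocycle (r : GQ →* Matrix (Fin 2) (Fin 2) (DualNumber k))
    (hr : IsDualLift ρbar b r) (hdet : HasResidualDet r) : cocycles₁ (ad0Rep ρbar) :=
  ⟨fun σ => ad0Mk ρbar (tangentEnd (ρbar := ρbar) (b := b) r σ) (trace_tangentEnd hr hdet σ),
    (mem_cocycles₁_iff _).2 fun σ τ => ad0Val_injective ρbar (by
      rw [ad0Val_add, ad0Val_ρ, ad0Val_ad0Mk, ad0Val_ad0Mk, ad0Val_ad0Mk]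
      exact tangentEnd_mul hr σ τ)⟩

@[simp] lemma ad0Val_tangentCocycle (r : GQ →* Matrix (Fin 2) (Fin 2) (DualNumber k))
    (hr : IsDualLift ρbar b r) (hdet : HasResidualDet r) (σ : GQ) :
    ad0Val ρbar (tangentCocycle r hr hdet σ) = tangentEnd (ρbar := ρbar) (b := b) r σ := rfl

/-- the tangent class of a lift in `H¹(G_ℚ, ad⁰ ρbar)` -/
def tangentClass (r : GQ →* Matrix (Fin 2) (Fin 2) (DualNumber k))
    (hr : IsDualLift ρbar b r) (hdet : HasResidualDet r) : H1 (ad0Rep ρbar) :=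
  H1π (ad0Rep ρbar) (tangentCocycle r hr hdet)

/-! ## Lifts with the same tangent class are conjugate -/

lemma mFst_conj_mUnit (Y : Matrix (Fin 2) (Fin 2) k) (A : Matrix (Fin 2) (Fin 2) (DualNumber k)) :
    mFst ((mUnit Y : Matrix (Fin 2) (Fin 2) (DualNumber k)) * A *
      (((mUnit Y)⁻¹ : (Matrix (Fin 2) (Fin 2) (DualNumber k))ˣ) :
        Matrix (Fin 2) (Fin 2) (DualNumber k))) = mFst A := by
  change mFst (mOf 1 Y * A * mOf 1 (-Y)) = mFst A
  rw [mFst_mul, mFst_mul, mFst_mOf, mFst_mOf, one_mul, mul_one]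

lemma mSnd_conj_mUnit (Y : Matrix (Fin 2) (Fin 2) k) (A : Matrix (Fin 2) (Fin 2) (DualNumber k)) :
    mSnd ((mUnit Y : Matrix (Fin 2) (Fin 2) (DualNumber k)) * A *
      (((mUnit Y)⁻¹ : (Matrix (Fin 2) (Fin 2) (DualNumber k))ˣ) :
        Matrix (Fin 2) (Fin 2) (DualNumber k))) =
      mSnd A + Y * mFst A - mFst A * Y := by
  change mSnd (mOf 1 Y * A * mOf 1 (-Y)) = _
  rw [mSnd_mul, mFst_mul, mSnd_mul, mFst_mOf, mFst_mOf, mSnd_mOf, mSnd_mOf, one_mul, one_mul,
    mul_one, mul_neg]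
  abel

/-- two lifts with the same tangent class are conjugate by `1 + ε Y` -/
theorem exists_conj_of_tangentClass_eq {r r' : GQ →* Matrix (Fin 2) (Fin 2) (DualNumber k)}
    (hr : IsDualLift ρbar b r) (hdet : HasResidualDet r)
    (hr' : IsDualLift ρbar b r') (hdet' : HasResidualDet r')
    (h : tangentClass r hr hdet = tangentClass r' hr' hdet') :
    ∃ u : (Matrix (Fin 2) (Fin 2) (DualNumber k))ˣ,
      ∀ σ, (u : Matrix (Fin 2) (Fin 2) (DualNumber k)) * r' σ *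
        ((u⁻¹ : (Matrix (Fin 2) (Fin 2) (DualNumber k))ˣ) :
          Matrix (Fin 2) (Fin 2) (DualNumber k)) = r σ := by
  unfold tangentClass at h
  rw [H1π_eq_iff] at h
  obtain ⟨X, hX⟩ := h
  -- `hX : d₀₁ X = c - c'`
  have hX' : ∀ σ, adRepn ρbar σ (ad0Val ρbar X) - ad0Val ρbar X =
      tangentEnd (ρbar := ρbar) (b := b) r σ - tangentEnd (ρbar := ρbar) (b := b) r' σ := by
    intro σ
    have h1 := congrFun hX σ
    rw [d₀₁_hom_apply] at h1
    have h2 := congrArg (ad0Val ρbar) h1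
    rw [ad0Val_sub, ad0Val_ρ] at h2
    exact h2
  set Xm : Matrix (Fin 2) (Fin 2) k := LinearMap.toMatrix b b (ad0Val ρbar X) with hXm
  have hmat : ∀ σ, rbarMat ρbar b σ * Xm * rbarMat ρbar b σ⁻¹ - Xm =
      tangentMat (ρbar := ρbar) (b := b) r σ - tangentMat (ρbar := ρbar) (b := b) r' σ := by
    intro σ
    have h1 := congrArg (LinearMap.toMatrix b b) (hX' σ)
    rw [map_sub, map_sub, adRepn_apply, LinearMap.toMatrix_comp b b b,
      LinearMap.toMatrix_comp b b b] at h1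
    unfold tangentEnd at h1
    rw [LinearMap.toMatrix_toLin, LinearMap.toMatrix_toLin] at h1
    rw [← mul_assoc] at h1
    exact h1
  refine ⟨mUnit (k := k) (-Xm), fun σ => mat_ext_fst_snd ?_ ?_⟩
  · rw [mFst_conj_mUnit, hr σ, hr' σ]
  · rw [mSnd_conj_mUnit, hr' σ]
    have h1 := hmat σ
    unfold tangentMat at h1
    have h2 := congrArg (· * rbarMat ρbar b σ) h1
    simp only [sub_mul, mul_assoc, rbarMat_inv_mul, mul_one] at h2
    -- h2 : a * Xm - Xm * a = B - B'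
    rw [neg_mul, mul_neg]
    rw [sub_eq_iff_eq_add] at h2
    rw [h2]
    abel

end

end Fermat.Agent.TW
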