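import Fermat.Statements.S56
import Fermat.Prelude.Def_GroupCohomology_ContinuousUnramified
import Fermat.Prelude.Def_GroupCohomology_SelmerAdm
import Fermat.Agent.Lib.TW.Tangent

/-!
# P10 (S56, Taylor–Wiles primes): THE INTERFACE between the packages G2 … G8 and the wiring G9

Everything here is a DEFINITION (`def … : Prop`), nothing is assumed.  `S56.lean` will be proved
from these contracts (`Lib/TW/Wiring.lean`).  Vocabulary: the Prelude's `groupCohomology.selmerAdm`,
`dualConditions`, `IsGreenbergWilesLeDatumAdm` (files `Def_GroupCohomology_Selmer*.lean`), with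

* `Γ = GQ`, local groups `extArithLocalGroups S'` (`Unit ⊕ S'`: the archimedean place and the
  Prelude local Galois groups `primeLocalGaloisGroup q = Gal(ℚ̄_q/ℚ_q)`), `loc = extArithLoc S'`;
* coefficient field `k` (finite, characteristic `p`), `M = ad0Rep ρbar`, `M' = M^*(1)`;
* admissible classes `adm = continuousH1S S' M` (classes of cocycles that are constant modulo a
  finite level unramified outside `S'`).
-/

set_option autoImplicit false

open Fermat.Agent.S53Lib IsLocalRing groupCohomology ExtCitation Polynomial CategoryTheory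

namespace Fermat.Agent.TW

noncomputable section

variable {k : Type} [Field k]

/-! ## General vocabulary (any coefficient module) -/

/-- the mod `p` cyclotomic character with values in `k` -/
def cycloK (p : ℕ) [Fact p.Prime] (k : Type) [Field k] [Algebra (ZMod p) k] : GQ →* kˣ :=
  (Units.map (algebraMap (ZMod p) k).toMonoidHom).comp (cycloChar p)

/-- the Tate dual `M^*(1) = Hom_k(M, k)(1)` -/
abbrev tateDual (p : ℕ) [Fact p.Prime] [Algebra (ZMod p) k] (M : Rep k GQ) : Rep k GQ :=
  M.dualTwist (cycloK p k)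

/-- restriction to the local Galois group at `q` -/
abbrev locAt (q : Nat.Primes) (M : Rep k GQ) : Rep k (primeLocalGaloisGroup q) :=
  Rep.res (primeLocalToGlobal q) M

/-- the restriction map `H¹(G_ℚ, M) → H¹(G_q, M)` -/
def resAt (q : Nat.Primes) (M : Rep k GQ) : H1 M →ₗ[k] H1 (locAt q M) :=
  (groupCohomology.map (primeLocalToGlobal q) (𝟙 (locAt q M)) 1).hom

/-- the continuous classes in `H¹(G_q, M)` -/
def locCont (q : Nat.Primes) (M : Rep k GQ) : Submodule k (H1 (locAt q M)) :=
  continuousH1 (primeLocalToGlobal q) (locAt q M)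

/-- `M` is smooth -/
def IsSmoothRep (M : Rep k GQ) : Prop :=
  ∀ m : M, ∃ F : IntermediateField ℚ (AlgebraicClosure ℚ), FiniteDimensional ℚ F ∧
    ∀ s ∈ F.fixingSubgroup, M.ρ s m = m

/-- `M` is unramified outside `S'` -/
def IsUnramifiedOutsideRep (S' : Finset Nat.Primes) (M : Rep k GQ) : Prop :=
  ∀ q : Nat.Primes, q ∉ S' → ∀ A : ValuationSubring (AlgebraicClosure ℚ),
    A.LiesOverPrime (q : ℕ) → ∀ g ∈ A.inertiaSubgroupIn ℚ, M.ρ g = 1

/-- a family of local pairings, one for each prime (G2 defines it: the local Tate pairing with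
values in `H²(G_q, k(1)) = k`, extended in any `k`-bilinear way to the non-continuous classes) -/
abbrev LocalPairings (M M' : Rep k GQ) : Type :=
  ∀ q : Nat.Primes, H1 (locAt q M) →ₗ[k] H1 (locAt q M') →ₗ[k] k

/-- a family of local conditions, one for each prime -/
abbrev LocalConditions (M : Rep k GQ) : Type :=
  ∀ q : Nat.Primes, Submodule k (H1 (locAt q M))

/-- the Selmer structure on `extArithIndex S'` attached to a family of local conditions: `0` at the
archimedean place (for odd `p` the whole `H¹(G_ℝ, M)` vanishes) -/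
def selmerStruct (S' : Finset Nat.Primes) {M : Rep k GQ} (L : LocalConditions M) :
    ∀ v : extArithIndex S', Submodule k (H1 (Rep.res (extArithLoc S' v) M))
  | Sum.inl _ => ⊥
  | Sum.inr q => L q.1

/-- the pairings on `extArithIndex S'` attached to a family of local pairings: `0` at the
archimedean place -/
def pairingOf (S' : Finset Nat.Primes) {M M' : Rep k GQ} (tp : LocalPairings M M') :
    ∀ v : extArithIndex S', H1 (Rep.res (extArithLoc S' v) M) →ₗ[k]
      H1 (Rep.res (extArithLoc S' v) M') →ₗ[k] k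
  | Sum.inl _ => 0
  | Sum.inr q => tp q.1

/-- the Selmer group of `M` for the set `S'` and the local conditions `L` -/
def selmerGroup (S' : Finset Nat.Primes) {M : Rep k GQ} (L : LocalConditions M) :
    Submodule k (H1 M) :=
  selmerAdm (extArithLoc S') M (selmerStruct S' L) (continuousH1S S' M)

/-- the dual Selmer group (in `H¹(G_ℚ, M')`) for the set `S'`, the local conditions `L` on `M` and
the local pairings `tp` -/
def dualSelmerGroup (S' : Finset Nat.Primes) {M M' : Rep k GQ} (tp : LocalPairings M M')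
    (L : LocalConditions M) : Submodule k (H1 M') :=
  selmerAdm (extArithLoc S') M'
    (dualConditions (extArithLoc S') M M' (pairingOf S' tp) (selmerStruct S' L))
    (continuousH1S S' M')

/-! ## Contract of G2 + G3 + G4 : Wiles' inequality (Greenberg–Wiles formula) -/

/-- **(C-GW)** Wiles' inequality
`dim Sel_L(M) + h⁰(M') + Σ_v h⁰(G_v, M) ≤ dim Sel_{L^⊥}(M') + h⁰(M) + Σ_v dim L_v`
(`v` runs over the archimedean place and the primes of `S'`) for every finite set `S' ∋ p` outside
of which `M` is unramified and every family of continuous local conditions, together with the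
finiteness statements packaged in `IsGreenbergWilesLeDatumAdm`. -/
def ContractGW (p : ℕ) [Fact p.Prime] (M M' : Rep k GQ) (tp : LocalPairings M M') : Prop :=
  ∀ S' : Finset Nat.Primes, pPrime p ∈ S' → IsUnramifiedOutsideRep S' M →
    ∀ L : LocalConditions M, (∀ q, L q ≤ locCont q M) →
      IsGreenbergWilesLeDatumAdm (extArithLoc S') M M' (pairingOf S' tp) (selmerStruct S' L)
        (continuousH1S S' M) (continuousH1S S' M')

/-- **(C-PERF)** the local pairings are right non-degenerate on continuous classes (G2). -/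
def ContractPerf {M M' : Rep k GQ} (tp : LocalPairings M M') : Prop :=
  ∀ (q : Nat.Primes) (y : H1 (locAt q M')), y ∈ locCont q M' →
    (∀ x ∈ locCont q M, tp q x y = 0) → y = 0

/-! ## The deformation-theoretic side -/

variable (p : ℕ) [Fact p.Prime] (ρbar : ResidualGaloisRep k)
  (b : Module.Basis (Fin 2) k ρbar.V)

/-- "the tangent class of every lift of type `cond` restricts into `Lq`": for every representation
`ρ'` over `k[ε]` of type `cond` which is equivalent to `ofMat r` for a matrix lift `r` of `ρbar`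
(in the basis `b`) with residual determinant. -/
def TangentClassesIn (cond : GaloisRepAdic (DualNumber k) → Prop) (q : Nat.Primes)
    (Lq : Submodule k (H1 (locAt q (ad0Rep ρbar)))) : Prop :=
  ∀ (ρ' : GaloisRepAdic (DualNumber k)) (r : GQ →* Matrix (Fin 2) (Fin 2) (DualNumber k))
    (h : MatCts (DualNumber k) r) (hr : IsDualLift ρbar b r) (hdet : HasResidualDet r),
    ρ'.IsEquiv (ofMat r h) → cond ρ' →
      resAt q (ad0Rep ρbar) (tangentClass r hr hdet) ∈ Lq

/-- `h⁰(G_q, ad⁰ ρbar)` -/
def h0At (q : Nat.Primes) : ℕ :=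
  Module.finrank k (locAt q (ad0Rep ρbar)).ρ.invariants

/-- **(C-LOC-p)** (G6b for `cond = strict ordinary`, G7 for `cond = flat`): a local condition at
`p` of dimension `≤ h⁰ + 1` containing all tangent classes of type `cond`. -/
def ContractLocP (cond : GaloisRepAdic (DualNumber k) → Prop) : Prop :=
  ∃ Lp : Submodule k (H1 (locAt (pPrime p) (ad0Rep ρbar))),
    Lp ≤ locCont (pPrime p) (ad0Rep ρbar) ∧
    Module.finrank k Lp ≤ h0At ρbar (pPrime p) + 1 ∧
    TangentClassesIn ρbar b cond (pPrime p) Lp

/-- the strict ordinary condition at `p` for lifts to `k[ε]` -/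
def condStrictOrd : GaloisRepAdic (DualNumber k) → Prop :=
  fun ρ' => ρ'.DetIsCyclotomic p ∧ ρ'.IsStrictOrdinaryAt p

/-- the flat condition at `p` for lifts to `k[ε]` -/
def condFlat : GaloisRepAdic (DualNumber k) → Prop :=
  fun ρ' => ρ'.DetIsCyclotomic p ∧ ρ'.IsFlatAt p

/-- **(C-LOC-min)** (G6a): at a prime `q ≠ p` where `ρbar` is ramified, a local condition of
dimension `≤ h⁰` containing all tangent classes of lifts with unipotent inertia at `q`
(`H¹_ur(G_q, ad⁰)`). -/
def ContractLocMin : Prop :=
  ∀ q : Nat.Primes, (q : ℕ) ≠ p → ¬ ρbar.IsUnramifiedAt q →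
    ∃ Lq : Submodule k (H1 (locAt q (ad0Rep ρbar))),
      Lq ≤ locCont q (ad0Rep ρbar) ∧
      Module.finrank k Lq ≤ h0At ρbar q ∧
      TangentClassesIn ρbar b (fun ρ' => ρ'.IsUnipotentOnInertiaAt q) q Lq

/-- `q` is a Taylor–Wiles prime for `ρbar`: the Frobenius clause of S56. -/
def IsTWPrime (q : ℕ) : Prop :=
  ∀ P : ValuationSubring (AlgebraicClosure ℚ), P.LiesOverPrime q →
    ∀ φ : AlgebraicClosure ℚ ≃ₐ[ℚ] AlgebraicClosure ℚ, P.IsFrobeniusAt φ q →
      ∃ α β : k, α ≠ β ∧ LinearMap.charpoly (ρbar.ρ φ) = (X - C α) * (X - C β)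

/-- **(C-LOC-TW)** (G6c): at a Taylor–Wiles prime `q ≡ 1 mod p` (where `ρbar` is unramified) the
whole continuous `H¹(G_q, ad⁰ ρbar)` has dimension `≤ h⁰ + 1`. -/
def ContractLocTW : Prop :=
  ∀ q : Nat.Primes, (q : ℕ) ≠ p → p ∣ (q : ℕ) - 1 → ρbar.IsUnramifiedAt q → IsTWPrime ρbar q →
    Module.finrank k (locCont q (ad0Rep ρbar)) ≤ h0At ρbar q + 1

/-- **(C-ARCH)** (G6d): `h⁰(G_ℝ, ad⁰ ρbar) = 1` (`ρbar` is odd) and `H¹(G_ℝ, ad⁰ ρbar) = 0`
(`p` is odd). -/
def ContractArch : Prop :=
  Module.finrank k (Rep.res archimedeanLoc (ad0Rep ρbar)).ρ.invariants = 1 ∧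
    ∀ x : H1 (Rep.res archimedeanLoc (ad0Rep ρbar)), x = 0

/-- **(C-H0)** (G8a): `h⁰(G_ℚ, ad⁰ ρbar) = 0`. -/
def ContractH0 : Prop :=
  Module.finrank k (ad0Rep ρbar).ρ.invariants = 0

/-- the primes of a finite set of natural numbers -/
def primesOf (T : Finset ℕ) : Finset Nat.Primes :=
  (T.filter Nat.Prime).attach.image fun q => ⟨q.1, (Finset.mem_filter.1 q.2).2⟩

/-- **(C-TW)** (G8 + G1): for the dual Selmer group `W` of the minimal problem (`Q = ∅`) and every
`n` there are `dim_k W` Taylor–Wiles primes `≡ 1 mod p^(n+1)` outside `S` such that the dual Selmer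
group of the enlarged problem vanishes.  (`L q` is the whole continuous `H¹(G_q, M)` outside `Smin`,
so by (C-PERF) its annihilator is trivial on continuous classes.)  To be proved for every `tp`
satisfying (C-PERF) and every `L`, under the hypotheses of S56. -/
def ContractTW [Algebra (ZMod p) k] (S Smin : Finset ℕ)
    (tp : LocalPairings (ad0Rep ρbar) (tateDual p (ad0Rep ρbar)))
    (L : LocalConditions (ad0Rep ρbar)) : Prop :=
  (∀ q : Nat.Primes, (q : ℕ) ∉ Smin → L q = locCont q (ad0Rep ρbar)) →
  FiniteDimensional k (dualSelmerGroup (primesOf Smin) tp L) →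
  ∀ n : ℕ, ∃ qv : Fin (Module.finrank k (dualSelmerGroup (primesOf Smin) tp L)) → ℕ,
    Function.Injective qv ∧
    (∀ i, (qv i).Prime ∧ qv i ∉ S ∧ p ^ (n + 1) ∣ qv i - 1) ∧
    (∀ i, IsTWPrime ρbar (qv i)) ∧
    dualSelmerGroup (primesOf (Smin ∪ Finset.univ.image qv)) tp L = ⊥

end

end Fermat.Agent.TW
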