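import Mathlib
import Fermat.Agent.Lib.S53.Aug
import Fermat.Agent.Lib.S53.TangentN
import Fermat.Agent.Lib.S53.PowerSeriesLocal

/-!
# P10 / G5 (part 3): few points in `k[ε]` ⟹ few generators

Let `R` be a complete Noetherian local `𝒪`-algebra with residue field `k = 𝒪/m`.  If every finite
set of `𝒪`-algebra homomorphisms `R → k[ε]` has at most `|k| ^ r` elements, then `R` is a quotient
of `𝒪⟦X_1, …, X_r⟧`.
-/

set_option autoImplicit false
set_option linter.unusedSectionVars false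
set_option linter.style.haveILetI false

open IsLocalRing Fermat.Agent.S53Lib

namespace Fermat.Agent.TW

noncomputable section

attribute [local instance] dualNumberAlgebra

variable {𝒪 : Type} [CommRing 𝒪] [IsLocalRing 𝒪]
variable {R : Type} [CommRing R] [IsLocalRing R] [Algebra 𝒪 R]

/-- `m_𝒪 R + m_R²` -/
def cotIdeal (𝒪 : Type) [CommRing 𝒪] [IsLocalRing 𝒪] (R : Type) [CommRing R] [IsLocalRing R]
    [Algebra 𝒪 R] : Ideal R :=
  (maximalIdeal 𝒪).map (algebraMap 𝒪 R) ⊔ maximalIdeal R ^ 2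

/-- `m_𝒪 R + m_R² + 𝒪·1` as an `𝒪`-submodule -/
def cotSub (𝒪 : Type) [CommRing 𝒪] [IsLocalRing 𝒪] (R : Type) [CommRing R] [IsLocalRing R]
    [Algebra 𝒪 R] : Submodule 𝒪 R :=
  (cotIdeal 𝒪 R).restrictScalars 𝒪 ⊔ Submodule.span 𝒪 {1}

/-- the (reduced) cotangent space `R / (m_𝒪 R + m_R² + 𝒪)` -/
abbrev CotQ (𝒪 : Type) [CommRing 𝒪] [IsLocalRing 𝒪] (R : Type) [CommRing R] [IsLocalRing R]
    [Algebra 𝒪 R] : Type := R ⧸ cotSub 𝒪 R

lemma mem_cotSub_of_mem_cotIdeal {x : R} (hx : x ∈ cotIdeal 𝒪 R) : x ∈ cotSub 𝒪 R :=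
  Submodule.mem_sup_left hx

lemma one_mem_cotSub : (1 : R) ∈ cotSub 𝒪 R :=
  Submodule.mem_sup_right (Submodule.mem_span_singleton_self 1)

lemma algebraMap_mem_cotSub (c : 𝒪) : algebraMap 𝒪 R c ∈ cotSub 𝒪 R := by
  rw [Algebra.algebraMap_eq_smul_one]
  exact Submodule.smul_mem _ c one_mem_cotSub

lemma cotQ_isTorsionBySet :
    Module.IsTorsionBySet 𝒪 (CotQ 𝒪 R) (maximalIdeal 𝒪 : Set 𝒪) := by
  intro x a
  obtain ⟨x, rfl⟩ := Submodule.Quotient.mk_surjective _ x
  rw [← Submodule.Quotient.mk_smul, Submodule.Quotient.mk_eq_zero]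
  refine mem_cotSub_of_mem_cotIdeal (Submodule.mem_sup_left ?_)
  rw [Algebra.smul_def]
  exact Ideal.mul_mem_right _ _ (Ideal.mem_map_of_mem _ a.2)

/-- the `k`-vector space structure on the cotangent space -/
@[reducible] def cotQModule : Module (ResidueField 𝒪) (CotQ 𝒪 R) :=
  (cotQ_isTorsionBySet (𝒪 := 𝒪) (R := R)).module

attribute [local instance] cotQModule

lemma residue_smul_cotQ (c : 𝒪) (x : CotQ 𝒪 R) : (residue 𝒪 c) • x = c • x := rfl

/-- the projection `R → CotQ` -/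
def cotπ (𝒪 : Type) [CommRing 𝒪] [IsLocalRing 𝒪] (R : Type) [CommRing R] [IsLocalRing R]
    [Algebra 𝒪 R] : R →ₗ[𝒪] CotQ 𝒪 R := (cotSub 𝒪 R).mkQ

lemma cotπ_surjective : Function.Surjective (cotπ 𝒪 R) := Submodule.mkQ_surjective _

lemma cotπ_eq_zero_iff (x : R) : cotπ 𝒪 R x = 0 ↔ x ∈ cotSub 𝒪 R :=
  Submodule.Quotient.mk_eq_zero _

variable (hloc : IsLocalHom (algebraMap 𝒪 R))
  (hsurj : Function.Surjective (residue R ∘ algebraMap 𝒪 R))

include hloc hsurj in
/-- every element is a scalar plus an element of the maximal ideal -/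
lemma exists_sub_algebraMap_mem (x : R) : ∃ c : 𝒪, x - algebraMap 𝒪 R c ∈ maximalIdeal R ∧
    augOf hloc hsurj x = residue 𝒪 c := by
  obtain ⟨c, hc⟩ := residue_surjective (augOf hloc hsurj x)
  refine ⟨c, ?_, hc.symm⟩
  rw [← augOf_eq_zero_iff hloc hsurj, map_sub, augOf_algebraMap, hc, sub_self]

include hloc hsurj in
/-- the Leibniz rule for the projection to the cotangent space -/
lemma cotπ_mul (a b : R) :
    cotπ 𝒪 R (a * b) = augOf hloc hsurj a • cotπ 𝒪 R b + augOf hloc hsurj b • cotπ 𝒪 R a := by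
  obtain ⟨α, hα, hα'⟩ := exists_sub_algebraMap_mem hloc hsurj a
  obtain ⟨β, hβ, hβ'⟩ := exists_sub_algebraMap_mem hloc hsurj b
  rw [hα', hβ', residue_smul_cotQ, residue_smul_cotQ, ← map_smul, ← map_smul, ← map_add,
    ← sub_eq_zero, ← map_sub, cotπ_eq_zero_iff]
  have h1 : (a - algebraMap 𝒪 R α) * (b - algebraMap 𝒪 R β) ∈ cotSub 𝒪 R :=
    mem_cotSub_of_mem_cotIdeal (Submodule.mem_sup_right (by
      rw [pow_two]; exact Ideal.mul_mem_mul hα hβ))
  have h2 : algebraMap 𝒪 R (α * β) ∈ cotSub 𝒪 R := algebraMap_mem_cotSub _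
  have h3 : a * b - (α • b + β • a) =
      (a - algebraMap 𝒪 R α) * (b - algebraMap 𝒪 R β) - algebraMap 𝒪 R (α * β) := by
    rw [Algebra.smul_def, Algebra.smul_def, map_mul]; ring
  rw [h3]
  exact Submodule.sub_mem _ h1 h2

/-- the point of `R` in `k[ε]` attached to a functional on the cotangent space -/
def pointOfDual (l : Module.Dual (ResidueField 𝒪) (CotQ 𝒪 R)) :
    R →ₐ[𝒪] DualNumber (ResidueField 𝒪) where
  toFun x := TrivSqZeroExt.inl (augOf hloc hsurj x) + TrivSqZeroExt.inr (l (cotπ 𝒪 R x))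
  map_one' := by
    have h1 : cotπ 𝒪 R (1 : R) = 0 := (cotπ_eq_zero_iff _).2 one_mem_cotSub
    rw [map_one, h1, map_zero, TrivSqZeroExt.inr_zero, add_zero]; rfl
  map_mul' a b := by
    apply TrivSqZeroExt.ext
    · simp
    · simp only [TrivSqZeroExt.snd_add, TrivSqZeroExt.snd_inl, TrivSqZeroExt.snd_inr, zero_add,
        TrivSqZeroExt.snd_mul, TrivSqZeroExt.fst_add, TrivSqZeroExt.fst_inl,
        TrivSqZeroExt.fst_inr, add_zero, smul_eq_mul, MulOpposite.smul_eq_mul_unop,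
        MulOpposite.unop_op]
      rw [cotπ_mul hloc hsurj, map_add, map_smul, map_smul, smul_eq_mul, smul_eq_mul,
        mul_comm (l _) _]
  map_zero' := by simp
  map_add' a b := by
    apply TrivSqZeroExt.ext
    · simp
    · simp
  commutes' c := by
    have h1 : cotπ 𝒪 R (algebraMap 𝒪 R c) = 0 := (cotπ_eq_zero_iff _).2 (algebraMap_mem_cotSub c)
    show TrivSqZeroExt.inl (augOf hloc hsurj (algebraMap 𝒪 R c)) +
      TrivSqZeroExt.inr (l (cotπ 𝒪 R (algebraMap 𝒪 R c))) = _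
    rw [h1, map_zero, TrivSqZeroExt.inr_zero, add_zero, augOf_algebraMap]
    rfl

lemma pointOfDual_injective : Function.Injective (pointOfDual hloc hsurj) := by
  intro l l' h
  refine LinearMap.ext fun q => ?_
  obtain ⟨x, rfl⟩ := cotπ_surjective q
  have h1 := congrArg TrivSqZeroExt.snd (AlgHom.congr_fun h x)
  simpa [pointOfDual] using h1

include hloc hsurj in
/-- `R = 𝒪·1 + m_R` -/
lemma exists_eq_algebraMap_add (x : R) : ∃ (c : 𝒪) (m : R), m ∈ maximalIdeal R ∧
    x = algebraMap 𝒪 R c + m := by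
  obtain ⟨c, hc, -⟩ := exists_sub_algebraMap_mem hloc hsurj x
  exact ⟨c, x - algebraMap 𝒪 R c, hc, by ring⟩

include hloc hsurj in
/-- generators of `m_R` span the cotangent space -/
lemma cotπ_mem_span_of_span_eq {ι : Type} (g : ι → R) (hg : Ideal.span (Set.range g) = maximalIdeal R)
    (x : R) : cotπ 𝒪 R x ∈ Submodule.span 𝒪 (Set.range fun i => cotπ 𝒪 R (g i)) := by
  obtain ⟨c, m, hm, rfl⟩ := exists_eq_algebraMap_add hloc hsurj x
  rw [map_add, (cotπ_eq_zero_iff _).2 (algebraMap_mem_cotSub c), zero_add]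
  rw [← hg] at hm
  refine Submodule.span_induction (p := fun m _ => cotπ 𝒪 R m ∈
    Submodule.span 𝒪 (Set.range fun i => cotπ 𝒪 R (g i))) ?_ ?_ ?_ ?_ hm
  · rintro _ ⟨i, rfl⟩
    exact Submodule.subset_span ⟨i, rfl⟩
  · rw [map_zero]; exact Submodule.zero_mem _
  · intro a b _ _ ha hb
    rw [map_add]; exact Submodule.add_mem _ ha hb
  · intro a y hy hy'
    -- `a • y = (c + m) * y`, `m * y ∈ m_R²`
    obtain ⟨c', m', hm', rfl⟩ := exists_eq_algebraMap_add hloc hsurj a
    have hy2 : y ∈ maximalIdeal R := by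
      rw [← hg]; exact hy
    rw [smul_eq_mul, add_mul, map_add, ← Algebra.smul_def, map_smul]
    have h0 : cotπ 𝒪 R (m' * y) = 0 := (cotπ_eq_zero_iff _).2
      (mem_cotSub_of_mem_cotIdeal (Submodule.mem_sup_right (by
        rw [pow_two]; exact Ideal.mul_mem_mul hm' hy2)))
    rw [h0, add_zero]
    exact Submodule.smul_mem _ c' hy'

instance cotQ_isScalarTower : IsScalarTower 𝒪 (ResidueField 𝒪) (CotQ 𝒪 R) :=
  ⟨fun c x y => by
    obtain ⟨x, rfl⟩ := residue_surjective x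
    rw [Algebra.smul_def, ← residue_smul_cotQ c, mul_smul]
    rfl⟩

include hloc hsurj in
lemma cotQ_finite (hfg : (maximalIdeal R).FG) : Module.Finite (ResidueField 𝒪) (CotQ 𝒪 R) := by
  classical
  obtain ⟨n, g, hg⟩ := Submodule.fg_iff_exists_fin_generating_family.mp hfg
  have hfin : Module.Finite 𝒪 (CotQ 𝒪 R) := by
    refine ⟨⟨(Finset.univ : Finset (Fin n)).image (fun i => cotπ 𝒪 R (g i)), ?_⟩⟩
    rw [eq_top_iff]
    intro q _
    obtain ⟨x, rfl⟩ := cotπ_surjective q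
    have := cotπ_mem_span_of_span_eq hloc hsurj g hg x
    rw [Finset.coe_image, Finset.coe_univ, Set.image_univ]
    exact this
  exact Module.Finite.of_restrictScalars_finite 𝒪 (ResidueField 𝒪) (CotQ 𝒪 R)

include hloc in
lemma cotIdeal_le_maximalIdeal : cotIdeal 𝒪 R ≤ maximalIdeal R := by
  refine sup_le ?_ ?_
  · rw [Ideal.map_le_iff_le_comap]
    intro c hc
    exact (map_nonunit (algebraMap 𝒪 R) c hc)
  · exact Ideal.pow_le_self two_ne_zero

include hloc hsurj in
/-- **few points ⟹ few generators.** -/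
theorem exists_generators_of_card_points_le [Finite (ResidueField 𝒪)]
    (hfg : (maximalIdeal R).FG) (r : ℕ)
    (hcard : ∀ s : Finset (R →ₐ[𝒪] DualNumber (ResidueField 𝒪)),
      s.card ≤ Nat.card (ResidueField 𝒪) ^ r) :
    ∃ a : Fin r → R, (∀ i, a i ∈ maximalIdeal R) ∧
      maximalIdeal R ≤ (maximalIdeal 𝒪).map (algebraMap 𝒪 R) ⊔ Ideal.span (Set.range a)
        ⊔ maximalIdeal R ^ 2 := by
  classical
  haveI := cotQ_finite hloc hsurj hfg
  set d := Module.finrank (ResidueField 𝒪) (CotQ 𝒪 R) with hd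
  -- `d ≤ r`
  have hdr : d ≤ r := by
    haveI : Finite (Module.Dual (ResidueField 𝒪) (CotQ 𝒪 R)) := Module.finite_of_finite (ResidueField 𝒪)
    haveI : Fintype (Module.Dual (ResidueField 𝒪) (CotQ 𝒪 R)) := Fintype.ofFinite _
    have h1 := hcard ((Finset.univ : Finset (Module.Dual (ResidueField 𝒪) (CotQ 𝒪 R))).image
      (pointOfDual hloc hsurj))
    rw [Finset.card_image_of_injective _ (pointOfDual_injective hloc hsurj), Finset.card_univ,
      ← Nat.card_eq_fintype_card, Module.natCard_eq_pow_finrank (K := ResidueField 𝒪),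
      Subspace.dual_finrank_eq] at h1
    have h2 : 1 < Nat.card (ResidueField 𝒪) := Finite.one_lt_card
    exact (Nat.pow_le_pow_iff_right h2).1 h1
  set bQ := Module.finBasis (ResidueField 𝒪) (CotQ 𝒪 R) with hbQ
  -- lifts of the basis to the maximal ideal
  have hlift : ∀ i : Fin d, ∃ x : R, x ∈ maximalIdeal R ∧ cotπ 𝒪 R x = bQ i := by
    intro i
    obtain ⟨y, hy⟩ := cotπ_surjective (𝒪 := 𝒪) (R := R) (bQ i)
    obtain ⟨c, hc, -⟩ := exists_sub_algebraMap_mem hloc hsurj y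
    refine ⟨y - algebraMap 𝒪 R c, hc, ?_⟩
    rw [map_sub, (cotπ_eq_zero_iff _).2 (algebraMap_mem_cotSub c), sub_zero, hy]
  choose x hxm hxπ using hlift
  refine ⟨fun j => if h : (j : ℕ) < d then x ⟨j, h⟩ else 0, fun j => ?_, ?_⟩
  · by_cases h : (j : ℕ) < d
    · simp only [h, dif_pos]; exact hxm _
    · simp only [h, dif_neg, not_false_eq_true]; exact Ideal.zero_mem _
  · intro y hy
    -- coefficients of `π y`
    have hc : ∀ i : Fin d, ∃ c : 𝒪, residue 𝒪 c = bQ.repr (cotπ 𝒪 R y) i :=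
      fun i => residue_surjective _
    choose c hc using hc
    set z := y - ∑ i : Fin d, c i • x i with hz
    have hz0 : cotπ 𝒪 R z = 0 := by
      rw [hz, map_sub, map_sum]
      have h1 : ∑ i : Fin d, cotπ 𝒪 R (c i • x i) = ∑ i : Fin d, bQ.repr (cotπ 𝒪 R y) i • bQ i := by
        refine Finset.sum_congr rfl fun i _ => ?_
        rw [map_smul, hxπ, ← hc i, residue_smul_cotQ]
      rw [h1, bQ.sum_repr, sub_self]
    rw [cotπ_eq_zero_iff] at hz0
    obtain ⟨ι, hι, w, hw, hιw⟩ := Submodule.mem_sup.1 hz0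
    obtain ⟨c0, rfl⟩ := Submodule.mem_span_singleton.1 hw
    have hιm : ι ∈ maximalIdeal R := cotIdeal_le_maximalIdeal hloc hι
    have hsum_m : ∑ i : Fin d, c i • x i ∈ maximalIdeal R :=
      Ideal.sum_mem _ fun i _ => by
        rw [Algebra.smul_def]; exact Ideal.mul_mem_left _ _ (hxm i)
    have hzm : z ∈ maximalIdeal R := Ideal.sub_mem _ hy hsum_m
    have hc0 : c0 • (1 : R) ∈ maximalIdeal R := by
      have : c0 • (1 : R) = z - ι := by rw [← hιw]; ring
      rw [this]; exact Ideal.sub_mem _ hzm hιm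
    have hc0' : c0 ∈ maximalIdeal 𝒪 := by
      by_contra hnot
      have hu : IsUnit c0 := by
        by_contra hnu
        exact hnot hnu
      have : IsUnit (c0 • (1 : R)) := by
        rw [← Algebra.algebraMap_eq_smul_one]; exact hu.map _
      exact hc0 this
    have hc0I : c0 • (1 : R) ∈ (maximalIdeal 𝒪).map (algebraMap 𝒪 R) := by
      rw [← Algebra.algebraMap_eq_smul_one]; exact Ideal.mem_map_of_mem _ hc0'
    -- assemble
    have hy' : y = (ι + c0 • (1 : R)) + ∑ i : Fin d, c i • x i := by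
      rw [hιw, hz]; ring
    rw [hy']
    have hspan : ∑ i : Fin d, c i • x i ∈
        Ideal.span (Set.range fun j : Fin r => if h : (j : ℕ) < d then x ⟨j, h⟩ else 0) := by
      refine Ideal.sum_mem _ fun i _ => ?_
      rw [Algebra.smul_def]
      refine Ideal.mul_mem_left _ _ (Ideal.subset_span ⟨⟨i, lt_of_lt_of_le i.2 hdr⟩, ?_⟩)
      simp
    obtain ⟨u, hu, v, hv, huv⟩ := Submodule.mem_sup.1 hι
    have : ι + c0 • (1 : R) + ∑ i : Fin d, c i • x i =
        ((u + c0 • (1 : R)) + ∑ i : Fin d, c i • x i) + v := by rw [← huv]; ring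
    rw [this]
    exact Submodule.add_mem_sup (Submodule.add_mem_sup (Ideal.add_mem _ hu hc0I) hspan) hv

/-- **few points in `k[ε]` ⟹ quotient of a power series ring in few variables.** -/
theorem exists_surjective_mvPowerSeries_of_card_points_le
    [IsAdicComplete (maximalIdeal 𝒪) 𝒪] [Finite (ResidueField 𝒪)]
    [IsNoetherianRing R] [IsAdicComplete (maximalIdeal R) R] [IsLocalHom (algebraMap 𝒪 R)]
    (hsurj : Function.Surjective (residue R ∘ algebraMap 𝒪 R)) (r : ℕ)
    (hcard : ∀ s : Finset (R →ₐ[𝒪] DualNumber (ResidueField 𝒪)),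
      s.card ≤ Nat.card (ResidueField 𝒪) ^ r) :
    ∃ γ : MvPowerSeries (Fin r) 𝒪 →ₐ[𝒪] R, Function.Surjective γ := by
  have hfg : (maximalIdeal R).FG := IsNoetherian.noetherian _
  obtain ⟨a, ha, hgen⟩ := exists_generators_of_card_points_le inferInstance hsurj hfg r hcard
  exact ⟨evalAdic (maximalIdeal R) a ha, evalAdic_surjective a ha hfg hsurj hgen⟩

end

end Fermat.Agent.TW
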