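import Fermat.Agent.Lib.TW.Points

/-!
# P10 / G9: S56 from the contracts of `Interface.lean`

`tw_main` : for a condition `X` at `p` (strict ordinary or flat) which is stable under surjective
base change to `k[ε]`, the contracts (C-GW), (C-LOC-p) for `X`, (C-LOC-min), (C-LOC-TW), (C-ARCH),
(C-H0) and (C-TW) imply the corresponding half of S56.
-/

set_option autoImplicit false
set_option linter.unusedSectionVars false
set_option linter.style.haveILetI false

open Fermat.Agent.S53Lib IsLocalRing groupCohomology ExtCitation CategoryTheory GaloisRep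

namespace Fermat.Agent.TW

noncomputable section

/-! ## Families of local conditions -/

section Fam

variable {k : Type} [Field k] {M : Rep k GQ}

/-- replace the local condition at `q₀` -/
def famAt (q₀ : Nat.Primes) (L₀ : Submodule k (H1 (locAt q₀ M))) (L : LocalConditions M) :
    LocalConditions M :=
  fun q => if h : q = q₀ then h ▸ L₀ else L q

lemma famAt_self (q₀ : Nat.Primes) (L₀ : Submodule k (H1 (locAt q₀ M))) (L : LocalConditions M) :
    famAt q₀ L₀ L q₀ = L₀ := by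
  unfold famAt
  rw [dif_pos rfl]

lemma famAt_ne (q₀ : Nat.Primes) (L₀ : Submodule k (H1 (locAt q₀ M))) (L : LocalConditions M)
    {q : Nat.Primes} (h : q ≠ q₀) : famAt q₀ L₀ L q = L q := by
  unfold famAt
  rw [dif_neg h]

end Fam

/-! ## Sets of primes -/

lemma mem_primesOf {T : Finset ℕ} {q : Nat.Primes} : q ∈ primesOf T ↔ (q : ℕ) ∈ T := by
  unfold primesOf
  constructor
  · intro h
    obtain ⟨x, -, rfl⟩ := Finset.mem_image.1 h
    exact (Finset.mem_filter.1 x.2).1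
  · intro h
    refine Finset.mem_image.2 ⟨⟨(q : ℕ), Finset.mem_filter.2 ⟨h, q.2⟩⟩, Finset.mem_attach _ _, ?_⟩
    rfl

/-! ## Counting -/

lemma tw_sum_bound (S' : Finset Nat.Primes) (pp : Nat.Primes) (Q : Finset ℕ) (r : ℕ)
    (hQ : Q.card ≤ r) (f h : Nat.Primes → ℕ)
    (hb : ∀ q ∈ S', f q ≤ h q + (if q = pp ∨ (q : ℕ) ∈ Q then 1 else 0)) :
    ∑ q : ↥S', f q.1 ≤ ∑ q : ↥S', h q.1 + 1 + r := by
  classical
  rw [Finset.sum_coe_sort S' f, Finset.sum_coe_sort S' h]
  calc ∑ q ∈ S', f q ≤ ∑ q ∈ S', (h q + (if q = pp ∨ (q : ℕ) ∈ Q then 1 else 0)) :=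
        Finset.sum_le_sum hb
    _ = ∑ q ∈ S', h q + (S'.filter (fun q : Nat.Primes => q = pp ∨ (q : ℕ) ∈ Q)).card := by
        rw [Finset.sum_add_distrib, Finset.sum_boole]
        simp
    _ ≤ ∑ q ∈ S', h q + (1 + r) := by
        refine Nat.add_le_add_left ?_ _
        have h1 : S'.filter (fun q : Nat.Primes => q = pp ∨ (q : ℕ) ∈ Q) ⊆
            ({pp} : Finset Nat.Primes) ∪ S'.filter (fun q : Nat.Primes => (q : ℕ) ∈ Q) := by
          intro q hq
          rw [Finset.mem_filter] at hq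
          rcases hq.2 with h | h
          · exact Finset.mem_union_left _ (Finset.mem_singleton.2 h)
          · exact Finset.mem_union_right _ (Finset.mem_filter.2 ⟨hq.1, h⟩)
        have h2 : (S'.filter (fun q : Nat.Primes => (q : ℕ) ∈ Q)).card ≤ Q.card := by
          refine Finset.card_le_card_of_injOn (fun q : Nat.Primes => (q : ℕ)) ?_ ?_
          · intro q hq
            exact (Finset.mem_filter.1 hq).2
          · intro q _ q' _ hqq
            exact Subtype.ext hqq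
        calc (S'.filter (fun q : Nat.Primes => q = pp ∨ (q : ℕ) ∈ Q)).card
            ≤ (({pp} : Finset Nat.Primes) ∪ S'.filter (fun q : Nat.Primes => (q : ℕ) ∈ Q)).card :=
              Finset.card_le_card h1
          _ ≤ ({pp} : Finset Nat.Primes).card + (S'.filter (fun q : Nat.Primes => (q : ℕ) ∈ Q)).card :=
              Finset.card_union_le _ _
          _ ≤ 1 + r := by rw [Finset.card_singleton]; omega
    _ = _ := by ring


/-! ## The tangent classes lie in the Selmer group -/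

section Main

variable {𝒪 : Type} [CommRing 𝒪] [IsDomain 𝒪] [IsDiscreteValuationRing 𝒪]
  [IsAdicComplete (maximalIdeal 𝒪) 𝒪] [Finite (ResidueField 𝒪)]

attribute [local instance] dualNumberAlgebra
attribute [local instance] isLocalHom_algebraMap_dualNumber

/-- the deformation problem: cyclotomic determinant, condition `X` at `p`, unramified outside `T`,
unipotent inertia at the primes of `Smin` other than `p` -/
def twCond (𝒪 : Type) [CommRing 𝒪]
    (X : ∀ ⦃A : Type⦄ [CommRing A] [IsLocalRing A], GaloisRepAdic A → Prop) (p : ℕ)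
    (Smin T : Finset ℕ) :
    ∀ ⦃A : Type⦄ [CommRing A] [IsLocalRing A] [Algebra 𝒪 A], GaloisRepAdic A → Prop :=
  fun _A _ _ _ ρ => (ρ.DetIsCyclotomic p ∧ X ρ ∧ ∀ q : ℕ, q.Prime → q ∉ T → ρ.IsUnramifiedAt q) ∧
    ∀ q ∈ Smin, q.Prime → q ≠ p → ρ.IsUnipotentOnInertiaAt q

lemma isUnramifiedOutsideRep_ad0 {k : Type} [Field k] (ρbar : ResidualGaloisRep k)
    (S' : Finset Nat.Primes) (h : ∀ q : Nat.Primes, q ∉ S' → ρbar.IsUnramifiedAt q) :
    IsUnramifiedOutsideRep S' (ad0Rep ρbar) := by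
  intro q hq A hA g hg
  have h1 : ρbar.ρ g = 1 := h q hq A hA g hg
  have h1' : ρbar.ρ g⁻¹ = 1 := by
    have h2 := rho_inv_mul_rho ρbar g
    rwa [h1, mul_one] at h2
  apply LinearMap.ext
  intro x
  apply ad0Val_injective
  rw [ad0Val_ρ, adRepn_apply, h1, h1']
  rfl

variable (p : ℕ) [Fact p.Prime] (ρbar : ResidualGaloisRep (ResidueField 𝒪))
  (b : Module.Basis (Fin 2) (ResidueField 𝒪) ρbar.V)
  (X : ∀ ⦃A : Type⦄ [CommRing A] [IsLocalRing A], GaloisRepAdic A → Prop)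

/-- the tangent class of every point of a deformation ring of type `twCond` lies in the Selmer
group -/
theorem ptClass_mem_selmerGroup
    (hXbc : ∀ ⦃A : Type⦄ [CommRing A] [IsLocalRing A]
      (φ : A →+* DualNumber (ResidueField 𝒪)) (hφ : IsLocalHom φ), Function.Surjective φ →
      ∀ ρ : GaloisRepAdic A, X ρ → X (ρ.baseChangeAlong φ hφ))
    (hpk : (p : ResidueField 𝒪) = 0)
    (Smin T : Finset ℕ)
    (L : LocalConditions (ad0Rep ρbar))
    (hLp : TangentClassesIn ρbar b (fun ρ' => ρ'.DetIsCyclotomic p ∧ X ρ') (pPrime p)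
      (L (pPrime p)))
    (hLmin : ∀ q : Nat.Primes, (q : ℕ) ∈ Smin → (q : ℕ) ≠ p →
      TangentClassesIn ρbar b (fun ρ' => ρ'.IsUnipotentOnInertiaAt q) q (L q))
    (hLtop : ∀ q : Nat.Primes, (q : ℕ) ∉ Smin → L q = locCont q (ad0Rep ρbar))
    (hArch : ContractArch ρbar)
    (DQ : DeformationRingData 𝒪 ρbar (twCond 𝒪 X p Smin T))
    (φ : DQ.R →ₐ[𝒪] DualNumber (ResidueField 𝒪)) :
    ptClass DQ b p hpk (fun _ _ _ _ _ h => h.1.1) φ ∈ selmerGroup (primesOf T) L := by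
  by_cases hs : Function.Surjective φ
  swap
  · rw [ptClass_eq_zero_of_not_surjective DQ b p hpk _ φ hs]
    exact Submodule.zero_mem _
  -- the base change is of type `twCond`
  have hloc := pt_isLocalHom DQ φ
  have hbc1 := detIsCyclotomic_baseChangeAlong (φ : DQ.R →+* DualNumber (ResidueField 𝒪)) hloc
    DQ.ρ DQ.isOfType.1.1
  have hbcX := hXbc (φ : DQ.R →+* DualNumber (ResidueField 𝒪)) hloc hs DQ.ρ DQ.isOfType.1.2.1
  have hequiv := ptMat_equiv DQ b φ
  -- admissibility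
  have hadm : ptClass DQ b p hpk (fun _ _ _ _ _ h => h.1.1) φ ∈
      continuousH1S (primesOf T) (ad0Rep ρbar) := by
    unfold ptClass
    refine tangentClass_mem_continuousH1S (primesOf T) (ptMat_cts DQ b φ) _ _ ?_
    intro q hq A hA σ hσ
    have hqT : (q : ℕ) ∉ T := fun h => hq (mem_primesOf.2 h)
    have h1 := isUnramifiedAt_of_isEquiv hequiv
      (isUnramifiedAt_baseChangeAlong (φ : DQ.R →+* DualNumber (ResidueField 𝒪)) hloc DQ.ρ
        (DQ.isOfType.1.2.2 q q.2 hqT))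
    exact (ofMat_ρ_eq_one_iff _ _ σ).1 (h1 A hA σ hσ)
  unfold selmerGroup
  rw [mem_selmerAdm_iff]
  refine ⟨?_, hadm⟩
  rintro (v | ⟨q, hq⟩)
  · show _ ∈ (⊥ : Submodule _ _)
    rw [Submodule.mem_bot]
    exact hArch.2 _
  · show resAt q (ad0Rep ρbar) _ ∈ L q
    have hqT : (q : ℕ) ∈ T := mem_primesOf.1 hq
    by_cases hqp : q = pPrime p
    · subst hqp
      exact hLp _ _ (ptMat_cts DQ b φ) _ _ hequiv ⟨hbc1, hbcX⟩
    · have hqp' : (q : ℕ) ≠ p := fun h => hqp (Subtype.ext h)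
      by_cases hqS : (q : ℕ) ∈ Smin
      · refine hLmin q hqS hqp' _ _ (ptMat_cts DQ b φ) _ _ hequiv ?_
        exact isUnipotentOnInertiaAt_baseChangeAlong _ hloc DQ.ρ (DQ.isOfType.2 q hqS q.2 hqp')
      · rw [hLtop q hqS]
        exact resAt_mem_locCont q (primesOf T) _ hadm

end Main

/-! ## The dimension count -/

section Dim

variable {k : Type} [Field k]

lemma sum_extArithIndex (S' : Finset Nat.Primes) (f : extArithIndex S' → ℕ) (a : ℕ)
    (g : ↥S' → ℕ) (ha : f (Sum.inl ()) = a) (hg : ∀ q, f (Sum.inr q) = g q) :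
    ∑ v, f v = a + ∑ q : ↥S', g q := by
  have h0 := Fintype.sum_sum_type (α₁ := Unit) (α₂ := ↥S') f
  have h1 : ∑ a₁ : Unit, f (Sum.inl a₁) = f (Sum.inl ()) := by
    rw [Finset.univ_unique, Finset.sum_singleton]
  rw [h1] at h0
  rw [← ha, ← funext hg]
  exact h0

variable (p : ℕ) [Fact p.Prime] [Algebra (ZMod p) k] (ρbar : ResidualGaloisRep k)

/-- **the dimension count**: Wiles' inequality with trivial dual Selmer group bounds the Selmer
group by the number of auxiliary primes -/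
theorem finrank_selmerGroup_le
    (tp : LocalPairings (ad0Rep ρbar) (tateDual p (ad0Rep ρbar)))
    (hGW : ContractGW p (ad0Rep ρbar) (tateDual p (ad0Rep ρbar)) tp)
    (hH0 : ContractH0 ρbar) (hArch : ContractArch ρbar)
    (Smin Q : Finset ℕ) (r : ℕ) (hQ : Q.card ≤ r)
    (hp : pPrime p ∈ primesOf (Smin ∪ Q))
    (hunr : IsUnramifiedOutsideRep (primesOf (Smin ∪ Q)) (ad0Rep ρbar))
    (L : LocalConditions (ad0Rep ρbar)) (hL : ∀ q, L q ≤ locCont q (ad0Rep ρbar))
    (hdual : dualSelmerGroup (primesOf (Smin ∪ Q)) tp L = ⊥)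
    (hLp : Module.finrank k (L (pPrime p)) ≤ h0At ρbar (pPrime p) + 1)
    (hLmin : ∀ q : Nat.Primes, (q : ℕ) ∈ Smin → (q : ℕ) ≠ p →
      Module.finrank k (L q) ≤ h0At ρbar q)
    (hLQ : ∀ q : Nat.Primes, (q : ℕ) ∈ Q → Module.finrank k (L q) ≤ h0At ρbar q + 1) :
    FiniteDimensional k (selmerGroup (primesOf (Smin ∪ Q)) L) ∧
      Module.finrank k (selmerGroup (primesOf (Smin ∪ Q)) L) ≤ r := by
  have hdat := hGW (primesOf (Smin ∪ Q)) hp hunr L hL
  refine ⟨hdat.finite_selmer, ?_⟩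
  have hle := hdat.le
  unfold greenbergWilesLeAdm at hle
  have hd : selmerAdm (extArithLoc (primesOf (Smin ∪ Q))) (tateDual p (ad0Rep ρbar))
      (dualConditions (extArithLoc (primesOf (Smin ∪ Q))) (ad0Rep ρbar)
        (tateDual p (ad0Rep ρbar)) (pairingOf (primesOf (Smin ∪ Q)) tp)
        (selmerStruct (primesOf (Smin ∪ Q)) L))
      (continuousH1S (primesOf (Smin ∪ Q)) (tateDual p (ad0Rep ρbar))) = ⊥ := hdual
  have h3 := tw_sum_bound (primesOf (Smin ∪ Q)) (pPrime p) Q r hQ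
    (fun q => Module.finrank k (L q)) (fun q => h0At ρbar q) (by
      intro q hq
      have hqT : (q : ℕ) ∈ Smin ∪ Q := mem_primesOf.1 hq
      by_cases hqp : q = pPrime p
      · subst hqp
        simpa using hLp
      · have hqp' : (q : ℕ) ≠ p := fun h => hqp (Subtype.ext h)
        by_cases hqQ : (q : ℕ) ∈ Q
        · simpa [hqQ] using hLQ q hqQ
        · have hqS : (q : ℕ) ∈ Smin := by
            rcases Finset.mem_union.1 hqT with h | h
            · exact h
            · exact absurd h hqQ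
          simpa [hqp, hqQ] using hLmin q hqS hqp')
  rw [hd, finrank_bot, hH0,
    sum_extArithIndex (primesOf (Smin ∪ Q)) _ 1 (fun q => h0At ρbar q.1) hArch.1 (fun _ => rfl),
    sum_extArithIndex (primesOf (Smin ∪ Q)) _ 0 (fun q => Module.finrank k (L q.1))
      (finrank_bot _ _) (fun _ => rfl)] at hle
  unfold selmerGroup
  omega

end Dim

/-! ## The main theorem -/

section Final

variable {𝒪 : Type} [CommRing 𝒪] [IsDomain 𝒪] [IsDiscreteValuationRing 𝒪]
  [IsAdicComplete (maximalIdeal 𝒪) 𝒪] [Finite (ResidueField 𝒪)]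

attribute [local instance] dualNumberAlgebra
attribute [local instance] isLocalHom_algebraMap_dualNumber

variable (p : ℕ) [Fact p.Prime] (ρbar : ResidualGaloisRep (ResidueField 𝒪))
  (b : Module.Basis (Fin 2) (ResidueField 𝒪) ρbar.V)
  (X : ∀ ⦃A : Type⦄ [CommRing A] [IsLocalRing A], GaloisRepAdic A → Prop)

/-- **S56 from the contracts** (one half: the condition `X` at `p`). -/
theorem tw_main [Algebra (ZMod p) (ResidueField 𝒪)]
    (hXbc : ∀ ⦃A : Type⦄ [CommRing A] [IsLocalRing A]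
      (φ : A →+* DualNumber (ResidueField 𝒪)) (hφ : IsLocalHom φ), Function.Surjective φ →
      ∀ ρ : GaloisRepAdic A, X ρ → X (ρ.baseChangeAlong φ hφ))
    (hpk : (p : ResidueField 𝒪) = 0)
    (S Smin : Finset ℕ) (hpSmin : p ∈ Smin) (hSmin : Smin ⊆ S)
    (hmin : ∀ q : ℕ, q.Prime → q ≠ p → (q ∈ Smin ↔ ¬ ρbar.IsUnramifiedAt q))
    (tp : LocalPairings (ad0Rep ρbar) (tateDual p (ad0Rep ρbar)))
    (hGW : ContractGW p (ad0Rep ρbar) (tateDual p (ad0Rep ρbar)) tp)
    (hLocP : ContractLocP p ρbar b (fun ρ' => ρ'.DetIsCyclotomic p ∧ X ρ'))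
    (hLocMin : ContractLocMin p ρbar b) (hLocTW : ContractLocTW p ρbar)
    (hArch : ContractArch ρbar) (hH0 : ContractH0 ρbar)
    (hTW : ∀ L : LocalConditions (ad0Rep ρbar), ContractTW p ρbar S Smin tp L) :
    ∃ r : ℕ, ∀ n : ℕ, ∃ qv : Fin r → ℕ, Function.Injective qv ∧
      (∀ i, (qv i).Prime ∧ qv i ∉ S ∧ p ^ (n + 1) ∣ qv i - 1) ∧
      (∀ i, IsTWPrime ρbar (qv i)) ∧
      ∀ DQ : DeformationRingData 𝒪 ρbar (twCond 𝒪 X p Smin (Smin ∪ Finset.univ.image qv)),
        ∃ γ : MvPowerSeries (Fin r) 𝒪 →ₐ[𝒪] DQ.R, Function.Surjective γ := by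
  classical
  -- the local conditions
  obtain ⟨Lp, hLp_le, hLp_dim, hLp_in⟩ := hLocP
  let L1 : LocalConditions (ad0Rep ρbar) := fun q =>
    if h : (q : ℕ) ≠ p ∧ ¬ ρbar.IsUnramifiedAt q then Classical.choose (hLocMin q h.1 h.2)
    else locCont q (ad0Rep ρbar)
  let L : LocalConditions (ad0Rep ρbar) := famAt (pPrime p) Lp L1
  have hLpp : L (pPrime p) = Lp := famAt_self _ _ _
  have hLne : ∀ q : Nat.Primes, (q : ℕ) ≠ p → L q = L1 q := fun q hq =>
    famAt_ne _ _ _ (fun h => hq (by rw [h]; rfl))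
  have hL1ram : ∀ q : Nat.Primes, ∀ h : (q : ℕ) ≠ p ∧ ¬ ρbar.IsUnramifiedAt q,
      L1 q = Classical.choose (hLocMin q h.1 h.2) := fun q h => dif_pos h
  have hL1unr : ∀ q : Nat.Primes, ¬ ((q : ℕ) ≠ p ∧ ¬ ρbar.IsUnramifiedAt q) →
      L1 q = locCont q (ad0Rep ρbar) := fun q h => dif_neg h
  have hLtop : ∀ q : Nat.Primes, (q : ℕ) ∉ Smin → L q = locCont q (ad0Rep ρbar) := by
    intro q hq
    have hqp : (q : ℕ) ≠ p := fun h => hq (h ▸ hpSmin)
    rw [hLne q hqp]
    apply hL1unr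
    rintro ⟨-, hram⟩
    exact hq ((hmin q q.2 hqp).2 hram)
  have hLmin : ∀ q : Nat.Primes, (q : ℕ) ∈ Smin → (q : ℕ) ≠ p →
      L q ≤ locCont q (ad0Rep ρbar) ∧ Module.finrank (ResidueField 𝒪) (L q) ≤ h0At ρbar q ∧
      TangentClassesIn ρbar b (fun ρ' => ρ'.IsUnipotentOnInertiaAt q) q (L q) := by
    intro q hqS hqp
    have hram : ¬ ρbar.IsUnramifiedAt q := (hmin q q.2 hqp).1 hqS
    rw [hLne q hqp, hL1ram q ⟨hqp, hram⟩]
    exact Classical.choose_spec (hLocMin q hqp hram)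
  have hL_le : ∀ q, L q ≤ locCont q (ad0Rep ρbar) := by
    intro q
    by_cases hqp : (q : ℕ) = p
    · have : q = pPrime p := Subtype.ext hqp
      subst this
      rw [hLpp]; exact hLp_le
    · by_cases hqS : (q : ℕ) ∈ Smin
      · exact (hLmin q hqS hqp).1
      · rw [hLtop q hqS]
  -- ramification of `ad⁰`
  have hunr : ∀ T : Finset ℕ, Smin ⊆ T →
      IsUnramifiedOutsideRep (primesOf T) (ad0Rep ρbar) := by
    intro T hT
    apply isUnramifiedOutsideRep_ad0
    intro q hq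
    have hqT : (q : ℕ) ∉ T := fun h => hq (mem_primesOf.2 h)
    have hqS : (q : ℕ) ∉ Smin := fun h => hqT (hT h)
    have hqp : (q : ℕ) ≠ p := fun h => hqS (h ▸ hpSmin)
    by_contra hram
    exact hqS ((hmin q q.2 hqp).2 hram)
  have hpmem : ∀ T : Finset ℕ, Smin ⊆ T → pPrime p ∈ primesOf T := fun T hT =>
    mem_primesOf.2 (hT hpSmin)
  -- the dual Selmer group of the minimal problem
  have hWfin : FiniteDimensional (ResidueField 𝒪) (dualSelmerGroup (primesOf Smin) tp L) :=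
    (hGW (primesOf Smin) (hpmem Smin subset_rfl) (hunr Smin subset_rfl) L hL_le).finite_dualSelmer
  have hTW' := hTW L hLtop hWfin
  generalize Module.finrank (ResidueField 𝒪) (dualSelmerGroup (primesOf Smin) tp L) = r at hTW'
  refine ⟨r, fun n => ?_⟩
  obtain ⟨qv, hinj, hprops, hTWp, hdual⟩ := hTW' n
  refine ⟨qv, hinj, hprops, hTWp, ?_⟩
  generalize hQ : Finset.univ.image qv = Q at hdual ⊢
  intro DQ
  have hQcard : Q.card ≤ r := by
    rw [← hQ]
    refine Finset.card_image_le.trans ?_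
    rw [Finset.card_univ, Fintype.card_fin]
  have hQmem : ∀ q : Nat.Primes, (q : ℕ) ∈ Q → (q : ℕ) ∉ S ∧ p ∣ (q : ℕ) - 1 ∧
      IsTWPrime ρbar q := by
    intro q hq
    rw [← hQ] at hq
    obtain ⟨i, -, hi⟩ := Finset.mem_image.1 hq
    rw [← hi]
    exact ⟨(hprops i).2.1, (dvd_pow_self p (Nat.succ_ne_zero n)).trans (hprops i).2.2, hTWp i⟩
  -- the dimension of the Selmer group
  obtain ⟨hSelfin, hSeldim⟩ := finrank_selmerGroup_le p ρbar tp hGW hH0 hArch Smin Q r hQcard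
    (hpmem _ Finset.subset_union_left) (hunr _ Finset.subset_union_left) L hL_le hdual
    (by rw [hLpp]; exact hLp_dim)
    (fun q hqS hqp => (hLmin q hqS hqp).2.1)
    (by
      intro q hq
      obtain ⟨hqS, hpq, hqTW⟩ := hQmem q hq
      have hqSmin : (q : ℕ) ∉ Smin := fun h => hqS (hSmin h)
      have hqp : (q : ℕ) ≠ p := fun h => hqSmin (h ▸ hpSmin)
      have hqunr : ρbar.IsUnramifiedAt q := by
        by_contra hram
        exact hqSmin ((hmin q q.2 hqp).2 hram)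
      rw [hLtop q hqSmin]
      exact hLocTW q hqp hpq hqunr hqTW)
  -- the points
  have hdetD : ∀ ⦃A : Type⦄ [CommRing A] [IsLocalRing A] [Algebra 𝒪 A] (ρ : GaloisRepAdic A),
      twCond 𝒪 X p Smin (Smin ∪ Q) ρ → ρ.DetIsCyclotomic p := fun _ _ _ _ _ h => h.1.1
  have hmem : ∀ φ : DQ.R →ₐ[𝒪] DualNumber (ResidueField 𝒪),
      ptClass DQ b p hpk hdetD φ ∈ selmerGroup (primesOf (Smin ∪ Q)) L := by
    intro φ
    refine ptClass_mem_selmerGroup p ρbar b X hXbc hpk Smin (Smin ∪ Q) L ?_ ?_ hLtop hArch DQ φ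
    · rw [hLpp]; exact hLp_in
    · exact fun q hqS hqp => (hLmin q hqS hqp).2.2
  have hstab : ∀ ψ : DQ.R →ₐ[𝒪] DualNumber (ResidueField 𝒪), Function.Surjective ψ →
      twCond 𝒪 X p Smin (Smin ∪ Q) (DQ.ρ.baseChangeAlong
        (ψ : DQ.R →+* DualNumber (ResidueField 𝒪)) (pt_isLocalHom DQ ψ)) := by
    intro ψ hψ
    have hloc := pt_isLocalHom DQ ψ
    refine ⟨⟨detIsCyclotomic_baseChangeAlong _ hloc DQ.ρ DQ.isOfType.1.1,
      hXbc _ hloc hψ DQ.ρ DQ.isOfType.1.2.1, fun q hq hqT =>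
        isUnramifiedAt_baseChangeAlong _ hloc DQ.ρ (DQ.isOfType.1.2.2 q hq hqT)⟩,
      fun q hqS hq hqp =>
        isUnipotentOnInertiaAt_baseChangeAlong _ hloc DQ.ρ (DQ.isOfType.2 q hqS hq hqp)⟩
  have hinjcl := ptClass_injective DQ b p hpk hdetD hstab
  -- counting
  haveI := hSelfin
  haveI : Finite (selmerGroup (primesOf (Smin ∪ Q)) L) :=
    Module.finite_of_finite (ResidueField 𝒪)
  have hcardSel : Nat.card (selmerGroup (primesOf (Smin ∪ Q)) L) ≤
      Nat.card (ResidueField 𝒪) ^ r := by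
    rw [Module.natCard_eq_pow_finrank (K := ResidueField 𝒪)]
    exact Nat.pow_le_pow_right Nat.card_pos hSeldim
  refine exists_surjective_mvPowerSeries_of_card_points_le DQ.residue_surjective r ?_
  intro s
  let f : (DQ.R →ₐ[𝒪] DualNumber (ResidueField 𝒪)) → selmerGroup (primesOf (Smin ∪ Q)) L :=
    fun φ => ⟨ptClass DQ b p hpk hdetD φ, hmem φ⟩
  have hf : Function.Injective f := fun φ φ' h => hinjcl (congrArg Subtype.val h)
  haveI : Fintype (selmerGroup (primesOf (Smin ∪ Q)) L) := Fintype.ofFinite _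
  calc s.card = (s.image f).card := (Finset.card_image_of_injective s hf).symm
    _ ≤ Fintype.card (selmerGroup (primesOf (Smin ∪ Q)) L) := Finset.card_le_univ _
    _ = Nat.card (selmerGroup (primesOf (Smin ∪ Q)) L) := Fintype.card_eq_nat_card
    _ ≤ _ := hcardSel

end Final

end

/-! ## S56 from the contracts -/

open Polynomial in
/-- **S56 from the contracts.** -/
theorem s56_of_contracts
    {𝒪 : Type} [CommRing 𝒪] [IsDomain 𝒪] [IsDiscreteValuationRing 𝒪]
    [IsAdicComplete (maximalIdeal 𝒪) 𝒪] [Finite (ResidueField 𝒪)]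
    (p : ℕ) [Fact p.Prime] (hp𝒪 : (p : 𝒪) ∈ maximalIdeal 𝒪)
    (ρbar : ResidualGaloisRep (ResidueField 𝒪))
    (S Smin : Finset ℕ) (hpSmin : p ∈ Smin) (hSmin : Smin ⊆ S)
    (hmin : ∀ q : ℕ, q.Prime → q ≠ p → (q ∈ Smin ↔ ¬ ρbar.IsUnramifiedAt q))
    (b : Module.Basis (Fin 2) (ResidueField 𝒪) ρbar.V)
    [Algebra (ZMod p) (ResidueField 𝒪)]
    (tp : LocalPairings (ad0Rep ρbar) (tateDual p (ad0Rep ρbar)))
    (hGW : ContractGW p (ad0Rep ρbar) (tateDual p (ad0Rep ρbar)) tp)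
    (hLocSO : ContractLocP p ρbar b (condStrictOrd p))
    (hLocFlat : ContractLocP p ρbar b (condFlat p))
    (hLocMin : ContractLocMin p ρbar b) (hLocTW : ContractLocTW p ρbar)
    (hArch : ContractArch ρbar) (hH0 : ContractH0 ρbar)
    (hTW : ∀ L : LocalConditions (ad0Rep ρbar), ContractTW p ρbar S Smin tp L) :
    (∃ r : ℕ, ∀ n : ℕ, ∃ qv : Fin r → ℕ, Function.Injective qv ∧
      (∀ i, (qv i).Prime ∧ qv i ∉ S ∧ p ^ (n + 1) ∣ qv i - 1) ∧
      (∀ i, ∀ P : ValuationSubring (AlgebraicClosure ℚ), P.LiesOverPrime (qv i) →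
        ∀ φ : AlgebraicClosure ℚ ≃ₐ[ℚ] AlgebraicClosure ℚ, P.IsFrobeniusAt φ (qv i) →
          ∃ α β : ResidueField 𝒪, α ≠ β ∧ LinearMap.charpoly (ρbar.ρ φ) = (X - C α) * (X - C β)) ∧
      ∀ DQ : GaloisRep.DeformationRingData 𝒪 ρbar (fun _A _ _ _ ρ =>
          GaloisRep.strictOrdinaryCondition 𝒪 p (Smin ∪ Finset.univ.image qv) ρ ∧
            ∀ q ∈ Smin, q.Prime → q ≠ p → ρ.IsUnipotentOnInertiaAt q),
        ∃ γ : MvPowerSeries (Fin r) 𝒪 →ₐ[𝒪] DQ.R, Function.Surjective γ) ∧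
    (∃ r : ℕ, ∀ n : ℕ, ∃ qv : Fin r → ℕ, Function.Injective qv ∧
      (∀ i, (qv i).Prime ∧ qv i ∉ S ∧ p ^ (n + 1) ∣ qv i - 1) ∧
      (∀ i, ∀ P : ValuationSubring (AlgebraicClosure ℚ), P.LiesOverPrime (qv i) →
        ∀ φ : AlgebraicClosure ℚ ≃ₐ[ℚ] AlgebraicClosure ℚ, P.IsFrobeniusAt φ (qv i) →
          ∃ α β : ResidueField 𝒪, α ≠ β ∧ LinearMap.charpoly (ρbar.ρ φ) = (X - C α) * (X - C β)) ∧
      ∀ DQ : GaloisRep.DeformationRingData 𝒪 ρbar (fun _A _ _ _ ρ =>
          GaloisRep.flatCondition 𝒪 p (Smin ∪ Finset.univ.image qv) ρ ∧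
            ∀ q ∈ Smin, q.Prime → q ≠ p → ρ.IsUnipotentOnInertiaAt q),
        ∃ γ : MvPowerSeries (Fin r) 𝒪 →ₐ[𝒪] DQ.R, Function.Surjective γ) := by
  have hpk : (p : ResidueField 𝒪) = 0 := by
    rw [← map_natCast (residue 𝒪)]
    exact (residue_eq_zero_iff _).2 hp𝒪
  refine ⟨?_, ?_⟩
  · exact tw_main p ρbar b (fun _ _ _ ρ => ρ.IsStrictOrdinaryAt p)
      (fun _ _ _ φ hφ _ ρ h => isStrictOrdinaryAt_baseChangeAlong φ hφ ρ h)
      hpk S Smin hpSmin hSmin hmin tp hGW hLocSO hLocMin hLocTW hArch hH0 hTW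
  · exact tw_main p ρbar b (fun _ _ _ ρ => ρ.IsFlatAt p)
      (fun _ _ _ φ hφ hs ρ h => isFlatAt_baseChangeAlong_of_surjective φ hφ hs ρ h)
      hpk S Smin hpSmin hSmin hmin tp hGW hLocFlat hLocMin hLocTW hArch hH0 hTW

end Fermat.Agent.TW
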