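import Mathlib
import Fermat.Prelude.Def_GaloisRep_LocalConditions
import Fermat.Prelude.Def_GaloisRep_StrictOrdinary
import Fermat.Prelude.Def_GaloisRep_Flat
import Fermat.Agent.Lib.Helper6.GaloisRepAdicLemmas

/-!
# P10 (S56): stability of the local conditions under base change

For a local homomorphism `φ : A → B` of local rings and `ρ : GaloisRepAdic A`:
`DetIsCyclotomic`, `IsStrictOrdinaryAt`, `IsUnramifiedAt`, `IsUnipotentOnInertiaAt` pass to
`ρ.baseChangeAlong φ`; `IsFlatAt` passes to `ρ.baseChangeAlong φ` when `φ` is surjective.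
Also: all of them are invariant under `GaloisRepAdic.IsEquiv`.
-/

set_option autoImplicit false
set_option linter.unusedSectionVars false
set_option linter.style.haveILetI false

open scoped TensorProduct
open IsLocalRing

namespace Fermat.Agent.TW

variable {A B : Type} [CommRing A] [IsLocalRing A] [CommRing B] [IsLocalRing B]

/-! ## Base change -/

section BaseChange

lemma bc_natCast_mem_maximalIdeal (φ : A →+* B) (hφ : IsLocalHom φ) {p : ℕ}
    (hp : (p : A) ∈ maximalIdeal A) : (p : B) ∈ maximalIdeal B := by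
  haveI := hφ
  rw [← map_natCast φ p]
  exact map_nonunit φ _ hp

lemma bc_map_mem_span_natCast (φ : A →+* B) {m : ℕ} {x : A}
    (hx : x ∈ Ideal.span {((m : ℕ) : A)}) : φ x ∈ Ideal.span {((m : ℕ) : B)} := by
  rw [Ideal.mem_span_singleton'] at hx ⊢
  obtain ⟨c, rfl⟩ := hx
  exact ⟨φ c, by rw [map_mul, map_natCast]⟩

lemma bc_ρ_apply (φ : A →+* B) (hφ : IsLocalHom φ) (ρ : GaloisRepAdic A)
    (σ : AlgebraicClosure ℚ ≃ₐ[ℚ] AlgebraicClosure ℚ) :
    letI : Algebra A B := φ.toAlgebra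
    (ρ.baseChangeAlong φ hφ).ρ σ = (ρ.ρ σ).baseChange B := rfl

theorem detIsCyclotomic_baseChangeAlong (φ : A →+* B) (hφ : IsLocalHom φ) (ρ : GaloisRepAdic A)
    {p : ℕ} (h : ρ.DetIsCyclotomic p) : (ρ.baseChangeAlong φ hφ).DetIsCyclotomic p := by
  letI : Algebra A B := φ.toAlgebra
  refine ⟨bc_natCast_mem_maximalIdeal φ hφ h.1, fun n σ a ha => ?_⟩
  have h1 := h.2 n σ a ha
  have h2 : LinearMap.det ((ρ.baseChangeAlong φ hφ).ρ σ) = φ (LinearMap.det (ρ.ρ σ)) := by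
    rw [bc_ρ_apply]
    exact LinearMap.det_baseChange (ρ.ρ σ)
  rw [h2, ← map_natCast φ a, ← map_sub]
  exact bc_map_mem_span_natCast φ h1

theorem isUnramifiedAt_baseChangeAlong (φ : A →+* B) (hφ : IsLocalHom φ) (ρ : GaloisRepAdic A)
    {q : ℕ} (h : ρ.IsUnramifiedAt q) : (ρ.baseChangeAlong φ hφ).IsUnramifiedAt q := by
  letI : Algebra A B := φ.toAlgebra
  intro P hP σ hσ
  rw [bc_ρ_apply, h P hP σ hσ]
  exact LinearMap.baseChange_one _ _

theorem isUnipotentOnInertiaAt_baseChangeAlong (φ : A →+* B) (hφ : IsLocalHom φ)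
    (ρ : GaloisRepAdic A) {q : ℕ} (h : ρ.IsUnipotentOnInertiaAt q) :
    (ρ.baseChangeAlong φ hφ).IsUnipotentOnInertiaAt q := by
  intro P hP σ hσ
  rw [Fermat.Agent.Lib.Helper6.charpoly_baseChangeAlong, h P hP σ hσ]
  simp

end BaseChange


/-! ## The strict ordinary condition -/


section PureAlgebra

variable {A B : Type} [CommRing A] [CommRing B] [Algebra A B]
  {V : Type} [AddCommGroup V] [Module A V]

lemma bc_tmul_mem_span {L : Submodule A V} {b0 : V} (hL : L = A ∙ b0) (c : B) {x : V}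
    (hx : x ∈ L) :
    (c ⊗ₜ[A] x : B ⊗[A] V) ∈ (B ∙ ((1 : B) ⊗ₜ[A] b0) : Submodule B (B ⊗[A] V)) := by
  rw [hL, Submodule.mem_span_singleton] at hx
  obtain ⟨a, rfl⟩ := hx
  rw [Submodule.mem_span_singleton]
  refine ⟨c * algebraMap A B a, ?_⟩
  rw [TensorProduct.tmul_smul, TensorProduct.smul_tmul', TensorProduct.smul_tmul', smul_eq_mul,
    mul_one, Algebra.smul_def, mul_comm]

/-- a linear map with values in `L = A b₀` base-changes to a map with values in `B (1 ⊗ b₀)` -/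
lemma bc_baseChange_mem_span {L : Submodule A V} {b0 : V} (hL : L = A ∙ b0)
    (f : V →ₗ[A] V) (hf : ∀ v, f v ∈ L) (w : B ⊗[A] V) :
    f.baseChange B w ∈ (B ∙ ((1 : B) ⊗ₜ[A] b0) : Submodule B (B ⊗[A] V)) := by
  induction w using TensorProduct.induction_on with
  | zero => rw [LinearMap.map_zero]; exact Submodule.zero_mem _
  | tmul c v => rw [LinearMap.baseChange_tmul]; exact bc_tmul_mem_span hL c (hf v)
  | add x y hx hy => rw [LinearMap.map_add]; exact Submodule.add_mem _ hx hy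

/-- a linear map preserving `L = A b₀` base-changes to a map preserving `B (1 ⊗ b₀)` -/
lemma bc_baseChange_span_stable {L : Submodule A V} {b0 : V} (hL : L = A ∙ b0)
    (f : V →ₗ[A] V) (hf : ∀ v ∈ L, f v ∈ L) (w : B ⊗[A] V)
    (hw : w ∈ (B ∙ ((1 : B) ⊗ₜ[A] b0) : Submodule B (B ⊗[A] V))) :
    f.baseChange B w ∈ (B ∙ ((1 : B) ⊗ₜ[A] b0) : Submodule B (B ⊗[A] V)) := by
  rw [Submodule.mem_span_singleton] at hw
  obtain ⟨c, rfl⟩ := hw
  rw [LinearMap.map_smul]
  refine Submodule.smul_mem _ _ ?_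
  rw [LinearMap.baseChange_tmul]
  exact bc_tmul_mem_span hL 1 (hf _ (hL ▸ Submodule.mem_span_singleton_self _))

/-- a linear map acting by the scalar `x` on `L = A b₀` base-changes to a map acting by the image
of `x` on `B (1 ⊗ b₀)` -/
lemma bc_baseChange_span_smul {L : Submodule A V} {b0 : V} (hL : L = A ∙ b0)
    (f : V →ₗ[A] V) (x : A) (hf : ∀ v ∈ L, f v = x • v) (w : B ⊗[A] V)
    (hw : w ∈ (B ∙ ((1 : B) ⊗ₜ[A] b0) : Submodule B (B ⊗[A] V))) :
    f.baseChange B w = algebraMap A B x • w := by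
  rw [Submodule.mem_span_singleton] at hw
  obtain ⟨c, rfl⟩ := hw
  rw [LinearMap.map_smul, LinearMap.baseChange_tmul,
    hf _ (hL ▸ Submodule.mem_span_singleton_self _), TensorProduct.tmul_smul, smul_comm,
    algebraMap_smul]

/-- `f - z` with values in `L = A b₀` base-changes to `f_B - z` with values in `B (1 ⊗ b₀)` -/
lemma bc_baseChange_sub_smul_mem_span {L : Submodule A V} {b0 : V} (hL : L = A ∙ b0)
    (f : V →ₗ[A] V) (z : A) (hf : ∀ v, f v - z • v ∈ L) (w : B ⊗[A] V) :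
    f.baseChange B w - algebraMap A B z • w ∈
      (B ∙ ((1 : B) ⊗ₜ[A] b0) : Submodule B (B ⊗[A] V)) := by
  induction w using TensorProduct.induction_on with
  | zero => rw [LinearMap.map_zero, smul_zero, sub_zero]; exact Submodule.zero_mem _
  | tmul c v =>
    rw [LinearMap.baseChange_tmul, algebraMap_smul, ← TensorProduct.tmul_smul,
      ← TensorProduct.tmul_sub]
    exact bc_tmul_mem_span hL c (hf v)
  | add x y hx hy =>
    rw [LinearMap.map_add, smul_add, add_sub_add_comm]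
    exact Submodule.add_mem _ hx hy

lemma bc_baseChange_sub_mem_span {L : Submodule A V} {b0 : V} (hL : L = A ∙ b0)
    (f : V →ₗ[A] V) (hf : ∀ v, f v - v ∈ L) (w : B ⊗[A] V) :
    f.baseChange B w - w ∈ (B ∙ ((1 : B) ⊗ₜ[A] b0) : Submodule B (B ⊗[A] V)) := by
  have := bc_baseChange_sub_smul_mem_span (B := B) hL f 1 (fun v => by simpa using hf v) w
  rwa [map_one, one_smul] at this

end PureAlgebra


theorem isStrictOrdinaryAt_baseChangeAlong (φ : A →+* B) (hφ : IsLocalHom φ)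
    (ρ : GaloisRepAdic A) {p : ℕ} (h : ρ.IsStrictOrdinaryAt p) :
    (ρ.baseChangeAlong φ hφ).IsStrictOrdinaryAt p := by
  letI : Algebra A B := φ.toAlgebra
  refine ⟨bc_natCast_mem_maximalIdeal φ hφ h.1, fun P hP => ?_⟩
  obtain ⟨L, ⟨b, hb⟩, hD, hI, hxz⟩ := h.2 P hP
  refine ⟨(B ∙ ((1 : B) ⊗ₜ[A] b 0) : Submodule B (B ⊗[A] ρ.V)),
    ⟨Algebra.TensorProduct.basis B b, ?_⟩, ?_, ?_, ?_⟩
  · show (B ∙ ((1 : B) ⊗ₜ[A] b 0) : Submodule B (B ⊗[A] ρ.V)) =
      B ∙ (Algebra.TensorProduct.basis B b 0)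
    rw [Algebra.TensorProduct.basis_apply]
  · intro σ hσ v hv
    exact bc_baseChange_span_stable hb (ρ.ρ σ) (hD σ hσ) v hv
  · intro σ hσ v
    exact bc_baseChange_sub_mem_span (B := B) hb (ρ.ρ σ) (hI σ hσ) v
  · intro σ hσ
    obtain ⟨x, z, hx, hz, hcyc⟩ := hxz σ hσ
    refine ⟨φ x, φ z, ?_, ?_, ?_⟩
    · intro w hw
      exact bc_baseChange_span_smul hb (ρ.ρ σ) x hx w hw
    · intro v
      exact bc_baseChange_sub_smul_mem_span (B := B) hb (ρ.ρ σ) z hz v
    · intro n a ha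
      have := hcyc n a ha
      have h2 := bc_map_mem_span_natCast φ this
      rwa [map_sub, map_mul, map_natCast] at h2


/-! ## The flat condition (surjective base change) -/


section PureAlgebra2

variable {A B : Type} [CommRing A] [CommRing B] [Algebra A B]
  {V : Type} [AddCommGroup V] [Module A V]

/-- membership in `I • ⊤` in terms of coordinates -/
lemma bc_mem_smul_top_iff {ι W : Type*} [Fintype ι] [AddCommGroup W] [Module B W]
    (c : Module.Basis ι B W) (I : Ideal B) (x : W) :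
    x ∈ I • (⊤ : Submodule B W) ↔ ∀ i, c.repr x i ∈ I := by
  constructor
  · intro hx
    refine Submodule.smul_induction_on hx ?_ ?_
    · intro r hr w _ i
      rw [map_smul, Finsupp.smul_apply, smul_eq_mul]
      exact I.mul_mem_right _ hr
    · intro x y hx hy i
      rw [map_add, Finsupp.add_apply]
      exact I.add_mem (hx i) (hy i)
  · intro h
    rw [← c.sum_repr x]
    exact Submodule.sum_mem _ fun i _ => Submodule.smul_mem_smul (h i) Submodule.mem_top

variable (B) in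
/-- the map `V/JV → (B ⊗ V)/I(B ⊗ V)`, `J = I ∩ A` -/
noncomputable def bcQuotMap (I : Ideal B) :
    (V ⧸ ((I.comap (algebraMap A B)) • (⊤ : Submodule A V))) →ₗ[A]
      ((B ⊗[A] V) ⧸ (I • (⊤ : Submodule B (B ⊗[A] V)))) :=
  Submodule.liftQ _
    (((I • (⊤ : Submodule B (B ⊗[A] V))).mkQ.restrictScalars A) ∘ₗ (TensorProduct.mk A B V 1))
    (by
      intro v hv
      rw [LinearMap.mem_ker]
      refine Submodule.smul_induction_on hv ?_ ?_
      · intro a ha w _
        rw [LinearMap.comp_apply, TensorProduct.mk_apply, LinearMap.restrictScalars_apply,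
          Submodule.mkQ_apply, Submodule.Quotient.mk_eq_zero, TensorProduct.tmul_smul,
          ← algebraMap_smul B a ((1 : B) ⊗ₜ[A] w)]
        exact Submodule.smul_mem_smul (Ideal.mem_comap.1 ha) Submodule.mem_top
      · intro x y hx hy
        rw [map_add, hx, hy, add_zero])

lemma bcQuotMap_mk (I : Ideal B) (v : V) :
    bcQuotMap B I (Submodule.Quotient.mk v) =
      Submodule.Quotient.mk ((1 : B) ⊗ₜ[A] v) := rfl

lemma bcQuotMap_surjective (hsurj : Function.Surjective (algebraMap A B)) (I : Ideal B) :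
    Function.Surjective (bcQuotMap (A := A) (V := V) B I) := by
  intro x
  obtain ⟨w, rfl⟩ := Submodule.Quotient.mk_surjective _ x
  induction w using TensorProduct.induction_on with
  | zero => exact ⟨0, by rw [map_zero, Submodule.Quotient.mk_zero]⟩
  | tmul c v =>
    obtain ⟨a, rfl⟩ := hsurj c
    refine ⟨Submodule.Quotient.mk (a • v), ?_⟩
    rw [bcQuotMap_mk, TensorProduct.tmul_smul, TensorProduct.smul_tmul', Algebra.smul_def, mul_one]
  | add x y hx hy =>
    obtain ⟨x', hx'⟩ := hx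
    obtain ⟨y', hy'⟩ := hy
    exact ⟨x' + y', by rw [map_add, hx', hy', Submodule.Quotient.mk_add]⟩

lemma bcQuotMap_injective {ι : Type*} [Fintype ι] [DecidableEq ι] (b : Module.Basis ι A V)
    (I : Ideal B) : Function.Injective (bcQuotMap (A := A) (V := V) B I) := by
  rw [injective_iff_map_eq_zero]
  intro x hx
  obtain ⟨v, rfl⟩ := Submodule.Quotient.mk_surjective _ x
  rw [bcQuotMap_mk, Submodule.Quotient.mk_eq_zero,
    bc_mem_smul_top_iff (Algebra.TensorProduct.basis B b)] at hx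
  rw [Submodule.Quotient.mk_eq_zero, ← b.sum_repr v]
  refine Submodule.sum_mem _ fun i _ => Submodule.smul_mem_smul ?_ Submodule.mem_top
  have := hx i
  rw [Algebra.TensorProduct.basis_repr_tmul, one_smul] at this
  simpa using this

lemma bcQuotMap_mapQ (I : Ideal B) (f : V →ₗ[A] V)
    (h1 : (I.comap (algebraMap A B)) • (⊤ : Submodule A V) ≤
      ((I.comap (algebraMap A B)) • (⊤ : Submodule A V)).comap f)
    (h2 : I • (⊤ : Submodule B (B ⊗[A] V)) ≤
      (I • (⊤ : Submodule B (B ⊗[A] V))).comap (f.baseChange B))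
    (x : V ⧸ ((I.comap (algebraMap A B)) • (⊤ : Submodule A V))) :
    bcQuotMap B I (Submodule.mapQ _ _ f h1 x) =
      Submodule.mapQ _ _ (f.baseChange B) h2 (bcQuotMap B I x) := by
  obtain ⟨v, rfl⟩ := Submodule.Quotient.mk_surjective _ x
  rw [Submodule.mapQ_apply, bcQuotMap_mk, bcQuotMap_mk, Submodule.mapQ_apply,
    LinearMap.baseChange_tmul]

end PureAlgebra2



theorem isFlatAt_baseChangeAlong_of_surjective (φ : A →+* B) (hφ : IsLocalHom φ)
    (hsurj : Function.Surjective φ) (ρ : GaloisRepAdic A) {p : ℕ} (h : ρ.IsFlatAt p) :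
    (ρ.baseChangeAlong φ hφ).IsFlatAt p := by
  classical
  letI : Algebra A B := φ.toAlgebra
  haveI := hφ
  obtain ⟨hfin, h⟩ := h
  refine ⟨?_, fun I hI => ?_⟩
  · refine Finite.of_surjective (ResidueField.map φ) ?_
    intro x
    obtain ⟨y, rfl⟩ := residue_surjective x
    obtain ⟨a, rfl⟩ := hsurj y
    exact ⟨residue A a, rfl⟩
  · have hJ : Finite (A ⧸ I.comap φ) :=
      Finite.of_injective (Ideal.quotientMap I φ le_rfl) (Ideal.quotientMap_injective' le_rfl)
    obtain ⟨H, i1, i2, hHfin, hHflat, hHcocomm, e, hadd, hgal⟩ := h (I.comap φ) hJ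
    have hbij : Function.Bijective (bcQuotMap (A := A) (V := ρ.V) B I) :=
      ⟨bcQuotMap_injective (Module.Free.chooseBasis A ρ.V) I, bcQuotMap_surjective hsurj I⟩
    refine ⟨H, i1, i2, hHfin, hHflat, hHcocomm,
      e.trans (Equiv.ofBijective (bcQuotMap (A := A) (V := ρ.V) B I) hbij), ?_, ?_⟩
    · intro f g
      show bcQuotMap (A := A) (V := ρ.V) B I (e (f * g)) = bcQuotMap (A := A) (V := ρ.V) B I (e f) +
        bcQuotMap (A := A) (V := ρ.V) B I (e g)
      rw [hadd, map_add]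
    · intro σ f g hfg
      show bcQuotMap (A := A) (V := ρ.V) B I (e g) = _
      rw [hgal σ f g hfg]
      exact bcQuotMap_mapQ I (ρ.ρ σ) _ _ _




/-! ## Invariance under equivalence -/

lemma equiv_ρ_eq_conj {ρ₁ ρ₂ : GaloisRepAdic A} (e : GaloisRepAdic.Equiv ρ₁ ρ₂)
    (σ : AlgebraicClosure ℚ ≃ₐ[ℚ] AlgebraicClosure ℚ) :
    ρ₂.ρ σ = e.toLinearEquiv.conj (ρ₁.ρ σ) := by
  apply LinearMap.ext
  intro x
  rw [LinearEquiv.conj_apply]
  simp only [LinearMap.coe_comp, LinearEquiv.coe_coe, Function.comp_apply]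
  rw [e.map_apply, LinearEquiv.apply_symm_apply]

lemma equiv_ρ_apply_symm {ρ₁ ρ₂ : GaloisRepAdic A} (e : GaloisRepAdic.Equiv ρ₁ ρ₂)
    (σ : AlgebraicClosure ℚ ≃ₐ[ℚ] AlgebraicClosure ℚ) (v : ρ₂.V) :
    ρ₂.ρ σ v = e.toLinearEquiv (ρ₁.ρ σ (e.toLinearEquiv.symm v)) := by
  rw [e.map_apply, LinearEquiv.apply_symm_apply]

theorem detIsCyclotomic_of_isEquiv {ρ₁ ρ₂ : GaloisRepAdic A} (he : ρ₁.IsEquiv ρ₂) {p : ℕ}
    (h : ρ₁.DetIsCyclotomic p) : ρ₂.DetIsCyclotomic p := by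
  obtain ⟨e⟩ := he
  refine ⟨h.1, fun n σ a ha => ?_⟩
  rw [equiv_ρ_eq_conj e σ, LinearEquiv.conj_apply, LinearMap.comp_assoc, LinearMap.det_conj]
  exact h.2 n σ a ha

theorem isUnramifiedAt_of_isEquiv {ρ₁ ρ₂ : GaloisRepAdic A} (he : ρ₁.IsEquiv ρ₂) {q : ℕ}
    (h : ρ₁.IsUnramifiedAt q) : ρ₂.IsUnramifiedAt q := by
  obtain ⟨e⟩ := he
  intro P hP σ hσ
  apply LinearMap.ext
  intro v
  rw [equiv_ρ_apply_symm e σ v, h P hP σ hσ, Module.End.one_apply, Module.End.one_apply,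
    LinearEquiv.apply_symm_apply]

theorem isUnipotentOnInertiaAt_of_isEquiv {ρ₁ ρ₂ : GaloisRepAdic A} (he : ρ₁.IsEquiv ρ₂) {q : ℕ}
    (h : ρ₁.IsUnipotentOnInertiaAt q) : ρ₂.IsUnipotentOnInertiaAt q := by
  obtain ⟨e⟩ := he
  intro P hP σ hσ
  rw [Fermat.Agent.Lib.Helper6.charpoly_eq_of_galoisRepAdic_equiv e σ]
  exact h P hP σ hσ

theorem isStrictOrdinaryAt_of_isEquiv {ρ₁ ρ₂ : GaloisRepAdic A} (he : ρ₁.IsEquiv ρ₂) {p : ℕ}
    (h : ρ₁.IsStrictOrdinaryAt p) : ρ₂.IsStrictOrdinaryAt p := by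
  obtain ⟨e⟩ := he
  refine ⟨h.1, fun P hP => ?_⟩
  obtain ⟨L, ⟨b, hb⟩, hD, hI, hxz⟩ := h.2 P hP
  refine ⟨L.map e.toLinearEquiv.toLinearMap, ⟨b.map e.toLinearEquiv, ?_⟩, ?_, ?_, ?_⟩
  · rw [hb, Submodule.map_span, Set.image_singleton, Module.Basis.map_apply]
    rfl
  · intro σ hσ v hv
    obtain ⟨w, hw, rfl⟩ := hv
    refine ⟨ρ₁.ρ σ w, hD σ hσ w hw, ?_⟩
    exact e.map_apply σ w
  · intro σ hσ v
    refine ⟨ρ₁.ρ σ (e.toLinearEquiv.symm v) - e.toLinearEquiv.symm v, hI σ hσ _, ?_⟩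
    rw [map_sub]
    show e.toLinearEquiv _ - e.toLinearEquiv _ = _
    rw [e.map_apply, LinearEquiv.apply_symm_apply]
  · intro σ hσ
    obtain ⟨x, z, hx, hz, hcyc⟩ := hxz σ hσ
    refine ⟨x, z, ?_, ?_, hcyc⟩
    · intro w hw
      obtain ⟨w', hw', rfl⟩ := hw
      show ρ₂.ρ σ (e.toLinearEquiv w') = x • e.toLinearEquiv w'
      rw [← e.map_apply, hx w' hw', map_smul]
    · intro v
      refine ⟨ρ₁.ρ σ (e.toLinearEquiv.symm v) - z • e.toLinearEquiv.symm v, hz _, ?_⟩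
      rw [map_sub]
      show e.toLinearEquiv _ - e.toLinearEquiv _ = _
      rw [e.map_apply, map_smul, LinearEquiv.apply_symm_apply]

theorem isFlatAt_of_isEquiv {ρ₁ ρ₂ : GaloisRepAdic A} (he : ρ₁.IsEquiv ρ₂) {p : ℕ}
    (h : ρ₁.IsFlatAt p) : ρ₂.IsFlatAt p := by
  obtain ⟨e⟩ := he
  obtain ⟨hfin, h⟩ := h
  refine ⟨hfin, fun I hI => ?_⟩
  obtain ⟨H, i1, i2, hHfin, hHflat, hHcocomm, ε, hadd, hgal⟩ := h I hI
  have hle : ∀ (V W : Type) [AddCommGroup V] [Module A V] [AddCommGroup W] [Module A W]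
      (f : V →ₗ[A] W), I • (⊤ : Submodule A V) ≤ (I • (⊤ : Submodule A W)).comap f := by
    intro V W _ _ _ _ f
    rw [← Submodule.map_le_iff_le_comap, Submodule.map_smul'']
    exact Submodule.smul_mono le_rfl le_top
  let θ : (ρ₁.V ⧸ (I • (⊤ : Submodule A ρ₁.V))) ≃ₗ[A] (ρ₂.V ⧸ (I • (⊤ : Submodule A ρ₂.V))) :=
    Submodule.Quotient.equiv _ _ e.toLinearEquiv (by
      apply le_antisymm
      · rw [Submodule.map_le_iff_le_comap]; exact hle _ _ _
      · intro x hx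
        refine ⟨e.toLinearEquiv.symm x, hle _ _ e.toLinearEquiv.symm.toLinearMap hx, ?_⟩
        exact e.toLinearEquiv.apply_symm_apply x)
  refine ⟨H, i1, i2, hHfin, hHflat, hHcocomm, ε.trans θ.toEquiv, ?_, ?_⟩
  · intro f g
    show θ (ε (f * g)) = θ (ε f) + θ (ε g)
    rw [hadd, map_add]
  · intro σ f g hfg
    show θ (ε g) = _
    rw [hgal σ f g hfg]
    show θ (ρ₁.levelAction I σ (ε f)) = ρ₂.levelAction I σ (θ (ε f))
    obtain ⟨v, hv⟩ := Submodule.Quotient.mk_surjective _ (ε f)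
    rw [← hv]
    show θ (Submodule.mapQ _ _ (ρ₁.ρ σ) _ (Submodule.Quotient.mk v)) =
      Submodule.mapQ _ _ (ρ₂.ρ σ) _ (θ (Submodule.Quotient.mk v))
    rw [Submodule.mapQ_apply, Submodule.Quotient.equiv_apply, Submodule.Quotient.equiv_apply,
      Submodule.mapQ_apply, Submodule.mapQ_apply, Submodule.mapQ_apply]
    congr 1
    exact e.map_apply σ v

end Fermat.Agent.TW
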