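import Fermat.Agent.Lib.TW.Interface
import Fermat.Agent.Lib.TW.BaseChange
import Fermat.Agent.Lib.TW.TangentCount
import Fermat.Agent.Lib.CFT.Bridge.Levels
import Fermat.Agent.Lib.S53.PowerSeriesP

/-!
# P10 / G5 (part 4): the points of a deformation ring in `k[ε]` and their tangent classes

For `DQ : DeformationRingData 𝒪 ρbar 𝒟` and an `𝒪`-algebra homomorphism `φ : DQ.R → k[ε]` we
construct a matrix lift `ptMat φ` of `ρbar` to `k[ε]` with `DQ.ρ ⊗_φ k[ε] ≅ ofMat (ptMat φ)`, its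
tangent class `ptClass φ ∈ H¹(G_ℚ, ad⁰ ρbar)`, and prove:

* `ptClass_injective` : `φ ↦ ptClass φ` is injective, if `𝒟` is stable under surjective base
  change to `k[ε]`;
* `tangentClass_mem_continuousH1S` : the tangent class of a lift unramified outside `S'` lies in
  `continuousH1S S'`;
* `resAt_mem_locCont` : admissible global classes restrict to continuous local classes.
-/

set_option autoImplicit false
set_option linter.unusedSectionVars false
set_option linter.style.haveILetI false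

open Fermat.Agent.S53Lib IsLocalRing groupCohomology ExtCitation CategoryTheory GaloisRep

namespace Fermat.Agent.TW

noncomputable section

/-! ## The dual numbers -/

section DualNumber

variable {k : Type} [Field k]

lemma dn_mem_maximalIdeal_iff (x : DualNumber k) :
    x ∈ maximalIdeal (DualNumber k) ↔ TrivSqZeroExt.fst x = 0 := by
  rw [mem_maximalIdeal, mem_nonunits_iff, TrivSqZeroExt.isUnit_iff_isUnit_fst, isUnit_iff_ne_zero,
    not_not]

lemma dn_mul_eq_zero_of_fst {x y : DualNumber k} (hx : TrivSqZeroExt.fst x = 0)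
    (hy : TrivSqZeroExt.fst y = 0) : x * y = 0 := by
  apply TrivSqZeroExt.ext
  · rw [TrivSqZeroExt.fst_mul, hx, zero_mul, TrivSqZeroExt.fst_zero]
  · rw [TrivSqZeroExt.snd_mul, hx, hy, zero_smul, TrivSqZeroExt.snd_zero]
    simp

lemma dn_maximalIdeal_sq : maximalIdeal (DualNumber k) ^ 2 = ⊥ := by
  rw [eq_bot_iff, pow_two, Ideal.mul_le]
  intro x hx y hy
  rw [Ideal.mem_bot]
  exact dn_mul_eq_zero_of_fst ((dn_mem_maximalIdeal_iff x).1 hx) ((dn_mem_maximalIdeal_iff y).1 hy)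

instance dn_isAdicComplete : IsAdicComplete (maximalIdeal (DualNumber k)) (DualNumber k) :=
  isAdicComplete_of_pow_eq_bot _ dn_maximalIdeal_sq

end DualNumber


section Lifts

variable {𝒪 : Type} [CommRing 𝒪] [IsLocalRing 𝒪]

attribute [local instance] dualNumberAlgebra
attribute [local instance] isLocalHom_algebraMap_dualNumber

local notation "kk" => ResidueField 𝒪

instance dn_isLocalHom_fstHom {k : Type} [Field k] :
    IsLocalHom (TrivSqZeroExt.fstHom k k k : DualNumber k →ₐ[k] k).toRingHom :=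
  ⟨fun x hx => by
    rw [TrivSqZeroExt.isUnit_iff_isUnit_fst]
    exact hx⟩

variable (ρbar : ResidualGaloisRep (ResidueField 𝒪))
  (b : Module.Basis (Fin 2) (ResidueField 𝒪) ρbar.V)

/-- a strict lift (in the sense of the S53 library) of `ρbar` to `k[ε]` is a lift in the sense of
`Tangent.lean` -/
theorem isDualLift_of_isStrictLift {r : GQ →* Matrix (Fin 2) (Fin 2) (DualNumber (ResidueField 𝒪))}
    (hr : IsStrictLift (𝒪 := 𝒪) (resMat ρbar b) r) : IsDualLift ρbar b r := by
  intro σ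
  ext i j
  have h1 := congrFun (congrFun (hr σ) i) j
  simp only [Matrix.map_apply] at h1
  -- apply `ResidueField.lift fst`
  have h2 := congrArg (ResidueField.lift
    (TrivSqZeroExt.fstHom (ResidueField 𝒪) (ResidueField 𝒪) (ResidueField 𝒪) :
      DualNumber (ResidueField 𝒪) →ₐ[ResidueField 𝒪] ResidueField 𝒪).toRingHom) h1
  rw [ResidueField.lift_residue_apply] at h2
  obtain ⟨c, hc⟩ := residue_surjective (resMat ρbar b σ i j)
  rw [← hc, ResidueField.map_residue, ResidueField.lift_residue_apply] at h2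
  show TrivSqZeroExt.fst (r σ i j) = LinearMap.toMatrix b b (ρbar.ρ σ) i j
  rw [← resMat_apply, ← hc]
  exact h2

end Lifts


section Det

variable {k : Type} [Field k]

/-- the defining property of the mod `p` cyclotomic character -/
lemma tw_apply_eq_pow_cycloExp (p : ℕ) [hp : Fact p.Prime] (σ : GQ) {t : AlgebraicClosure ℚ}
    (ht : t ^ p = 1) : σ t = t ^ cycloExp p σ := by
  haveI : NeZero p := ⟨hp.out.ne_zero⟩
  have ht0 : t ≠ 0 := by
    rintro rfl
    rw [zero_pow hp.out.ne_zero] at ht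
    exact zero_ne_one ht
  let u : (AlgebraicClosure ℚ)ˣ := Units.mk0 t ht0
  have hu : u ∈ rootsOfUnity p (AlgebraicClosure ℚ) := by
    rw [mem_rootsOfUnity]
    apply Units.ext
    rw [Units.val_pow_eq_pow_val, Units.val_one]
    exact ht
  exact modularCyclotomicCharacter.spec (AlgebraicClosure ℚ)
    (ExtCitation.card_rootsOfUnity_eq_self p) (σ : AlgebraicClosure ℚ ≃+* AlgebraicClosure ℚ) hu

lemma det_ofMat {A : Type} [CommRing A] [IsLocalRing A] (r : GQ →* Matrix (Fin 2) (Fin 2) A)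
    (h : MatCts A r) (σ : GQ) : LinearMap.det ((ofMat r h).ρ σ) = (r σ).det := by
  show LinearMap.det (Matrix.toLin' (r σ)) = (r σ).det
  exact LinearMap.det_toLin' _

/-- a lift to `k[ε]` with cyclotomic determinant has the determinant of its reduction -/
theorem hasResidualDet_of_detIsCyclotomic (p : ℕ) [Fact p.Prime] (hpk : (p : k) = 0)
    (r : GQ →* Matrix (Fin 2) (Fin 2) (DualNumber k)) (h : MatCts (DualNumber k) r)
    (hdet : (ofMat r h).DetIsCyclotomic p) : HasResidualDet r := by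
  intro σ
  have h1 := hdet.2 1 σ (cycloExp p σ) (fun μ hμ => by
    rw [pow_one] at hμ
    exact tw_apply_eq_pow_cycloExp p σ hμ)
  have hp0 : ((p ^ 1 : ℕ) : DualNumber k) = 0 := by
    rw [pow_one]
    have : (p : DualNumber k) = TrivSqZeroExt.inl (p : k) := by
      rw [← map_natCast (TrivSqZeroExt.inlHom k k)]; rfl
    rw [this, hpk, TrivSqZeroExt.inl_zero]
  rw [hp0, Ideal.span_singleton_zero, Ideal.mem_bot, sub_eq_zero, det_ofMat] at h1
  rw [h1]
  have : ((cycloExp p σ : ℕ) : DualNumber k) = TrivSqZeroExt.inl ((cycloExp p σ : ℕ) : k) := by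
    rw [← map_natCast (TrivSqZeroExt.inlHom k k)]; rfl
  rw [this, TrivSqZeroExt.snd_inl]

lemma ofMat_ρ_eq_one_iff {A : Type} [CommRing A] [IsLocalRing A]
    (r : GQ →* Matrix (Fin 2) (Fin 2) A) (h : MatCts A r) (σ : GQ) :
    (ofMat r h).ρ σ = 1 ↔ r σ = 1 := by
  show Matrix.toLin' (r σ) = 1 ↔ r σ = 1
  constructor
  · intro h1
    apply Matrix.toLin'.injective
    rw [h1, Matrix.toLin'_one]; rfl
  · intro h1
    rw [h1, Matrix.toLin'_one]; rfl

end Det


section Points

variable {𝒪 : Type} [CommRing 𝒪] [IsDomain 𝒪] [IsDiscreteValuationRing 𝒪]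
  [IsAdicComplete (maximalIdeal 𝒪) 𝒪]
  {ρbar : ResidualGaloisRep (ResidueField 𝒪)}
  {𝒟 : ∀ ⦃A : Type⦄ [CommRing A] [IsLocalRing A] [Algebra 𝒪 A], GaloisRepAdic A → Prop}
  (DQ : DeformationRingData 𝒪 ρbar 𝒟) (b : Module.Basis (Fin 2) (ResidueField 𝒪) ρbar.V)

attribute [local instance] dualNumberAlgebra
attribute [local instance] isLocalHom_algebraMap_dualNumber

lemma pt_isLocalHom (φ : DQ.R →ₐ[𝒪] DualNumber (ResidueField 𝒪)) :
    IsLocalHom (φ : DQ.R →+* DualNumber (ResidueField 𝒪)) :=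
  isLocalHom_of_algHom DQ.instIsLocalHom DQ.residue_surjective
    (isLocalHom_algebraMap_dualNumber 𝒪) (isArtinianTestAlgebra_dualNumber 𝒪).residue_surjective φ

/-- a strict matrix form of the universal deformation -/
def univMat : GQ →* Matrix (Fin 2) (Fin 2) DQ.R :=
  (exists_strictLift_of_residual_isEquiv ρbar b DQ.ρ DQ.residual_isEquiv).choose

lemma univMat_cts : MatCts DQ.R (univMat DQ b) :=
  (exists_strictLift_of_residual_isEquiv ρbar b DQ.ρ DQ.residual_isEquiv).choose_spec.choose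

lemma univMat_strict : IsStrictLift (𝒪 := 𝒪) (resMat ρbar b) (univMat DQ b) :=
  (exists_strictLift_of_residual_isEquiv ρbar b DQ.ρ
    DQ.residual_isEquiv).choose_spec.choose_spec.1

lemma univMat_equiv : DQ.ρ.IsEquiv (ofMat (univMat DQ b) (univMat_cts DQ b)) :=
  (exists_strictLift_of_residual_isEquiv ρbar b DQ.ρ
    DQ.residual_isEquiv).choose_spec.choose_spec.2

/-- the matrix lift of `ρbar` to `k[ε]` attached to a point of the deformation ring -/
def ptMat (φ : DQ.R →ₐ[𝒪] DualNumber (ResidueField 𝒪)) :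
    GQ →* Matrix (Fin 2) (Fin 2) (DualNumber (ResidueField 𝒪)) :=
  mapMat (φ : DQ.R →+* DualNumber (ResidueField 𝒪)) (univMat DQ b)

lemma ptMat_cts (φ : DQ.R →ₐ[𝒪] DualNumber (ResidueField 𝒪)) :
    MatCts (DualNumber (ResidueField 𝒪)) (ptMat DQ b φ) :=
  (univMat_cts DQ b).map _ (pt_isLocalHom DQ φ)

lemma ptMat_strict (φ : DQ.R →ₐ[𝒪] DualNumber (ResidueField 𝒪)) :
    IsStrictLift (𝒪 := 𝒪) (resMat ρbar b) (ptMat DQ b φ) :=
  (univMat_strict DQ b).map φ (pt_isLocalHom DQ φ)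

lemma ptMat_equiv (φ : DQ.R →ₐ[𝒪] DualNumber (ResidueField 𝒪)) :
    (DQ.ρ.baseChangeAlong (φ : DQ.R →+* DualNumber (ResidueField 𝒪)) (pt_isLocalHom DQ φ)).IsEquiv
      (ofMat (ptMat DQ b φ) (ptMat_cts DQ b φ)) := by
  obtain ⟨e⟩ := univMat_equiv DQ b
  obtain ⟨e'⟩ := baseChangeAlong_ofMat (univMat DQ b) (univMat_cts DQ b)
    (φ : DQ.R →+* DualNumber (ResidueField 𝒪)) (pt_isLocalHom DQ φ)
  exact ⟨(e.baseChangeAlong _ (pt_isLocalHom DQ φ)).trans e'⟩

end Points


section Points2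

variable {𝒪 : Type} [CommRing 𝒪] [IsDomain 𝒪] [IsDiscreteValuationRing 𝒪]
  [IsAdicComplete (maximalIdeal 𝒪) 𝒪]
  {ρbar : ResidualGaloisRep (ResidueField 𝒪)}
  {𝒟 : ∀ ⦃A : Type⦄ [CommRing A] [IsLocalRing A] [Algebra 𝒪 A], GaloisRepAdic A → Prop}
  (DQ : DeformationRingData 𝒪 ρbar 𝒟) (b : Module.Basis (Fin 2) (ResidueField 𝒪) ρbar.V)

attribute [local instance] dualNumberAlgebra
attribute [local instance] isLocalHom_algebraMap_dualNumber

include b in
lemma pt_residual_isEquiv (φ : DQ.R →ₐ[𝒪] DualNumber (ResidueField 𝒪)) :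
    (DQ.ρ.baseChangeAlong (φ : DQ.R →+* DualNumber (ResidueField 𝒪))
      (pt_isLocalHom DQ φ)).residual.IsEquiv
      (ρbar.baseChangeAlong
        (ResidueField.map (algebraMap 𝒪 (DualNumber (ResidueField 𝒪))))) := by
  obtain ⟨e⟩ := ptMat_equiv DQ b φ
  obtain ⟨e'⟩ := residual_ofMat_isEquiv ρbar b (ptMat DQ b φ) (ptMat_cts DQ b φ)
    (ptMat_strict DQ b φ)
  exact ⟨e.residual.trans e'⟩

/-- the image of a non-surjective point is `k` -/
lemma pt_snd_eq_zero_of_not_surjective (φ : DQ.R →ₐ[𝒪] DualNumber (ResidueField 𝒪))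
    (hφ : ¬ Function.Surjective φ) (x : DQ.R) : TrivSqZeroExt.snd (φ x) = 0 := by
  by_contra hne
  apply hφ
  -- `inr v` is in the range, `v ≠ 0`
  obtain ⟨c, hc⟩ := residue_surjective (TrivSqZeroExt.fst (φ x))
  have h1 : φ (x - algebraMap 𝒪 DQ.R c) = TrivSqZeroExt.inr (TrivSqZeroExt.snd (φ x)) := by
    rw [map_sub, AlgHom.commutes]
    have h2 : algebraMap 𝒪 (DualNumber (ResidueField 𝒪)) c =
        TrivSqZeroExt.inl (residue 𝒪 c) := rfl
    rw [h2, hc]
    apply TrivSqZeroExt.ext <;> simp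
  intro y
  obtain ⟨c1, hc1⟩ := residue_surjective (TrivSqZeroExt.fst y)
  obtain ⟨c2, hc2⟩ := residue_surjective
    (TrivSqZeroExt.snd y * (TrivSqZeroExt.snd (φ x))⁻¹)
  refine ⟨algebraMap 𝒪 DQ.R c1 + algebraMap 𝒪 DQ.R c2 * (x - algebraMap 𝒪 DQ.R c), ?_⟩
  rw [map_add, map_mul, h1, AlgHom.commutes, AlgHom.commutes]
  have h2 : ∀ c : 𝒪, algebraMap 𝒪 (DualNumber (ResidueField 𝒪)) c =
      TrivSqZeroExt.inl (residue 𝒪 c) := fun _ => rfl
  rw [h2, h2, hc1, hc2]
  apply TrivSqZeroExt.ext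
  · simp
  · simp only [TrivSqZeroExt.snd_add, TrivSqZeroExt.snd_inl, TrivSqZeroExt.snd_mul,
      TrivSqZeroExt.fst_inl, TrivSqZeroExt.snd_inr, TrivSqZeroExt.fst_inr, smul_eq_mul,
      MulOpposite.smul_eq_mul_unop, MulOpposite.unop_op, zero_add, zero_mul, add_zero]
    rw [mul_assoc, inv_mul_cancel₀ hne, mul_one]

lemma pt_fst_eq_augOf (φ : DQ.R →ₐ[𝒪] DualNumber (ResidueField 𝒪)) (x : DQ.R) :
    TrivSqZeroExt.fst (φ x) = augOf DQ.instIsLocalHom DQ.residue_surjective x := by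
  let χ : DQ.R →ₐ[𝒪] ResidueField 𝒪 :=
    { toFun := fun x => TrivSqZeroExt.fst (φ x)
      map_one' := by rw [map_one, TrivSqZeroExt.fst_one]
      map_mul' := fun x y => by rw [map_mul, TrivSqZeroExt.fst_mul]
      map_zero' := by rw [map_zero, TrivSqZeroExt.fst_zero]
      map_add' := fun x y => by rw [map_add, TrivSqZeroExt.fst_add]
      commutes' := fun c => by rw [AlgHom.commutes]; rfl }
  have := algHom_residueField_eq_augOf DQ.instIsLocalHom DQ.residue_surjective χ
  exact AlgHom.congr_fun this x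

lemma pt_eq_of_not_surjective (φ φ' : DQ.R →ₐ[𝒪] DualNumber (ResidueField 𝒪))
    (hφ : ¬ Function.Surjective φ) (hφ' : ¬ Function.Surjective φ') : φ = φ' := by
  apply AlgHom.ext
  intro x
  apply TrivSqZeroExt.ext
  · rw [pt_fst_eq_augOf, pt_fst_eq_augOf]
  · rw [pt_snd_eq_zero_of_not_surjective DQ φ hφ, pt_snd_eq_zero_of_not_surjective DQ φ' hφ']

include b in
/-- if the base changes along two points are equivalent and one of the points satisfies `𝒟`, the
points are equal -/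
lemma pt_eq_of_isEquiv (φ φ' : DQ.R →ₐ[𝒪] DualNumber (ResidueField 𝒪))
    (h𝒟 : 𝒟 (DQ.ρ.baseChangeAlong (φ' : DQ.R →+* DualNumber (ResidueField 𝒪))
      (pt_isLocalHom DQ φ')))
    (he : (DQ.ρ.baseChangeAlong (φ : DQ.R →+* DualNumber (ResidueField 𝒪))
      (pt_isLocalHom DQ φ)).IsEquiv
        (DQ.ρ.baseChangeAlong (φ' : DQ.R →+* DualNumber (ResidueField 𝒪))
          (pt_isLocalHom DQ φ'))) : φ = φ' := by
  haveI : IsNoetherianRing (DualNumber (ResidueField 𝒪)) :=
    haveI := (isArtinianTestAlgebra_dualNumber 𝒪).isArtinian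
    inferInstance
  obtain ⟨ψ, -, huniq⟩ := DQ.universal (DualNumber (ResidueField 𝒪))
    (isArtinianTestAlgebra_dualNumber 𝒪).residue_surjective
    (DQ.ρ.baseChangeAlong (φ' : DQ.R →+* DualNumber (ResidueField 𝒪)) (pt_isLocalHom DQ φ'))
    h𝒟 (pt_residual_isEquiv DQ b φ')
  rw [huniq φ ⟨pt_isLocalHom DQ φ, he⟩,
    huniq φ' ⟨pt_isLocalHom DQ φ', ⟨GaloisRepAdic.Equiv.refl _⟩⟩]

end Points2


section Points3

variable {𝒪 : Type} [CommRing 𝒪] [IsDomain 𝒪] [IsDiscreteValuationRing 𝒪]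
  [IsAdicComplete (maximalIdeal 𝒪) 𝒪]
  {ρbar : ResidualGaloisRep (ResidueField 𝒪)}
  {𝒟 : ∀ ⦃A : Type⦄ [CommRing A] [IsLocalRing A] [Algebra 𝒪 A], GaloisRepAdic A → Prop}
  (DQ : DeformationRingData 𝒪 ρbar 𝒟) (b : Module.Basis (Fin 2) (ResidueField 𝒪) ρbar.V)
  (p : ℕ) [Fact p.Prime] (hpk : (p : ResidueField 𝒪) = 0)
  (hdetD : ∀ ⦃A : Type⦄ [CommRing A] [IsLocalRing A] [Algebra 𝒪 A] (ρ : GaloisRepAdic A),
    𝒟 ρ → ρ.DetIsCyclotomic p)

attribute [local instance] dualNumberAlgebra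
attribute [local instance] isLocalHom_algebraMap_dualNumber

include hdetD in
lemma ptMat_detIsCyclotomic (φ : DQ.R →ₐ[𝒪] DualNumber (ResidueField 𝒪)) :
    (ofMat (ptMat DQ b φ) (ptMat_cts DQ b φ)).DetIsCyclotomic p :=
  detIsCyclotomic_of_isEquiv (ptMat_equiv DQ b φ)
    (detIsCyclotomic_baseChangeAlong _ _ _ (hdetD DQ.ρ DQ.isOfType))

include hpk hdetD in
lemma ptMat_hasResidualDet (φ : DQ.R →ₐ[𝒪] DualNumber (ResidueField 𝒪)) :
    HasResidualDet (ptMat DQ b φ) :=
  hasResidualDet_of_detIsCyclotomic p hpk _ _ (ptMat_detIsCyclotomic DQ b p hdetD φ)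

/-- the tangent class of a point of the deformation ring -/
def ptClass (φ : DQ.R →ₐ[𝒪] DualNumber (ResidueField 𝒪)) : H1 (ad0Rep ρbar) :=
  tangentClass (ptMat DQ b φ) (isDualLift_of_isStrictLift ρbar b (ptMat_strict DQ b φ))
    (ptMat_hasResidualDet DQ b p hpk hdetD φ)

/-- **injectivity of the tangent map**: two points of the deformation ring with the same tangent
class are equal, provided `𝒟` is stable under surjective base change to `k[ε]` -/
theorem ptClass_injective
    (hstab : ∀ ψ : DQ.R →ₐ[𝒪] DualNumber (ResidueField 𝒪), Function.Surjective ψ →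
      𝒟 (DQ.ρ.baseChangeAlong (ψ : DQ.R →+* DualNumber (ResidueField 𝒪)) (pt_isLocalHom DQ ψ))) :
    Function.Injective (ptClass DQ b p hpk hdetD) := by
  intro φ φ' h
  have key : ∀ φ φ' : DQ.R →ₐ[𝒪] DualNumber (ResidueField 𝒪),
      ptClass DQ b p hpk hdetD φ = ptClass DQ b p hpk hdetD φ' →
      (DQ.ρ.baseChangeAlong (φ' : DQ.R →+* DualNumber (ResidueField 𝒪))
        (pt_isLocalHom DQ φ')).IsEquiv
      (DQ.ρ.baseChangeAlong (φ : DQ.R →+* DualNumber (ResidueField 𝒪))
        (pt_isLocalHom DQ φ)) := by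
    intro φ φ' h
    obtain ⟨u, hu⟩ := exists_conj_of_tangentClass_eq _ _ _ _ h
    obtain ⟨e1⟩ := ptMat_equiv DQ b φ'
    obtain ⟨e2⟩ := isEquiv_ofMat_of_conj (ptMat_cts DQ b φ') (ptMat_cts DQ b φ) u hu
    obtain ⟨e3⟩ := ptMat_equiv DQ b φ
    exact ⟨(e1.trans e2).trans e3.symm⟩
  by_cases hs : Function.Surjective φ
  · exact (pt_eq_of_isEquiv DQ b φ' φ (hstab φ hs) (key φ φ' h)).symm
  · by_cases hs' : Function.Surjective φ'
    · exact pt_eq_of_isEquiv DQ b φ φ' (hstab φ' hs') (key φ' φ h.symm)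
    · exact pt_eq_of_not_surjective DQ φ φ' hs hs'

end Points3


section Cont

variable {k : Type} [Field k] {ρbar : ResidualGaloisRep k}
  {b : Module.Basis (Fin 2) k ρbar.V}

lemma tangentMat_mul_of_eq_one {r : GQ →* Matrix (Fin 2) (Fin 2) (DualNumber k)}
    (hr : IsDualLift ρbar b r) (g s : GQ) (hs : r s = 1) :
    tangentMat (ρbar := ρbar) (b := b) r (g * s) = tangentMat (ρbar := ρbar) (b := b) r g := by
  have hs' : r s⁻¹ = 1 := by
    have h1 : r s⁻¹ * r s = 1 := by rw [← map_mul, inv_mul_cancel, map_one]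
    rwa [hs, mul_one] at h1
  unfold tangentMat
  rw [map_mul, hs, mul_one, ← hr, ← hr, _root_.mul_inv_rev, map_mul, hs', one_mul]

lemma tangentCocycle_mul_of_eq_one {r : GQ →* Matrix (Fin 2) (Fin 2) (DualNumber k)}
    (hr : IsDualLift ρbar b r) (hdet : HasResidualDet r) (g s : GQ) (hs : r s = 1) :
    tangentCocycle r hr hdet (g * s) = tangentCocycle r hr hdet g := by
  apply ad0Val_injective
  rw [ad0Val_tangentCocycle, ad0Val_tangentCocycle]
  unfold tangentEnd
  rw [tangentMat_mul_of_eq_one hr g s hs]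

/-- the kernel of a continuous matrix representation over `k[ε]` is open -/
lemma isOpen_ker_of_matCts {r : GQ →* Matrix (Fin 2) (Fin 2) (DualNumber k)}
    (h : MatCts (DualNumber k) r) : IsOpen ((MonoidHom.ker r : Subgroup GQ) : Set GQ) := by
  obtain ⟨L, hL, h2⟩ := h 2
  refine Subgroup.isOpen_mono (H₁ := L.fixingSubgroup) ?_
    (IntermediateField.fixingSubgroup_isOpen L)
  intro σ hσ
  rw [MonoidHom.mem_ker]
  refine Matrix.ext fun i j => ?_
  have := h2 σ (fun x hx => (IntermediateField.mem_fixingSubgroup_iff _ _).mp hσ x hx) i j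
  rw [dn_maximalIdeal_sq, Ideal.mem_bot, Matrix.sub_apply, sub_eq_zero] at this
  exact this

/-- **the tangent class of a lift unramified outside `S'` is admissible** -/
theorem tangentClass_mem_continuousH1S (S' : Finset Nat.Primes)
    {r : GQ →* Matrix (Fin 2) (Fin 2) (DualNumber k)} (h : MatCts (DualNumber k) r)
    (hr : IsDualLift ρbar b r) (hdet : HasResidualDet r)
    (hunr : ∀ q : Nat.Primes, q ∉ S' → ∀ A : ValuationSubring (AlgebraicClosure ℚ),
      A.LiesOverPrime (q : ℕ) → ∀ σ ∈ A.inertiaSubgroupIn ℚ, r σ = 1) :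
    tangentClass r hr hdet ∈ continuousH1S S' (ad0Rep ρbar) := by
  rw [mem_continuousH1S_iff]
  refine ⟨tangentCocycle r hr hdet, ?_, rfl⟩
  haveI : (MonoidHom.ker r : Subgroup GQ).Normal := MonoidHom.normal_ker r
  obtain ⟨Lv, hLv⟩ := Fermat.Agent.CFT.Bridge.exists_level_N_eq (MonoidHom.ker r)
    (isOpen_ker_of_matCts h)
  refine ⟨Lv.toIntermediateField, ⟨inferInstance, fun q hq A hA σ hσ => ?_⟩, fun g s hs => ?_⟩
  · change σ ∈ Lv.N
    rw [hLv, MonoidHom.mem_ker]
    exact hunr q hq A hA σ hσ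
  · have hs' : s ∈ Lv.N := hs
    rw [hLv, MonoidHom.mem_ker] at hs'
    exact tangentCocycle_mul_of_eq_one hr hdet g s hs'

end Cont


section Res

variable {k : Type} [Field k]

/-- admissible global classes restrict to continuous local classes -/
theorem resAt_mem_locCont_of_continuousH1 (q : Nat.Primes) (M : Rep k GQ) {x : H1 M}
    (hx : x ∈ continuousH1 (MonoidHom.id GQ) M) : resAt q M x ∈ locCont q M := by
  rw [mem_continuousH1_iff] at hx
  obtain ⟨c, ⟨F, hF, hc⟩, rfl⟩ := hx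
  unfold resAt locCont
  rw [mem_continuousH1_iff]
  refine ⟨mapCocycles₁ (primeLocalToGlobal q) (𝟙 (locAt q M)) c, ⟨F, hF, fun g s hs => ?_⟩, ?_⟩
  · rw [coe_mapCocycles₁]
    show c.1 (primeLocalToGlobal q (g * s)) = c.1 (primeLocalToGlobal q g)
    rw [map_mul]
    exact hc _ _ hs
  · exact (H1π_comp_map_apply (primeLocalToGlobal q) (𝟙 (locAt q M)) c).symm

theorem resAt_mem_locCont (q : Nat.Primes) (S' : Finset Nat.Primes) (M : Rep k GQ) {x : H1 M}
    (hx : x ∈ continuousH1S S' M) : resAt q M x ∈ locCont q M :=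
  resAt_mem_locCont_of_continuousH1 q M (continuousH1S_le_continuousH1 S' M hx)

end Res


section ResCocycle

variable {k : Type} [Field k]

/-- restriction of a 1-cocycle to the local Galois group at `q` -/
def resCocycle (q : Nat.Primes) (M : Rep k GQ) (c : cocycles₁ M) : cocycles₁ (locAt q M) :=
  mapCocycles₁ (primeLocalToGlobal q) (𝟙 (locAt q M)) c

@[simp] lemma resCocycle_apply (q : Nat.Primes) (M : Rep k GQ) (c : cocycles₁ M)
    (σ : primeLocalGaloisGroup q) : resCocycle q M c σ = c (primeLocalToGlobal q σ) := rfl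

lemma resAt_H1π (q : Nat.Primes) (M : Rep k GQ) (c : cocycles₁ M) :
    resAt q M (H1π M c) = H1π (locAt q M) (resCocycle q M c) :=
  H1π_comp_map_apply (primeLocalToGlobal q) (𝟙 (locAt q M)) c

variable {ρbar : ResidualGaloisRep k} {b : Module.Basis (Fin 2) k ρbar.V}

/-- the restriction of the tangent class is the class of the restricted tangent cocycle -/
lemma resAt_tangentClass (q : Nat.Primes) (r : GQ →* Matrix (Fin 2) (Fin 2) (DualNumber k))
    (hr : IsDualLift ρbar b r) (hdet : HasResidualDet r) :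
    resAt q (ad0Rep ρbar) (tangentClass r hr hdet) =
      H1π (locAt q (ad0Rep ρbar)) (resCocycle q (ad0Rep ρbar) (tangentCocycle r hr hdet)) :=
  resAt_H1π q _ _

/-- the values of the restricted tangent cocycle, as endomorphisms of `ρbar.V` -/
lemma ad0Val_resCocycle_tangentCocycle (q : Nat.Primes)
    (r : GQ →* Matrix (Fin 2) (Fin 2) (DualNumber k))
    (hr : IsDualLift ρbar b r) (hdet : HasResidualDet r) (σ : primeLocalGaloisGroup q) :
    ad0Val ρbar (resCocycle q (ad0Rep ρbar) (tangentCocycle r hr hdet) σ) =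
      Matrix.toLin b b (tangentMat (ρbar := ρbar) (b := b) r (primeLocalToGlobal q σ)) := rfl

end ResCocycle


section Points4

variable {𝒪 : Type} [CommRing 𝒪] [IsDomain 𝒪] [IsDiscreteValuationRing 𝒪]
  [IsAdicComplete (maximalIdeal 𝒪) 𝒪]
  {ρbar : ResidualGaloisRep (ResidueField 𝒪)}
  {𝒟 : ∀ ⦃A : Type⦄ [CommRing A] [IsLocalRing A] [Algebra 𝒪 A], GaloisRepAdic A → Prop}
  (DQ : DeformationRingData 𝒪 ρbar 𝒟) (b : Module.Basis (Fin 2) (ResidueField 𝒪) ρbar.V)
  (p : ℕ) [Fact p.Prime] (hpk : (p : ResidueField 𝒪) = 0)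
  (hdetD : ∀ ⦃A : Type⦄ [CommRing A] [IsLocalRing A] [Algebra 𝒪 A] (ρ : GaloisRepAdic A),
    𝒟 ρ → ρ.DetIsCyclotomic p)

attribute [local instance] dualNumberAlgebra
attribute [local instance] isLocalHom_algebraMap_dualNumber

/-- the tangent class of a lift with vanishing `ε`-part is zero -/
lemma tangentClass_eq_zero_of_mSnd {k : Type} [Field k] {ρbar : ResidualGaloisRep k}
    {b : Module.Basis (Fin 2) k ρbar.V} (r : GQ →* Matrix (Fin 2) (Fin 2) (DualNumber k))
    (hr : IsDualLift ρbar b r) (hdet : HasResidualDet r) (h0 : ∀ σ, mSnd (r σ) = 0) :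
    tangentClass r hr hdet = 0 := by
  have hc : tangentCocycle r hr hdet = 0 := by
    apply Subtype.ext
    funext σ
    apply ad0Val_injective
    show tangentEnd (ρbar := ρbar) (b := b) r σ = ad0Val ρbar 0
    unfold tangentEnd tangentMat
    rw [h0 σ, zero_mul, map_zero]
    rfl
  unfold tangentClass
  rw [hc, map_zero]

lemma ptClass_eq_zero_of_not_surjective (φ : DQ.R →ₐ[𝒪] DualNumber (ResidueField 𝒪))
    (hφ : ¬ Function.Surjective φ) : ptClass DQ b p hpk hdetD φ = 0 := by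
  unfold ptClass
  apply tangentClass_eq_zero_of_mSnd
  intro σ
  ext i j
  show TrivSqZeroExt.snd (φ (univMat DQ b σ i j)) = 0
  exact pt_snd_eq_zero_of_not_surjective DQ φ hφ _

end Points4

end

end Fermat.Agent.TW
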