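import Fermat.Agent.Lib.TW.S56Final
import Fermat.Agent.Lib.TW.Local.LocalFinal
import Fermat.Agent.Lib.TW.Flat.Place

/-!
# P10: S56 from the three items which are still open

`s56_of_three` : the statement of S56 (verbatim conclusion) from its own hypotheses and

* (O1) `ContractGW` for the pairings `tlTP` (G3 + G4);
* (O2) `ContractLocP … (condFlat p)` (G7), in the split form WP-D (a `D_p`-stable line exists) /
  WP-E (no `D_p`-stable line);
* (O5) `dim H¹_cont(G_p, k(ω)) ≤ 2` (R3).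

(O3), (O4), (O7) are helper8's `tw_finrank_twUr_ad0_le`, `tw_contractLocTW`, `tw_localSurj_mod`.
`tw_algebraZModResidue` is the `ZMod p`-algebra structure on the residue field used by the final
`S56.lean`.
-/

set_option autoImplicit false
set_option linter.unusedSectionVars false
set_option linter.style.haveILetI false

open Fermat.Agent.S53Lib IsLocalRing groupCohomology ExtCitation CategoryTheory GaloisRep Polynomial

namespace Fermat.Agent.TW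

/-- the residue field has characteristic `p` -/
theorem tw_charP_residue {𝒪 : Type} [CommRing 𝒪] [IsLocalRing 𝒪] (p : ℕ) [Fact p.Prime]
    (hp𝒪 : (p : 𝒪) ∈ maximalIdeal 𝒪) : CharP (ResidueField 𝒪) p := by
  have hp : p.Prime := Fact.out
  refine (CharP.charP_iff_prime_eq_zero hp).2 ?_
  rw [← map_natCast (residue 𝒪)]
  exact (residue_eq_zero_iff _).2 hp𝒪

/-- the `ZMod p`-algebra structure on the residue field -/
@[reducible] noncomputable def tw_algebraZModResidue {𝒪 : Type} [CommRing 𝒪] [IsLocalRing 𝒪] (p : ℕ)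
    [Fact p.Prime] (hp𝒪 : (p : 𝒪) ∈ maximalIdeal 𝒪) : Algebra (ZMod p) (ResidueField 𝒪) :=
  haveI := tw_charP_residue p hp𝒪
  ZMod.algebra (ResidueField 𝒪) p

/-- WP-F: the flat local contract from its two halves -/
theorem ff_contractLocP_flat_of_cases {k : Type} [Field k] (p : ℕ) [Fact p.Prime]
    (ρbar : ResidualGaloisRep k) (b : Module.Basis (Fin 2) k ρbar.V)
    (hred : (∃ v₀ : ρbar.V, v₀ ≠ 0 ∧ ∀ σ ∈ (ffPlaceAt p).D, ∃ x : k, ρbar.ρ σ v₀ = x • v₀) →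
      ContractLocP p ρbar b (condFlat p))
    (hirr : (¬ ∃ v₀ : ρbar.V, v₀ ≠ 0 ∧ ∀ σ ∈ (ffPlaceAt p).D, ∃ x : k, ρbar.ρ σ v₀ = x • v₀) →
      ContractLocP p ρbar b (condFlat p)) :
    ContractLocP p ρbar b (condFlat p) := by
  by_cases h : ∃ v₀ : ρbar.V, v₀ ≠ 0 ∧ ∀ σ ∈ (ffPlaceAt p).D, ∃ x : k, ρbar.ρ σ v₀ = x • v₀
  · exact hred h
  · exact hirr h

theorem s56_of_three
    {𝒪 : Type} [CommRing 𝒪] [IsDomain 𝒪] [IsDiscreteValuationRing 𝒪]
    [IsAdicComplete (maximalIdeal 𝒪) 𝒪] [Finite (ResidueField 𝒪)]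
    (p : ℕ) [Fact p.Prime] (hp2 : p ≠ 2) (hp𝒪 : (p : 𝒪) ∈ maximalIdeal 𝒪)
    (ρbar : ResidualGaloisRep (ResidueField 𝒪))
    (habs : ρbar.IsAbsolutelyIrreducible)
    (hdet : (GaloisRepAdic.ofResidualGaloisRep ρbar).DetIsCyclotomic p)
    (hsplit : ∀ σ : AlgebraicClosure ℚ ≃ₐ[ℚ] AlgebraicClosure ℚ,
      ∃ α β : ResidueField 𝒪, LinearMap.charpoly (ρbar.ρ σ) = (X - C α) * (X - C β))
    (hTW : ∀ (K : Type) [Field K] [Algebra (ResidueField 𝒪) K]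
      (G : Subgroup (AlgebraicClosure ℚ ≃ₐ[ℚ] AlgebraicClosure ℚ)), G.index = 2 →
      ∀ V : Submodule K (ρbar.baseChange K).V,
        (∀ σ ∈ G, ∀ x ∈ V, (ρbar.baseChange K).ρ σ x ∈ V) → V = ⊥ ∨ V = ⊤)
    (S Smin : Finset ℕ) (hpSmin : p ∈ Smin) (hSmin : Smin ⊆ S)
    (hmin : ∀ q : ℕ, q.Prime → q ≠ p → (q ∈ Smin ↔ ¬ ρbar.IsUnramifiedAt q))
    [Algebra (ZMod p) (ResidueField 𝒪)]
    -- the open items
    (hGW : ContractGW p (ad0Rep ρbar) (tateDual p (ad0Rep ρbar)) (tlTP p (ad0Rep ρbar)))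
    (hLocFlat : ∀ b : Module.Basis (Fin 2) (ResidueField 𝒪) ρbar.V,
      ContractLocP p ρbar b (condFlat p))
    (hR3 : FiniteDimensional (ResidueField 𝒪)
        (locCont (pPrime p) (twCharRep (cycloK p (ResidueField 𝒪)))) ∧
      Module.finrank (ResidueField 𝒪)
        (locCont (pPrime p) (twCharRep (cycloK p (ResidueField 𝒪)))) ≤ 2) :
    (∃ r : ℕ, ∀ n : ℕ, ∃ qv : Fin r → ℕ, Function.Injective qv ∧
      (∀ i, (qv i).Prime ∧ qv i ∉ S ∧ p ^ (n + 1) ∣ qv i - 1) ∧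
      (∀ i, ∀ P : ValuationSubring (AlgebraicClosure ℚ), P.LiesOverPrime (qv i) →
        ∀ φ : AlgebraicClosure ℚ ≃ₐ[ℚ] AlgebraicClosure ℚ, P.IsFrobeniusAt φ (qv i) →
          ∃ α β : ResidueField 𝒪, α ≠ β ∧ LinearMap.charpoly (ρbar.ρ φ) = (X - C α) * (X - C β)) ∧
      ∀ DQ : GaloisRep.DeformationRingData 𝒪 ρbar (fun _A _ _ _ ρ =>
          GaloisRep.strictOrdinaryCondition 𝒪 p (Smin ∪ Finset.univ.image qv) ρ ∧
            ∀ q ∈ Smin, q.Prime → q ≠ p → ρ.IsUnipotentOnInertiaAt q),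
        ∃ γ : MvPowerSeries (Fin r) 𝒪 →ₐ[𝒪] DQ.R, Function.Surjective γ) ∧
    (∃ r : ℕ, ∀ n : ℕ, ∃ qv : Fin r → ℕ, Function.Injective qv ∧
      (∀ i, (qv i).Prime ∧ qv i ∉ S ∧ p ^ (n + 1) ∣ qv i - 1) ∧
      (∀ i, ∀ P : ValuationSubring (AlgebraicClosure ℚ), P.LiesOverPrime (qv i) →
        ∀ φ : AlgebraicClosure ℚ ≃ₐ[ℚ] AlgebraicClosure ℚ, P.IsFrobeniusAt φ (qv i) →
          ∃ α β : ResidueField 𝒪, α ≠ β ∧ LinearMap.charpoly (ρbar.ρ φ) = (X - C α) * (X - C β)) ∧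
      ∀ DQ : GaloisRep.DeformationRingData 𝒪 ρbar (fun _A _ _ _ ρ =>
          GaloisRep.flatCondition 𝒪 p (Smin ∪ Finset.univ.image qv) ρ ∧
            ∀ q ∈ Smin, q.Prime → q ≠ p → ρ.IsUnipotentOnInertiaAt q),
        ∃ γ : MvPowerSeries (Fin r) 𝒪 →ₐ[𝒪] DQ.R, Function.Surjective γ) := by
  have hpk : (p : ResidueField 𝒪) = 0 := by
    rw [← map_natCast (residue 𝒪)]
    exact (residue_eq_zero_iff _).2 hp𝒪
  exact s56_of_open_items p hp2 hp𝒪 ρbar habs hdet hsplit hTW S Smin hpSmin hSmin hmin hGW hLocFlat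
    (fun q _ => tw_finrank_twUr_ad0_le ρbar q) (tw_contractLocTW p ρbar hpk) hR3
    (fun q => tw_localSurj_mod q)

end Fermat.Agent.TW
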