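import Mathlib
import Fermat.Prelude.Def_GaloisRep_Adic
import Fermat.Agent.Lib.S53.MatInterface

/-!
# P10 / G5 (part 1): the adjoint representation `ad⁰ ρbar` and the tangent class of a lift to `k[ε]`

* `ad0Rep ρbar : Rep k GQ` : trace-zero endomorphisms of `ρbar.V` with the conjugation action;
* for a matrix-valued lift `r : GQ →* M₂(k[ε])` of `ρbar` (in a basis `b`) with `det r = det ρbar`:
  `tangentCocycle`, `tangentClass : H1 (ad0Rep ρbar)`;
* `isEquiv_of_tangentClass_eq` : lifts with the same tangent class are equivalent.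
-/

set_option autoImplicit false

open Fermat.Agent.S53Lib IsLocalRing groupCohomology

namespace Fermat.Agent.TW

noncomputable section

variable {k : Type} [Field k] (ρbar : ResidualGaloisRep k)

/-- the adjoint representation on `End_k(V)` (conjugation) -/
def adRepn : Representation k GQ (Module.End k ρbar.V) :=
  Representation.linHom ρbar.ρ ρbar.ρ

lemma adRepn_apply (g : GQ) (f : Module.End k ρbar.V) :
    adRepn ρbar g f = ρbar.ρ g ∘ₗ f ∘ₗ ρbar.ρ g⁻¹ := rfl

/-- trace-zero endomorphisms -/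
def ad0Sub : Submodule k (Module.End k ρbar.V) := LinearMap.ker (LinearMap.trace k ρbar.V)

lemma mem_ad0Sub (f : Module.End k ρbar.V) : f ∈ ad0Sub ρbar ↔ LinearMap.trace k ρbar.V f = 0 :=
  LinearMap.mem_ker

lemma rho_mul_rho_inv (g : GQ) : ρbar.ρ g * ρbar.ρ g⁻¹ = 1 := by
  rw [← map_mul, mul_inv_cancel, map_one]

lemma rho_inv_mul_rho (g : GQ) : ρbar.ρ g⁻¹ * ρbar.ρ g = 1 := by
  rw [← map_mul, inv_mul_cancel, map_one]

lemma trace_adRepn (g : GQ) (f : Module.End k ρbar.V) :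
    LinearMap.trace k ρbar.V (adRepn ρbar g f) = LinearMap.trace k ρbar.V f := by
  rw [adRepn_apply]
  change LinearMap.trace k ρbar.V (ρbar.ρ g * (f * ρbar.ρ g⁻¹)) = _
  rw [LinearMap.trace_mul_comm, mul_assoc, rho_inv_mul_rho, mul_one]

lemma ad0Sub_le_comap (g : GQ) : ad0Sub ρbar ≤ (ad0Sub ρbar).comap (adRepn ρbar g) := by
  intro f hf
  rw [Submodule.mem_comap, mem_ad0Sub, trace_adRepn]
  exact (mem_ad0Sub ρbar f).1 hf

/-- the representation `ad⁰ ρbar` -/
def ad0Repn : Representation k GQ (ad0Sub ρbar) :=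
  (adRepn ρbar).subrepresentation (ad0Sub ρbar) (ad0Sub_le_comap ρbar)

/-- `ad⁰ ρbar` as an object of `Rep k GQ` -/
def ad0Rep : Rep k GQ := Rep.of (ad0Repn ρbar)

/-- the underlying endomorphism of an element of `ad⁰ ρbar` -/
def ad0Val (x : (ad0Rep ρbar).V) : Module.End k ρbar.V := (show ad0Sub ρbar from x).1

lemma ad0Val_injective : Function.Injective (ad0Val ρbar) := Subtype.val_injective

lemma ad0Val_ρ (g : GQ) (x : (ad0Rep ρbar).V) :
    ad0Val ρbar ((ad0Rep ρbar).ρ g x) = adRepn ρbar g (ad0Val ρbar x) := rfl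

lemma ad0Val_add (x y : (ad0Rep ρbar).V) :
    ad0Val ρbar (x + y) = ad0Val ρbar x + ad0Val ρbar y := rfl

lemma ad0Val_sub (x y : (ad0Rep ρbar).V) :
    ad0Val ρbar (x - y) = ad0Val ρbar x - ad0Val ρbar y := rfl

lemma ad0Val_smul (a : k) (x : (ad0Rep ρbar).V) :
    ad0Val ρbar (a • x) = a • ad0Val ρbar x := rfl

lemma trace_ad0Val (x : (ad0Rep ρbar).V) : LinearMap.trace k ρbar.V (ad0Val ρbar x) = 0 :=
  (mem_ad0Sub ρbar _).1 (show ad0Sub ρbar from x).2

/-- constructor for elements of `ad⁰ ρbar` -/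
def ad0Mk (f : Module.End k ρbar.V) (hf : LinearMap.trace k ρbar.V f = 0) : (ad0Rep ρbar).V :=
  (⟨f, (mem_ad0Sub ρbar f).2 hf⟩ : ad0Sub ρbar)

@[simp] lemma ad0Val_ad0Mk (f : Module.End k ρbar.V) (hf : LinearMap.trace k ρbar.V f = 0) :
    ad0Val ρbar (ad0Mk ρbar f hf) = f := rfl

end

end Fermat.Agent.TW
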