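import Fermat.Agent.Lib.TW.Points
import Fermat.Agent.Lib.TW.Local.PlaceConj
import Fermat.Agent.Lib.TW.Local.Unramified

/-!
# P10 / (C-TW) assembly, part 1: the dual Selmer group

* `mem_dualSelmerGroup_iff` : unfolding;
* `resAt_eq_zero_of_mem_dualSelmerGroup` : at a prime `q` where the local condition is the whole
  continuous `H¹`, dual Selmer classes are locally trivial (by (C-PERF));
* `mem_continuousH1S_of_resAt_eq_zero` : a class which is locally trivial at the primes of
  `S' \ S₀` (where the module is unramified) is unramified there;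
* `dualSelmerGroup_union_le` : enlarging the set of primes by primes with full local condition
  shrinks the dual Selmer group.
-/

set_option autoImplicit false
set_option linter.unusedSectionVars false
set_option linter.style.haveILetI false

open Fermat.Agent.S53Lib IsLocalRing groupCohomology ExtCitation CategoryTheory GaloisRep
open Fermat.Agent.CFT (Level TrivialOn)

namespace Fermat.Agent.TW

noncomputable section

/-- every element of the decomposition group of the distinguished place over `q` is, modulo any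
finite level, the image of an element of the local Galois group -/
def LocalSurjMod (q : Nat.Primes) : Prop :=
  ∀ σ ∈ (primeLocalPlace q).decompositionSubgroup ℚ,
    ∀ F : IntermediateField ℚ (AlgebraicClosure ℚ), FiniteDimensional ℚ F →
      ∃ τ : primeLocalGaloisGroup q, ∀ x ∈ F, primeLocalToGlobal q τ x = σ x

section General

variable {k : Type} [Field k] {M M' : Rep k GQ}

lemma mem_dualSelmerGroup_iff (S' : Finset Nat.Primes) (tp : LocalPairings M M')
    (L : LocalConditions M) (ψ : H1 M') :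
    ψ ∈ dualSelmerGroup S' tp L ↔ ψ ∈ continuousH1S S' M' ∧
      ∀ q ∈ S', ∀ x ∈ L q, tp q x (resAt q M' ψ) = 0 := by
  unfold dualSelmerGroup
  rw [mem_selmerAdm_iff, and_comm]
  refine and_congr Iff.rfl ?_
  constructor
  · intro h q hq x hx
    have := h (Sum.inr ⟨q, hq⟩)
    unfold dualConditions at this
    rw [mem_orthogonal_iff] at this
    exact this x hx
  · rintro h (v | ⟨q, hq⟩)
    · unfold dualConditions
      rw [mem_orthogonal_iff]
      intro x _
      rfl
    · unfold dualConditions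
      rw [mem_orthogonal_iff]
      intro x hx
      exact h q hq x hx

/-- at a prime where the local condition is everything, dual Selmer classes are locally trivial -/
lemma resAt_eq_zero_of_mem_dualSelmerGroup (S' : Finset Nat.Primes) (tp : LocalPairings M M')
    (hPerf : ContractPerf tp) (L : LocalConditions M) {q : Nat.Primes} (hq : q ∈ S')
    (hLq : L q = locCont q M) {ψ : H1 M'} (hψ : ψ ∈ dualSelmerGroup S' tp L) :
    resAt q M' ψ = 0 := by
  rw [mem_dualSelmerGroup_iff] at hψ
  refine hPerf q _ (resAt_mem_locCont q S' M' hψ.1) ?_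
  intro x hx
  exact hψ.2 q hq x (hLq ▸ hx)

end General

/-! ## Locally trivial classes are unramified -/

section Unr

variable {k : Type} [Field k] {N : Rep k GQ}

/-- the elements of the kernel of `N` on which a cocycle vanishes: a subgroup -/
def cocycleKer (c : cocycles₁ N) : Subgroup GQ where
  carrier := {s | N.ρ s = 1 ∧ c s = 0}
  one_mem' := ⟨map_one _, cocycles₁_map_one c⟩
  mul_mem' := by
    rintro s t ⟨hs, hcs⟩ ⟨ht, hct⟩
    refine ⟨by rw [map_mul, hs, ht, mul_one], ?_⟩
    rw [(mem_cocycles₁_iff c).1 c.2 s t, hct, hcs, map_zero, add_zero]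
  inv_mem' := by
    rintro s ⟨hs, hcs⟩
    have hs' : N.ρ s⁻¹ = 1 := by
      have h1 : N.ρ s⁻¹ * N.ρ s = 1 := by rw [← map_mul, inv_mul_cancel, map_one]
      rwa [hs, mul_one] at h1
    refine ⟨hs', ?_⟩
    have h2 := cocycles₁_map_inv c s
    rw [hs, Module.End.one_apply, hcs, neg_zero] at h2
    exact h2

lemma mem_cocycleKer {c : cocycles₁ N} {s : GQ} : s ∈ cocycleKer c ↔ N.ρ s = 1 ∧ c s = 0 :=
  Iff.rfl

instance cocycleKer_normal (c : cocycles₁ N) : (cocycleKer c).Normal := by
  constructor
  rintro s ⟨hs, hcs⟩ g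
  have hρ : N.ρ (g * s * g⁻¹) = 1 := by
    rw [map_mul, map_mul, hs, mul_one, ← map_mul, mul_inv_cancel, map_one]
  refine ⟨hρ, ?_⟩
  rw [mul_assoc, (mem_cocycles₁_iff c).1 c.2 g (s * g⁻¹), (mem_cocycles₁_iff c).1 c.2 s g⁻¹,
    hs, Module.End.one_apply, hcs, add_zero, ← (mem_cocycles₁_iff c).1 c.2 g g⁻¹, mul_inv_cancel,
    cocycles₁_map_one]

lemma cocycle_mul_of_mem_cocycleKer (c : cocycles₁ N) (g : GQ) {s : GQ}
    (hs : s ∈ cocycleKer c) : c (g * s) = c g := by
  rw [(mem_cocycles₁_iff c).1 c.2 g s, hs.2, map_zero, zero_add]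

end Unr

section Unr2

variable {k : Type} [Field k] {N : Rep k GQ}

/-- a locally trivial cocycle vanishes on the inertia group of the distinguished place, if the
module is unramified there -/
lemma cocycle_eq_zero_of_resAt_eq_zero (q : Nat.Primes) (hR4 : LocalSurjMod q)
    (c : cocycles₁ N) (F : IntermediateField ℚ (AlgebraicClosure ℚ)) [FiniteDimensional ℚ F]
    (hc : ∀ g s, s ∈ F.fixingSubgroup → c (g * s) = c g)
    (hNF : ∀ s ∈ F.fixingSubgroup, N.ρ s = 1)
    (hres : resAt q N (H1π N c) = 0)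
    {σ : GQ} (hσ : σ ∈ (primeLocalPlace q).inertiaSubgroupIn ℚ) (hNσ : N.ρ σ = 1) :
    c σ = 0 := by
  rw [resAt_H1π, H1π_eq_zero_iff] at hres
  obtain ⟨m, hm⟩ := hres
  have hσD : σ ∈ (primeLocalPlace q).decompositionSubgroup ℚ := by
    obtain ⟨x, -, rfl⟩ := hσ
    exact x.2
  obtain ⟨τ, hτ⟩ := hR4 σ hσD F inferInstance
  -- `s := σ⁻¹ * loc τ` fixes `F`
  have hs : σ⁻¹ * primeLocalToGlobal q τ ∈ F.fixingSubgroup := by
    rw [IntermediateField.mem_fixingSubgroup_iff]
    intro x hx
    rw [AlgEquiv.mul_apply, hτ x hx]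
    exact σ.symm_apply_apply x
  have h1 : c (primeLocalToGlobal q τ) = c σ := by
    have := hc σ _ hs
    rwa [mul_inv_cancel_left] at this
  have h2 : N.ρ (primeLocalToGlobal q τ) = 1 := by
    have : primeLocalToGlobal q τ = σ * (σ⁻¹ * primeLocalToGlobal q τ) := by
      rw [mul_inv_cancel_left]
    rw [this, map_mul, hNσ, hNF _ hs, mul_one]
  have h3 := congrFun hm τ
  rw [d₀₁_hom_apply] at h3
  rw [← h1]
  have h4 : resCocycle q N c τ = c (primeLocalToGlobal q τ) := rfl
  rw [← h4, ← h3]
  show N.ρ (primeLocalToGlobal q τ) m - m = 0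
  rw [h2, Module.End.one_apply, sub_self]

end Unr2


section Unr3

variable {k : Type} [Field k] {N : Rep k GQ}

/-- **a class which is locally trivial at the primes of `S' \ S₀`, where the module is unramified,
is unramified there** -/
theorem mem_continuousH1S_of_resAt_eq_zero [FiniteDimensional k N]
    (S₀ S' : Finset Nat.Primes)
    (hsm : IsSmoothRep N) (hunr : IsUnramifiedOutsideRep S₀ N)
    (hR4 : ∀ q, LocalSurjMod q)
    {ψ : H1 N} (hψ : ψ ∈ continuousH1S S' N)
    (hres : ∀ q ∈ S', q ∉ S₀ → resAt q N ψ = 0) :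
    ψ ∈ continuousH1S S₀ N := by
  rw [mem_continuousH1S_iff] at hψ ⊢
  obtain ⟨c, ⟨F, hF, hc⟩, rfl⟩ := hψ
  haveI := hF.1
  obtain ⟨K', hK'S, hK'triv⟩ := Fermat.Agent.CFT.Bridge.exists_levelS_trivialOn N S₀ hsm hunr
  refine ⟨c, ?_, rfl⟩
  -- the compositum level
  set F₁ : IntermediateField ℚ (AlgebraicClosure ℚ) := F ⊔ K'.toIntermediateField with hF₁
  haveI : FiniteDimensional ℚ F₁ := IntermediateField.finiteDimensional_sup F _
  have hF₁F : F₁.fixingSubgroup ≤ F.fixingSubgroup :=
    IntermediateField.fixingSubgroup_antitone le_sup_left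
  have hF₁K : F₁.fixingSubgroup ≤ K'.N :=
    IntermediateField.fixingSubgroup_antitone le_sup_right
  -- `cocycleKer c` is open
  have hFker : F₁.fixingSubgroup ≤ cocycleKer c := by
    intro s hs
    refine ⟨hK'triv s (hF₁K hs), ?_⟩
    have := hc 1 s (hF₁F hs)
    rwa [one_mul, cocycles₁_map_one] at this
  have hopen : IsOpen ((cocycleKer c : Subgroup GQ) : Set GQ) :=
    Subgroup.isOpen_mono hFker (IntermediateField.fixingSubgroup_isOpen F₁)
  obtain ⟨Lv, hLv⟩ := Fermat.Agent.CFT.Bridge.exists_level_N_eq (cocycleKer c) hopen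
  refine ⟨Lv.toIntermediateField, ⟨inferInstance, fun q hq A hA σ hσ => ?_⟩, fun g s hs => ?_⟩
  · change σ ∈ Lv.N
    rw [hLv]
    have hσK : σ ∈ K'.N := hK'S.2 q hq A hA hσ
    have hNσ : N.ρ σ = 1 := hK'triv σ hσK
    by_cases hqS' : q ∈ S'
    · -- conjugate to the distinguished place
      obtain ⟨g, hg⟩ := tw_exists_smul_eq_of_liesOverPrime (primeLocalPlace q) A q.2
        (tw_primeLocalPlace_liesOver q) hA
      rw [← hg, Fermat.Agent.CFT.Bridge.mem_inertiaSubgroupIn_smul_iff] at hσ
      have hσ₀K : g⁻¹ * σ * g ∈ K'.N := by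
        have := (inferInstance : K'.N.Normal).conj_mem σ hσK g⁻¹
        rwa [inv_inv] at this
      have h0 : g⁻¹ * σ * g ∈ cocycleKer c := by
        refine ⟨hK'triv _ hσ₀K, ?_⟩
        exact cocycle_eq_zero_of_resAt_eq_zero q (hR4 q) c F₁
          (fun g s hs => hc g s (hF₁F hs)) (fun s hs => hK'triv s (hF₁K hs))
          (hres q hqS' hq) hσ (hK'triv _ hσ₀K)
      have := (cocycleKer_normal c).conj_mem _ h0 g
      have h1 : g * (g⁻¹ * σ * g) * g⁻¹ = σ := by group
      rwa [h1] at this
    · refine ⟨hNσ, ?_⟩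
      have hσF : σ ∈ F.fixingSubgroup := hF.2 q hqS' A hA hσ
      have := hc 1 σ hσF
      rwa [one_mul, cocycles₁_map_one] at this
  · have hs' : s ∈ Lv.N := hs
    rw [hLv] at hs'
    exact cocycle_mul_of_mem_cocycleKer c g hs'

end Unr3

end

end Fermat.Agent.TW
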