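import Fermat.Agent.Lib.TW.Frob
import Fermat.Agent.Lib.TW.DualSelmer
import Fermat.Agent.Lib.FrobDensity.Main

/-!
# P10 / (C-TW) assembly: Frobenius selection

`exists_frobenius_of_not_cob` : if the value `c σ` of a (level-constant) cocycle is not in the image
of `σ - 1`, there are primes `l` outside any finite set such that the class of `c` is not locally
trivial at `l` and the Frobenius at `l` is conjugate to a power `σ ^ a` (`a` prime to the order of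
`σ` modulo the level).  Input: the Frobenius density theorem (G1) and the local surjectivity (R4).
-/
set_option autoImplicit false
set_option linter.unusedSectionVars false
set_option linter.style.haveILetI false

open groupCohomology CategoryTheory Fermat.Agent.S53Lib ExtCitation

namespace Fermat.Agent.TW

section Cob

variable {k G : Type} [CommRing k] [Group G] {N : Rep k G}

lemma cocycle_pow_of_cob (c : cocycles₁ N) (τ : G) (m : N) (h : c τ = N.ρ τ m - m) (b : ℕ) :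
    c (τ ^ b) = N.ρ (τ ^ b) m - m := by
  induction b with
  | zero => rw [pow_zero, cocycles₁_map_one, map_one, Module.End.one_apply, sub_self]
  | succ b ih =>
    rw [pow_succ', (mem_cocycles₁_iff c).1 c.2 τ (τ ^ b), ih, h, map_sub, map_mul]
    simp only [Module.End.mul_apply]
    abel

lemma cocycle_conj_of_cob (c : cocycles₁ N) (τ g : G) (m : N) (h : c τ = N.ρ τ m - m) :
    c (g * τ * g⁻¹) = N.ρ (g * τ * g⁻¹) (N.ρ g m - c g) - (N.ρ g m - c g) := by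
  have hinv : N.ρ g (c g⁻¹) = - c g := cocycles₁_map_inv c g
  rw [mul_assoc, (mem_cocycles₁_iff c).1 c.2 g (τ * g⁻¹), (mem_cocycles₁_iff c).1 c.2 τ g⁻¹, h]
  have h1 : N.ρ (g * (τ * g⁻¹)) (N.ρ g m - c g) = N.ρ g (N.ρ τ m) + N.ρ g (N.ρ τ (c g⁻¹)) := by
    rw [map_sub, ← Module.End.mul_apply, ← map_mul, mul_assoc, mul_assoc, inv_mul_cancel, mul_one,
      map_mul, Module.End.mul_apply]
    have h2 : N.ρ (g * (τ * g⁻¹)) (c g) = - N.ρ g (N.ρ τ (c g⁻¹)) := by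
      have : c g = - N.ρ g (c g⁻¹) := by rw [hinv, neg_neg]
      rw [this, map_neg, ← Module.End.mul_apply, ← map_mul, mul_assoc, mul_assoc, inv_mul_cancel,
        mul_one, map_mul, Module.End.mul_apply]
    rw [h2, sub_neg_eq_add]
  rw [h1, map_add, map_sub]
  abel

end Cob

section Sel

variable {k : Type} [Field k] {N : Rep k GQ}

/-- **Frobenius selection** -/
theorem exists_frobenius_of_not_cob (hR4 : ∀ q, LocalSurjMod q)
    (c : cocycles₁ N) (F₀ : IntermediateField ℚ (AlgebraicClosure ℚ)) [FiniteDimensional ℚ F₀]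
    (hc : ∀ g s, s ∈ F₀.fixingSubgroup → c (g * s) = c g)
    (hNF : ∀ s ∈ F₀.fixingSubgroup, N.ρ s = 1)
    (σ : GQ) (hσ : c σ ∉ LinearMap.range (N.ρ σ - 1)) (T : Finset ℕ) :
    ∃ l : Nat.Primes, (l : ℕ) ∉ T ∧ ∃ φ : GQ, (primeLocalPlace l).IsFrobeniusAt φ l ∧
      (∀ τ ∈ (primeLocalPlace l).inertiaSubgroupIn ℚ, ∀ x ∈ F₀, τ x = x) ∧
      (∃ (g : GQ) (a b : ℕ), (∀ x ∈ F₀, φ x = (g * σ ^ a * g⁻¹) x) ∧
        (∀ x ∈ F₀, (σ ^ (a * b)) x = σ x)) ∧
      resAt l N (H1π N c) ≠ 0 := by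
  classical
  haveI := Fermat.Agent.Lib.Helper6.isGalois_rat_algebraicClosure
  set L : IntermediateField ℚ (AlgebraicClosure ℚ) :=
    IntermediateField.normalClosure ℚ F₀ (AlgebraicClosure ℚ) with hL
  haveI : FiniteDimensional ℚ L := normalClosure.is_finiteDimensional ℚ F₀ (AlgebraicClosure ℚ)
  haveI : Normal ℚ L := normalClosure.normal ℚ F₀ (AlgebraicClosure ℚ)
  have hF₀L : F₀ ≤ L := IntermediateField.le_normalClosure F₀
  obtain ⟨l, hl, hlT, P, φ₀, hPl, hφ₀, hin, a, ha, hφa⟩ :=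
    Fermat.Agent.FrobDensity.exists_frobenius_generating L σ T
  obtain ⟨lq, rfl⟩ : ∃ lq : Nat.Primes, (lq : ℕ) = l := ⟨⟨l, hl⟩, rfl⟩
  -- `L` is stable under `G_ℚ`
  have hgL : ∀ (h : GQ) (x : AlgebraicClosure ℚ), x ∈ L → h x ∈ L := by
    intro h x hx
    have := (IntermediateField.normal_iff_forall_map_le'.1 (inferInstance : Normal ℚ L)) h
    exact this ⟨x, hx, rfl⟩
  -- move to the distinguished place
  obtain ⟨g, hg⟩ := tw_exists_smul_eq_of_liesOverPrime P (primeLocalPlace lq) hl hPl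
    (tw_primeLocalPlace_liesOver lq)
  have hφ : (primeLocalPlace lq).IsFrobeniusAt (g * φ₀ * g⁻¹) lq :=
    hg ▸ isFrobeniusAt_conj hφ₀ g
  have hφL : ∀ x ∈ L, (g * φ₀ * g⁻¹) x = (g * σ ^ a * g⁻¹) x := by
    intro x hx
    change g (φ₀ (g⁻¹ x)) = g ((σ ^ a) (g⁻¹ x))
    rw [hφa _ (hgL g⁻¹ x hx)]
  -- the inverse exponent
  obtain ⟨b, hb⟩ : ∃ b : ℕ, ∀ x ∈ L, (σ ^ (a * b)) x = σ x := by
    set r := AlgEquiv.restrictNormalHom (F := ℚ) (K₁ := AlgebraicClosure ℚ) L σ with hr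
    obtain ⟨b, hb⟩ : ∃ b : ℕ, r ^ (a * b) = r := by
      rcases Nat.lt_or_ge 1 (orderOf r) with h1 | h1
      · obtain ⟨b, -, hb⟩ := Nat.exists_mul_mod_eq_one_of_coprime ha h1
        exact ⟨b, by rw [← pow_mod_orderOf, hb, pow_one]⟩
      · have h2 : orderOf r = 1 := le_antisymm h1 (orderOf_pos r)
        refine ⟨0, ?_⟩
        rw [mul_zero, pow_zero]
        exact (orderOf_eq_one_iff.1 h2).symm
    refine ⟨b, fun x hx => ?_⟩
    have h1 : algebraMap ↥L (AlgebraicClosure ℚ) ((AlgEquiv.restrictNormalHom (F := ℚ)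
        (K₁ := AlgebraicClosure ℚ) ↥L (σ ^ (a * b))) ⟨x, hx⟩) =
          (σ ^ (a * b)) (algebraMap ↥L (AlgebraicClosure ℚ) ⟨x, hx⟩) :=
      AlgEquiv.restrictNormal_commutes (σ ^ (a * b)) ↥L ⟨x, hx⟩
    have h2 : algebraMap ↥L (AlgebraicClosure ℚ) ((AlgEquiv.restrictNormalHom (F := ℚ)
        (K₁ := AlgebraicClosure ℚ) ↥L σ) ⟨x, hx⟩) =
          σ (algebraMap ↥L (AlgebraicClosure ℚ) ⟨x, hx⟩) :=
      AlgEquiv.restrictNormal_commutes σ ↥L ⟨x, hx⟩
    rw [map_pow, ← hr, hb] at h1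
    rw [← hr] at h2
    exact h1.symm.trans h2
  have hinL : ∀ τ ∈ (primeLocalPlace lq).inertiaSubgroupIn ℚ, ∀ x ∈ L, τ x = x := by
    intro τ hτ x hx
    rw [← hg, Fermat.Agent.CFT.Bridge.mem_inertiaSubgroupIn_smul_iff] at hτ
    have h1 := hin _ hτ (g⁻¹ x) (hgL g⁻¹ x hx)
    have h2 : (g⁻¹ * τ * g) (g⁻¹ x) = g⁻¹ (τ x) := by
      change g⁻¹ (τ (g (g⁻¹ x))) = g⁻¹ (τ x)
      congr 2
      exact g.apply_symm_apply x
    rw [h2] at h1
    exact g⁻¹.injective h1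
  refine ⟨lq, hlT, g * φ₀ * g⁻¹, hφ, fun τ hτ x hx => hinL τ hτ x (hF₀L hx), ⟨g, a, b, fun x hx => hφL x (hF₀L hx),
    fun x hx => hb x (hF₀L hx)⟩, ?_⟩
  intro hres
  rw [resAt_H1π, H1π_eq_zero_iff] at hres
  obtain ⟨m, hm⟩ := hres
  -- elements which agree on `F₀` have the same `c` and the same action
  have key : ∀ τ₁ τ₂ : GQ, (∀ x ∈ F₀, τ₁ x = τ₂ x) → c τ₂ = c τ₁ ∧ N.ρ τ₂ = N.ρ τ₁ := by
    intro τ₁ τ₂ h12
    have hs : τ₁⁻¹ * τ₂ ∈ F₀.fixingSubgroup := by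
      rw [IntermediateField.mem_fixingSubgroup_iff]
      intro x hx
      rw [AlgEquiv.mul_apply, ← h12 x hx]
      exact τ₁.symm_apply_apply x
    have h2 : τ₂ = τ₁ * (τ₁⁻¹ * τ₂) := by rw [mul_inv_cancel_left]
    constructor
    · have := hc τ₁ _ hs
      rwa [← h2] at this
    · rw [h2, map_mul, hNF _ hs, mul_one]
  have hφD : g * φ₀ * g⁻¹ ∈ (primeLocalPlace lq).decompositionSubgroup ℚ :=
    hφ.mem_decompositionSubgroup
  obtain ⟨τ, hτ⟩ := hR4 lq _ hφD F₀ inferInstance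
  have h3 := congrFun hm τ
  rw [d₀₁_hom_apply] at h3
  have h4 : resCocycle lq N c τ = c (primeLocalToGlobal lq τ) := rfl
  have h5 : (locAt lq N).ρ τ m = N.ρ (primeLocalToGlobal lq τ) m := rfl
  rw [h4, h5] at h3
  -- transfer to `φ`, then to `g σ^a g⁻¹`
  obtain ⟨k1, k2⟩ := key _ _ hτ
  rw [← k1, ← k2] at h3
  obtain ⟨k3, k4⟩ := key _ _ (fun x hx => hφL x (hF₀L hx))
  rw [← k3, ← k4] at h3
  -- conjugate back
  have h6 := cocycle_conj_of_cob c (g * σ ^ a * g⁻¹) g⁻¹ m h3.symm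
  have h7 : g⁻¹ * (g * σ ^ a * g⁻¹) * g⁻¹⁻¹ = σ ^ a := by group
  rw [h7] at h6
  have h8 := cocycle_pow_of_cob c (σ ^ a) _ h6 b
  rw [← pow_mul] at h8
  obtain ⟨k5, k6⟩ := key _ _ (fun x hx => (hb x (hF₀L hx)).symm)
  rw [k5, k6] at h8
  apply hσ
  refine ⟨N.ρ g⁻¹ m - c g⁻¹, ?_⟩
  rw [LinearMap.sub_apply, Module.End.one_apply]
  exact h8.symm

end Sel

end Fermat.Agent.TW
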