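/-
P10 / S56 (Taylor–Wiles primes), package G8 (group theory): the bridge between the hypotheses
of S56 (`habs`, `hsplit`, `hTW`) and the elementary group-theoretic predicates of
`Lib/TW/Group`, and the contract `ContractH0`.
-/
import Fermat.Agent.Lib.TW.Interface
import Fermat.Agent.Lib.TW.Group.Power

set_option autoImplicit false

open Polynomial TensorProduct

namespace Fermat.Agent.TW

noncomputable section

/-- descent of irreducibility along a field extension `K / k` -/
theorem twg_irr_of_baseChange {k V G : Type*} [Field k] [AddCommGroup V] [Module k V] [Group G]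
    [Module.Finite k V] (K : Type*) [Field K] [Algebra k K] (ρ : Representation k G V)
    (G' : Subgroup G)
    (h : ∀ W : Submodule K (K ⊗[k] V),
      (∀ σ ∈ G', ∀ x ∈ W, (ρ σ).baseChange K x ∈ W) → W = ⊥ ∨ W = ⊤) :
    TwgIrr ρ G' := by
  intro W₀ hst
  have hfr : Module.finrank K (W₀.baseChange K) = Module.finrank k W₀ := by
    rw [← LinearEquiv.finrank_eq (Submodule.toBaseChange.toLinearEquiv K W₀),
      Module.finrank_baseChange]
  have hstK : ∀ σ ∈ G', ∀ x ∈ W₀.baseChange K, (ρ σ).baseChange K x ∈ W₀.baseChange K := by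
    rintro σ hσ _ ⟨y, rfl⟩
    induction y using TensorProduct.induction_on with
    | zero => simp
    | tmul a w =>
      rw [LinearMap.baseChange_tmul, LinearMap.baseChange_tmul]
      exact Submodule.tmul_mem_baseChange_of_mem a (hst σ hσ _ w.2)
    | add y₁ y₂ h₁ h₂ =>
      rw [map_add, map_add]
      exact Submodule.add_mem _ h₁ h₂
  rcases h _ hstK with h0 | h0
  · left
    rw [h0, finrank_bot] at hfr
    exact Submodule.finrank_eq_zero.mp hfr.symm
  · right
    rw [h0, finrank_top, Module.finrank_baseChange] at hfr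
    exact Submodule.eq_top_of_finrank_eq hfr.symm

variable {k : Type} [Field k] (ρbar : ResidualGaloisRep k)

/-- absolute irreducibility implies irreducibility over `k` -/
theorem twg_irr_of_abs (habs : ρbar.IsAbsolutelyIrreducible) : TwgIrr ρbar.ρ ⊤ :=
  twg_irr_of_baseChange (AlgebraicClosure k) ρbar.ρ ⊤ (fun W hW => habs W (fun σ x hx =>
    hW σ (Subgroup.mem_top σ) x hx))

/-- the hypothesis `hTW` of S56 implies irreducibility on every subgroup of index `2` -/
theorem twg_irr2_of_hTW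
    (hTW : ∀ (K : Type) [Field K] [Algebra k K]
      (G : Subgroup (AlgebraicClosure ℚ ≃ₐ[ℚ] AlgebraicClosure ℚ)), G.index = 2 →
      ∀ V : Submodule K (ρbar.baseChange K).V,
        (∀ σ ∈ G, ∀ x ∈ V, (ρbar.baseChange K).ρ σ x ∈ V) → V = ⊥ ∨ V = ⊤)
    (G' : Subgroup (AlgebraicClosure ℚ ≃ₐ[ℚ] AlgebraicClosure ℚ)) (hG' : G'.index = 2) :
    TwgIrr ρbar.ρ G' :=
  twg_irr_of_baseChange k ρbar.ρ G' (fun W hW => hTW k G' hG' W hW)

/-- the hypothesis `hsplit` of S56 -/
theorem twg_split_of_hsplit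
    (hsplit : ∀ σ : AlgebraicClosure ℚ ≃ₐ[ℚ] AlgebraicClosure ℚ,
      ∃ α β : k, LinearMap.charpoly (ρbar.ρ σ) = (X - C α) * (X - C β)) :
    TwgSplit ρbar.ρ ⊤ := fun σ _ => hsplit σ

/-- **(C-H0)**: `h⁰(G_ℚ, ad⁰ ρbar) = 0`. -/
theorem tw_contractH0 (h2 : (2 : k) ≠ 0) (habs : ρbar.IsAbsolutelyIrreducible)
    (hsplit : ∀ σ : AlgebraicClosure ℚ ≃ₐ[ℚ] AlgebraicClosure ℚ,
      ∃ α β : k, LinearMap.charpoly (ρbar.ρ σ) = (X - C α) * (X - C β)) :
    ContractH0 ρbar := by
  unfold ContractH0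
  have hbot : (ad0Rep ρbar).ρ.invariants = ⊥ := by
    rw [eq_bot_iff]
    intro x hx
    rw [Submodule.mem_bot]
    apply ad0Val_injective ρbar
    show ad0Val ρbar x = 0
    apply twg_ad0_invariants_eq_zero h2 ρbar.finrank_eq ρbar.ρ (twg_irr_of_abs ρbar habs)
      (twg_split_of_hsplit ρbar hsplit) (ad0Val ρbar x) (trace_ad0Val ρbar x)
    intro g
    have h1 : (ad0Rep ρbar).ρ g x = x := hx g
    have h3 := congrArg (ad0Val ρbar) h1
    rw [ad0Val_ρ, adRepn_apply] at h3
    exact h3
  rw [hbot, finrank_bot]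

end

end Fermat.Agent.TW
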