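/-
P10 / S56 (Taylor–Wiles primes), package G8 (group theory): the identification of
`tateDual p (ad0Rep ρbar) = Hom_k(ad⁰ ρbar, k)(1)` with the trace-zero endomorphisms with the
action `ad ⊗ det` (trace pairing), in cocycle form.
-/
import Fermat.Agent.Lib.TW.GroupContracts
import Fermat.Agent.Lib.TW.Points

set_option autoImplicit false

open Polynomial groupCohomology Fermat.Agent.S53Lib

namespace Fermat.Agent.TW

noncomputable section

/-- the trace form on `End_k(V)` is non-degenerate -/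
theorem twg_eq_zero_of_trace_mul {k V : Type*} [Field k] [AddCommGroup V] [Module k V]
    [Module.Finite k V] (hV : Module.finrank k V = 2) (A : Module.End k V)
    (h : ∀ y : Module.End k V, LinearMap.trace k V (A * y) = 0) : A = 0 := by
  let b : Module.Basis (Fin 2) k V := Module.finBasisOfFinrankEq k V hV
  apply (LinearMap.toMatrix b b).injective
  rw [map_zero, Matrix.ext_iff_trace_mul_right]
  intro x
  have h1 := h (Matrix.toLin b b x)
  rw [LinearMap.trace_eq_matrix_trace k b, LinearMap.toMatrix_mul, LinearMap.toMatrix_toLin] at h1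
  rw [h1, Matrix.zero_mul, Matrix.trace_zero]

/-- the trace form on trace-zero endomorphisms is non-degenerate (`2 ≠ 0`) -/
theorem twg_eq_zero_of_trace_mul_ad0 {k V : Type*} [Field k] [AddCommGroup V] [Module k V]
    [Module.Finite k V] (h2 : (2 : k) ≠ 0) (hV : Module.finrank k V = 2) (A : Module.End k V)
    (htr : LinearMap.trace k V A = 0)
    (h : ∀ y : Module.End k V, LinearMap.trace k V y = 0 → LinearMap.trace k V (A * y) = 0) :
    A = 0 := by
  apply twg_eq_zero_of_trace_mul hV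
  intro y
  have htr1 : LinearMap.trace k V (1 : Module.End k V) = 2 := by
    rw [LinearMap.trace_one, hV]; norm_num
  set t := LinearMap.trace k V y with ht
  have h1 := h (y - (t / 2) • (1 : Module.End k V)) (by
    rw [map_sub, map_smul, htr1, smul_eq_mul, ← ht]
    field_simp
    ring)
  rw [mul_sub, mul_smul_comm, mul_one, map_sub, map_smul, htr, smul_zero, sub_zero] at h1
  exact h1

variable {k : Type} [Field k] (ρbar : ResidualGaloisRep k)

/-- the trace pairing `ad⁰ → (ad⁰)^*` -/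
def twgTheta : (ad0Rep ρbar).V →ₗ[k] Module.Dual k (ad0Rep ρbar).V where
  toFun x :=
    { toFun := fun y => LinearMap.trace k ρbar.V (ad0Val ρbar x * ad0Val ρbar y)
      map_add' := fun y z => by rw [ad0Val_add, mul_add, map_add]
      map_smul' := fun a y => by
        rw [ad0Val_smul, mul_smul_comm, map_smul, RingHom.id_apply] }
  map_add' x x' := by
    ext y
    simp only [LinearMap.coe_mk, AddHom.coe_mk, LinearMap.add_apply]
    rw [ad0Val_add, add_mul, map_add]
  map_smul' a x := by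
    ext y
    simp only [LinearMap.coe_mk, AddHom.coe_mk, LinearMap.smul_apply, RingHom.id_apply]
    rw [ad0Val_smul, smul_mul_assoc, map_smul]

lemma twgTheta_apply (x y : (ad0Rep ρbar).V) :
    twgTheta ρbar x y = LinearMap.trace k ρbar.V (ad0Val ρbar x * ad0Val ρbar y) := rfl

lemma twgTheta_injective (h2 : (2 : k) ≠ 0) : Function.Injective (twgTheta ρbar) := by
  rw [← LinearMap.ker_eq_bot, LinearMap.ker_eq_bot']
  intro x hx
  apply ad0Val_injective ρbar
  show ad0Val ρbar x = 0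
  apply twg_eq_zero_of_trace_mul_ad0 h2 ρbar.finrank_eq _ (trace_ad0Val ρbar x)
  intro y hy
  have := congrArg (fun f : Module.Dual k (ad0Rep ρbar).V => f (ad0Mk ρbar y hy)) hx
  simpa [twgTheta_apply] using this

instance twg_finite_ad0 : Module.Finite k (ad0Rep ρbar).V :=
  inferInstanceAs (Module.Finite k (ad0Sub ρbar))

/-- the trace pairing as an isomorphism `ad⁰ ≃ (ad⁰)^*` -/
def twgThetaEquiv (h2 : (2 : k) ≠ 0) : (ad0Rep ρbar).V ≃ₗ[k] Module.Dual k (ad0Rep ρbar).V :=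
  (twgTheta ρbar).linearEquivOfInjective (twgTheta_injective ρbar h2)
    Subspace.dual_finrank_eq.symm

lemma twgThetaEquiv_apply (h2 : (2 : k) ≠ 0) (x : (ad0Rep ρbar).V) :
    twgThetaEquiv ρbar h2 x = twgTheta ρbar x := rfl

/-- equivariance of the trace pairing -/
lemma twgTheta_ρ (g : GQ) (x : (ad0Rep ρbar).V) :
    twgTheta ρbar ((ad0Rep ρbar).ρ g x) = twgTheta ρbar x ∘ₗ (ad0Rep ρbar).ρ g⁻¹ := by
  ext y
  rw [LinearMap.comp_apply, twgTheta_apply, twgTheta_apply, ad0Val_ρ, ad0Val_ρ, adRepn_apply,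
    adRepn_apply, inv_inv]
  show LinearMap.trace k ρbar.V (ρbar.ρ g * (ad0Val ρbar x * ρbar.ρ g⁻¹) * ad0Val ρbar y) =
    LinearMap.trace k ρbar.V (ad0Val ρbar x * (ρbar.ρ g⁻¹ * (ad0Val ρbar y * ρbar.ρ g)))
  rw [mul_assoc, LinearMap.trace_mul_comm]
  simp only [mul_assoc]


variable (p : ℕ) [Fact p.Prime] [Algebra (ZMod p) k]

/-- the values of the mod `p` cyclotomic character in `k` -/
lemma twg_coe_cycloK (σ : GQ) : ((cycloK p k σ : kˣ) : k) = (ExtCitation.cycloExp p σ : k) := by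
  show algebraMap (ZMod p) k ((ExtCitation.cycloChar p σ : (ZMod p)ˣ) : ZMod p) = _
  rw [ExtCitation.coe_cycloChar, map_natCast]

/-- `det ρbar` is the mod `p` cyclotomic character -/
theorem twg_det_eq_cycloK (hpk : (p : k) = 0)
    (hdet : (GaloisRepAdic.ofResidualGaloisRep ρbar).DetIsCyclotomic p) (σ : GQ) :
    LinearMap.det (ρbar.ρ σ) = ((cycloK p k σ : kˣ) : k) := by
  have h1 := hdet.2 1 σ (ExtCitation.cycloExp p σ) (fun μ hμ => by
    rw [pow_one] at hμ
    exact tw_apply_eq_pow_cycloExp p σ hμ)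
  have hp0 : ((p ^ 1 : ℕ) : k) = 0 := by rw [pow_one]; exact hpk
  rw [hp0, Ideal.span_singleton_zero, Ideal.mem_bot, sub_eq_zero] at h1
  rw [twg_coe_cycloK]
  exact h1

omit [Fact p.Prime] [Algebra (ZMod p) k] in
/-- `det ρbar(σ) = 1` if `σ` fixes the `p^m`-th roots of unity, `m ≥ 1` -/
theorem twg_det_eq_one_of_fixes (hpk : (p : k) = 0)
    (hdet : (GaloisRepAdic.ofResidualGaloisRep ρbar).DetIsCyclotomic p) (m : ℕ) (hm : m ≠ 0)
    (σ : GQ) (hσ : ∀ μ : AlgebraicClosure ℚ, μ ^ p ^ m = 1 → σ μ = μ) :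
    LinearMap.det (ρbar.ρ σ) = 1 := by
  have h1 := hdet.2 m σ 1 (fun μ hμ => by rw [pow_one]; exact hσ μ hμ)
  have hp0 : ((p ^ m : ℕ) : k) = 0 := by
    push_cast
    rw [hpk, zero_pow hm]
  rw [hp0, Ideal.span_singleton_zero, Ideal.mem_bot, sub_eq_zero, Nat.cast_one] at h1
  exact h1

variable {p}

/-- the `End_k(V)`-valued function attached to a cocycle with values in `(ad⁰)^*(1)` -/
def twgPsi (h2 : (2 : k) ≠ 0) (c : cocycles₁ (tateDual p (ad0Rep ρbar))) (σ : GQ) :
    Module.End k ρbar.V :=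
  ad0Val ρbar ((twgThetaEquiv ρbar h2).symm (c σ))

lemma trace_twgPsi (h2 : (2 : k) ≠ 0) (c : cocycles₁ (tateDual p (ad0Rep ρbar))) (σ : GQ) :
    LinearMap.trace k ρbar.V (twgPsi ρbar h2 c σ) = 0 := trace_ad0Val ρbar _

lemma twgTheta_symm_ρ (h2 : (2 : k) ≠ 0) (σ : GQ) (f : Module.Dual k (ad0Rep ρbar).V) :
    (twgThetaEquiv ρbar h2).symm ((tateDual p (ad0Rep ρbar)).ρ σ f) =
      ((cycloK p k σ : kˣ) : k) • (ad0Rep ρbar).ρ σ ((twgThetaEquiv ρbar h2).symm f) := by
  apply (twgThetaEquiv ρbar h2).injective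
  rw [LinearEquiv.apply_symm_apply, map_smul, twgThetaEquiv_apply, twgTheta_ρ,
    ← twgThetaEquiv_apply ρbar h2, LinearEquiv.apply_symm_apply]
  rfl

/-- the cocycle rule for `twgPsi` -/
theorem twgPsi_isCocycle (h2 : (2 : k) ≠ 0)
    (hdetK : ∀ σ : GQ, LinearMap.det (ρbar.ρ σ) = ((cycloK p k σ : kˣ) : k))
    (c : cocycles₁ (tateDual p (ad0Rep ρbar))) :
    TwgIsCocycle (twgAdDetRep ρbar.ρ) (twgPsi ρbar h2 c) := by
  intro σ τ
  have h1 := (mem_cocycles₁_iff (c : GQ → (tateDual p (ad0Rep ρbar)))).1 c.2 σ τ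
  unfold twgPsi
  rw [h1, map_add, twgTheta_symm_ρ, ad0Val_add, ad0Val_smul, ad0Val_ρ, adRepn_apply,
    twgAdDetRep_apply, hdetK σ, add_comm]
  rfl

/-- a coboundary for `twgPsi` gives a coboundary for `c` -/
theorem twgPsi_coboundary (h2 : (2 : k) ≠ 0)
    (hdetK : ∀ σ : GQ, LinearMap.det (ρbar.ρ σ) = ((cycloK p k σ : kˣ) : k))
    (c : cocycles₁ (tateDual p (ad0Rep ρbar)))
    (h : ∃ x : Module.End k ρbar.V, LinearMap.trace k ρbar.V x = 0 ∧
      ∀ σ, twgPsi ρbar h2 c σ = twgAdDetRep ρbar.ρ σ x - x) :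
    H1π (tateDual p (ad0Rep ρbar)) c = 0 := by
  obtain ⟨x, hx0, hx⟩ := h
  rw [H1π_eq_zero_iff]
  refine ⟨twgThetaEquiv ρbar h2 (ad0Mk ρbar x hx0), ?_⟩
  funext σ
  rw [d₀₁_hom_apply]
  apply (twgThetaEquiv ρbar h2).symm.injective
  rw [map_sub, twgTheta_symm_ρ, LinearEquiv.symm_apply_apply]
  apply ad0Val_injective ρbar
  rw [ad0Val_sub, ad0Val_smul, ad0Val_ρ, adRepn_apply, ad0Val_ad0Mk]
  have h3 := hx σ
  unfold twgPsi at h3
  rw [h3, twgAdDetRep_apply, hdetK σ]
  rfl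

end

end Fermat.Agent.TW
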