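import Fermat.Agent.Lib.TW.Frob
import Fermat.Agent.Lib.TW.Interface
import Fermat.Agent.Lib.TW.Local.TameInertia
import Fermat.Agent.Lib.TW.Local.AdInvariants
import Fermat.Agent.Lib.TW.Local.PlaceConj
import Fermat.Agent.Lib.TW.Local.Unramified

/-!
# P10 / (C-TW) assembly: recognising Taylor–Wiles primes

* `pow_dvd_sub_one_of_frobenius_fixes` : if a Frobenius element at `l ≠ p` fixes a primitive
  `p ^ m`-th root of unity, then `l ≡ 1 mod p ^ m`;
* `isTWPrime_of_frobenius` : if `ρbar` is unramified at `l` and ONE Frobenius element at ONE place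
  over `l` has distinct eigenvalues in `k`, then `l` is a Taylor–Wiles prime (`IsTWPrime`);
* `charpoly_pow_of_eigenbasis` : the `a·b` trick (powers of regular semisimple elements by exponents
  prime to the order stay regular semisimple).
-/

set_option autoImplicit false
set_option linter.unusedSectionVars false
set_option linter.style.haveILetI false

open Polynomial ExtCitation Fermat.Agent.S53Lib

namespace Fermat.Agent.TW

section LinAlg

variable {k : Type} [Field k] {V : Type} [AddCommGroup V] [Module k V] [FiniteDimensional k V]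

lemma charpoly_conj_of_mul_eq_one (u u' f : Module.End k V) (h1 : u * u' = 1) (h2 : u' * u = 1) :
    (u * f * u').charpoly = f.charpoly := by
  let e : V ≃ₗ[k] V := LinearEquiv.ofLinearMap u u' h1 h2
  have := LinearEquiv.charpoly_conj e f
  rw [← this]
  rfl

lemma charpoly_of_eigenbasis (b : Module.Basis (Fin 2) k V) (f : Module.End k V) {a0 a1 : k}
    (h0 : f (b 0) = a0 • b 0) (h1 : f (b 1) = a1 • b 1) :
    f.charpoly = (X - C a0) * (X - C a1) := by
  rw [← LinearMap.charpoly_toMatrix f b]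
  have hM : LinearMap.toMatrix b b f = Matrix.diagonal ![a0, a1] := by
    ext i j
    rw [LinearMap.toMatrix_apply]
    fin_cases j
    · simp only [Fin.zero_eta, h0, map_smul, Module.Basis.repr_self, Finsupp.smul_apply,
        smul_eq_mul]
      fin_cases i <;> simp
    · simp only [Fin.mk_one, h1, map_smul, Module.Basis.repr_self, Finsupp.smul_apply,
        smul_eq_mul]
      fin_cases i <;> simp
  rw [hM, Matrix.charpoly_diagonal, Fin.prod_univ_two]
  rfl

/-- the `a·b` trick -/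
lemma charpoly_pow_of_eigenbasis (hV : Module.finrank k V = 2) (f : Module.End k V) {α β : k}
    (hαβ : α ≠ β) (hf : f.charpoly = (X - C α) * (X - C β)) (a b : ℕ) (hab : f ^ (a * b) = f) :
    (f ^ a).charpoly = (X - C (α ^ a)) * (X - C (β ^ a)) ∧ α ^ a ≠ β ^ a := by
  obtain ⟨bs, hb0, hb1⟩ := tw_exists_eigenbasis hV f hαβ hf
  have hpow : ∀ (n : ℕ) (v : V) (c : k), f v = c • v → (f ^ n) v = c ^ n • v := by
    intro n v c hv
    induction n with
    | zero => rw [pow_zero, pow_zero, one_smul, Module.End.one_apply]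
    | succ n ih => rw [pow_succ, Module.End.mul_apply, hv, map_smul, ih, smul_smul, pow_succ']
  refine ⟨charpoly_of_eigenbasis bs _ (hpow a _ _ hb0) (hpow a _ _ hb1), fun h => hαβ ?_⟩
  have h0 := hpow (a * b) _ _ hb0
  have h1 := hpow (a * b) _ _ hb1
  rw [hab, hb0] at h0
  rw [hab, hb1] at h1
  have hne0 : bs 0 ≠ 0 := bs.ne_zero 0
  have hne1 : bs 1 ≠ 0 := bs.ne_zero 1
  have e0 : α = α ^ (a * b) := smul_left_injective k hne0 h0
  have e1 : β = β ^ (a * b) := smul_left_injective k hne1 h1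
  rw [e0, e1, pow_mul, pow_mul, h]

end LinAlg

section FrobCons

local notation "Qb" => AlgebraicClosure ℚ

/-- a Frobenius element at `l ≠ p` fixing a primitive `p ^ m`-th root of unity: `l ≡ 1 mod p ^ m` -/
theorem pow_dvd_sub_one_of_frobenius_fixes {A : ValuationSubring Qb} {l p : ℕ} (hl : l.Prime)
    (hp : p.Prime) (hlp : l ≠ p) (hA : A.LiesOverPrime l) {φ : GQ} (hφ : A.IsFrobeniusAt φ l)
    {ζ : Qb} {m : ℕ} (hζ : IsPrimitiveRoot ζ (p ^ m)) (hfix : φ ζ = ζ) : p ^ m ∣ l - 1 := by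
  have hpm : p ^ m ≠ 0 := pow_ne_zero _ hp.ne_zero
  have hvζ : A.valuation ζ = 1 := by
    have : A.valuation ζ ^ (p ^ m) = 1 := by rw [← map_pow, hζ.pow_eq_one, map_one]
    exact (pow_eq_one_iff_of_nonneg zero_le hpm).mp this
  have hζA : ζ ∈ A := (A.valuation_le_one_iff ζ).1 hvζ.le
  have h1 := ((isFrobeniusAt_iff A φ l).1 hφ).2 ζ hζA
  rw [hfix] at h1
  have h2 : ζ - ζ ^ l = - (ζ * (ζ ^ (l - 1) - 1)) := by
    have : ζ ^ l = ζ * ζ ^ (l - 1) := by rw [← pow_succ', Nat.sub_add_cancel hl.one_le]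
    rw [this]; ring
  rw [h2, Valuation.map_neg, map_mul, hvζ, one_mul] at h1
  have hcop : (p ^ m).Coprime l :=
    Nat.Coprime.pow_left m ((Nat.coprime_primes hp hl).2 (Ne.symm hlp))
  have hη : (ζ ^ (l - 1)) ^ (p ^ m) = 1 := by
    rw [← pow_mul, mul_comm, pow_mul, hζ.pow_eq_one, one_pow]
  have h3 : ζ ^ (l - 1) = 1 := tame_rootOfUnity_eq_one hl hA hcop hη h1
  exact hζ.dvd_of_pow_eq_one _ h3

variable {k : Type} [Field k]

/-- **one regular semisimple Frobenius at an unramified prime suffices** -/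
theorem isTWPrime_of_frobenius (ρbar : ResidualGaloisRep k) (l : Nat.Primes)
    (hunr : ρbar.IsUnramifiedAt l) {φ : GQ} (hφ : (primeLocalPlace l).IsFrobeniusAt φ l)
    {α β : k} (hαβ : α ≠ β) (hcp : LinearMap.charpoly (ρbar.ρ φ) = (X - C α) * (X - C β)) :
    IsTWPrime ρbar l := by
  intro P hP φ' hφ'
  obtain ⟨h, hh⟩ := tw_exists_smul_eq_of_liesOverPrime (primeLocalPlace l) P l.2
    (tw_primeLocalPlace_liesOver l) hP
  have h1 : P.IsFrobeniusAt (h * φ * h⁻¹) l := hh ▸ isFrobeniusAt_conj hφ h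
  have h2 := frobenius_inv_mul_mem_inertia h1 hφ'
  have h3 := hunr P hP _ h2
  have h4 : ρbar.ρ φ' = ρbar.ρ (h * φ * h⁻¹) := by
    have : φ' = (h * φ * h⁻¹) * ((h * φ * h⁻¹)⁻¹ * φ') := by rw [mul_inv_cancel_left]
    rw [this, map_mul, h3, mul_one]
  refine ⟨α, β, hαβ, ?_⟩
  rw [h4, map_mul, map_mul, ← hcp]
  refine charpoly_conj_of_mul_eq_one _ _ _ ?_ ?_
  · rw [← map_mul, mul_inv_cancel, map_one]
  · rw [← map_mul, inv_mul_cancel, map_one]

end FrobCons

end Fermat.Agent.TW
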