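import Fermat.Agent.Lib.TW.FrobSelect
import Fermat.Agent.Lib.TW.TWPrime
import Fermat.Agent.Lib.TW.Wiring

/-!
# P10 / (C-TW): the Taylor–Wiles primes, assembled

`contractTW_of_contractSigma'` : the contract (C-TW) of `Interface.lean` (existence of `dim W`
Taylor–Wiles primes `≡ 1 mod p ^ (n+1)` killing the dual Selmer group `W` of the minimal problem)
follows from

* `ContractSigma p ρbar` : the group-theoretic input (G8): a non-zero class in `H¹(G_ℚ, M')`,
  `M' = (ad⁰ ρbar)^*(1)`, is detected by an element `σ` fixing `μ_{p^(n+1)}` with `ρbar σ` regular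
  semisimple over `k` and `c σ ∉ (σ - 1) M'`;
* `LocalSurjMod q` for all `q` (R4: the decomposition group at the distinguished place over `q`
  is, modulo every finite level, the image of the local Galois group);
* `ContractPerf tp` (G2: the local pairings are right non-degenerate on continuous classes);
* the Frobenius density theorem (G1, `FrobDensity/Main.lean`), used in `FrobSelect.lean`.

Steps: `isSmoothRep_tateDual_ad0`, `isUnramifiedOutsideRep_tateDual_ad0` (properties of `M'`),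
`exists_twPrime_resAt_ne_zero` (key step: a non-zero class is not locally trivial at some
Taylor–Wiles prime), `exists_finset_twU_eq_bot` (induction on `dim W`),
`dualSelmerGroup_union_le` (the dual Selmer group of the enlarged problem consists of the classes
of `W` which are locally trivial at the new primes).
-/

set_option autoImplicit false
set_option linter.unusedSectionVars false
set_option linter.style.haveILetI false

open Fermat.Agent.S53Lib IsLocalRing groupCohomology ExtCitation CategoryTheory GaloisRep Polynomial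
open Fermat.Agent.CFT (Level TrivialOn)

namespace Fermat.Agent.TW

noncomputable section

variable {k : Type} [Field k]

section Smooth

variable (p : ℕ) [Fact p.Prime]

/-- an automorphism which fixes the `p`-th roots of unity has trivial mod `p` cyclotomic
character -/
lemma cycloChar_eq_one_of_fixes (s : GQ) (h : ∀ t : AlgebraicClosure ℚ, t ^ p = 1 → s t = t) :
    cycloChar p s = 1 := by
  haveI : NeZero p := ⟨(Fact.out : p.Prime).ne_zero⟩
  haveI : Fact (1 < p) := ⟨(Fact.out : p.Prime).one_lt⟩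
  apply Units.ext
  have := modularCyclotomicCharacter.unique (AlgebraicClosure ℚ) (card_rootsOfUnity_eq_self p)
    (s : AlgebraicClosure ℚ ≃+* AlgebraicClosure ℚ) (c := 1) (fun t ht => by
      rw [ZMod.val_one, pow_one]
      rw [mem_rootsOfUnity] at ht
      refine h (t : AlgebraicClosure ℚ) ?_
      rw [← Units.val_pow_eq_pow_val, ht, Units.val_one])
  exact this.symm

variable [Algebra (ZMod p) k]

lemma cycloK_eq_one_of_fixes (s : GQ) (h : ∀ t : AlgebraicClosure ℚ, t ^ p = 1 → s t = t) :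
    cycloK p k s = 1 := by
  unfold cycloK
  rw [MonoidHom.comp_apply, cycloChar_eq_one_of_fixes p s h, map_one]

lemma rep_ρ_inv_eq_one {M : Rep k GQ} {s : GQ} (h : M.ρ s = 1) : M.ρ s⁻¹ = 1 := by
  have h2 : M.ρ s⁻¹ * M.ρ s = 1 := by rw [← map_mul, inv_mul_cancel, map_one]
  rwa [h, mul_one] at h2

lemma tateDual_ρ_eq_one (M : Rep k GQ) {s : GQ} (h1 : M.ρ s = 1) (h2 : cycloK p k s = 1) :
    (tateDual p M).ρ s = 1 := by
  apply LinearMap.ext
  intro f
  have : (tateDual p M).ρ s f = ((cycloK p k s : kˣ) : k) • (f ∘ₗ M.ρ s⁻¹) := rfl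
  rw [this, h2, rep_ρ_inv_eq_one h1, Units.val_one, one_smul]
  rfl

variable (ρbar : ResidualGaloisRep k)

lemma ad0Rep_ρ_eq_one {s : GQ} (h1 : ρbar.ρ s = 1) : (ad0Rep ρbar).ρ s = 1 := by
  have h1' : ρbar.ρ s⁻¹ = 1 := by
    have h2 := rho_inv_mul_rho ρbar s
    rwa [h1, mul_one] at h2
  apply LinearMap.ext
  intro x
  apply ad0Val_injective
  rw [ad0Val_ρ, adRepn_apply, h1, h1']
  rfl

/-- `M' = (ad⁰ ρbar)^*(1)` is smooth -/
theorem isSmoothRep_tateDual_ad0 : IsSmoothRep (tateDual p (ad0Rep ρbar)) := by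
  have hp : p.Prime := Fact.out
  obtain ⟨Lρ, hLρfin, hLρ⟩ := ρbar.factorsThroughFiniteLevel
  haveI := hLρfin
  obtain ⟨ζ, hζ⟩ := HasEnoughRootsOfUnity.exists_primitiveRoot (AlgebraicClosure ℚ) p
  haveI := Fermat.Agent.Lib.Helper6.isGalois_rat_algebraicClosure
  have hζint : IsIntegral ℚ ζ := Algebra.IsIntegral.isIntegral ζ
  haveI : FiniteDimensional ℚ (IntermediateField.adjoin ℚ {ζ}) :=
    IntermediateField.adjoin.finiteDimensional hζint
  intro m
  refine ⟨Lρ ⊔ IntermediateField.adjoin ℚ {ζ}, inferInstance, fun s hs => ?_⟩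
  rw [IntermediateField.mem_fixingSubgroup_iff] at hs
  have h1 : ρbar.ρ s = 1 := hLρ s (fun x hx => hs x ((le_sup_left : Lρ ≤ _) hx))
  have hsζ : s ζ = ζ := hs ζ ((le_sup_right : IntermediateField.adjoin ℚ {ζ} ≤ _)
    (IntermediateField.mem_adjoin_simple_self ℚ ζ))
  have h2 : ∀ t : AlgebraicClosure ℚ, t ^ p = 1 → s t = t := by
    intro t ht
    haveI : NeZero p := ⟨hp.ne_zero⟩
    obtain ⟨i, -, rfl⟩ := hζ.eq_pow_of_pow_eq_one ht
    rw [map_pow, hsζ]
  rw [tateDual_ρ_eq_one p _ (ad0Rep_ρ_eq_one ρbar h1) (cycloK_eq_one_of_fixes p s h2)]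
  rfl

/-- `M' = (ad⁰ ρbar)^*(1)` is unramified outside `S'` if `ρbar` is and `p ∈ S'` -/
theorem isUnramifiedOutsideRep_tateDual_ad0 (S' : Finset Nat.Primes)
    (hpS : ∀ q : Nat.Primes, q ∉ S' → (q : ℕ) ≠ p)
    (h : ∀ q : Nat.Primes, q ∉ S' → ρbar.IsUnramifiedAt q) :
    IsUnramifiedOutsideRep S' (tateDual p (ad0Rep ρbar)) := by
  have hp : p.Prime := Fact.out
  intro q hq A hA g hg
  have h1 : ρbar.ρ g = 1 := h q hq A hA g hg
  refine tateDual_ρ_eq_one p _ (ad0Rep_ρ_eq_one ρbar h1) (cycloK_eq_one_of_fixes p g ?_)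
  intro t ht
  exact tame_inertia_fixes_rootOfUnity q.2 hA hg
    ((Nat.coprime_primes hp q.2).2 (Ne.symm (hpS q hq))) ht

end Smooth

section Key

/-- **(C-SIGMA)** (G8, the group-theoretic heart of the Taylor–Wiles argument): for every cocycle
`c` of `G_ℚ` in `M' = (ad⁰ ρbar)^*(1)` which is constant modulo a finite level and whose class is
non-zero, and every `n`, there is `σ ∈ G_ℚ` fixing the `p ^ (n+1)`-th roots of unity such that
`ρbar σ` has two distinct eigenvalues in `k` and `c σ ∉ (σ - 1) M'`. -/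
def ContractSigma (p : ℕ) [Fact p.Prime] [Algebra (ZMod p) k] (ρbar : ResidualGaloisRep k) : Prop :=
  ∀ (n : ℕ) (c : cocycles₁ (tateDual p (ad0Rep ρbar))),
    (∃ F : IntermediateField ℚ (AlgebraicClosure ℚ), FiniteDimensional ℚ F ∧
      ∀ g s, s ∈ F.fixingSubgroup → c (g * s) = c g) →
    H1π (tateDual p (ad0Rep ρbar)) c ≠ 0 →
    ∃ σ : GQ, (∀ ζ : AlgebraicClosure ℚ, ζ ^ p ^ (n + 1) = 1 → σ ζ = ζ) ∧
      (∃ α β : k, α ≠ β ∧ LinearMap.charpoly (ρbar.ρ σ) = (X - C α) * (X - C β)) ∧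
      c σ ∉ LinearMap.range ((tateDual p (ad0Rep ρbar)).ρ σ - 1)

variable (p : ℕ) [Fact p.Prime] [Algebra (ZMod p) k] (ρbar : ResidualGaloisRep k)

instance tw_finiteDimensional_ad0Rep : FiniteDimensional k (ad0Rep ρbar) := by
  change FiniteDimensional k (ad0Sub ρbar)
  infer_instance

instance tw_finiteDimensional_tateDual (M : Rep k GQ) [FiniteDimensional k M] :
    FiniteDimensional k (tateDual p M) := by
  change FiniteDimensional k (Module.Dual k M)
  infer_instance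

/-- **key step**: a non-zero admissible class in `H¹(G_ℚ, M')` is not locally trivial at some
Taylor–Wiles prime `l ≡ 1 mod p ^ (n+1)` outside any given finite set -/
theorem exists_twPrime_resAt_ne_zero (hσ : ContractSigma p ρbar) (hR4 : ∀ q, LocalSurjMod q)
    (Smin : Finset ℕ) (hunrρ : ∀ l : Nat.Primes, (l : ℕ) ∉ Smin → ρbar.IsUnramifiedAt l)
    (hsm : IsSmoothRep (tateDual p (ad0Rep ρbar)))
    (S₁ : Finset Nat.Primes) (hunr : IsUnramifiedOutsideRep S₁ (tateDual p (ad0Rep ρbar)))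
    (S₀ : Finset Nat.Primes) (n : ℕ) (T : Finset ℕ)
    {ψ : H1 (tateDual p (ad0Rep ρbar))}
    (hψ : ψ ∈ continuousH1S S₀ (tateDual p (ad0Rep ρbar))) (hψ0 : ψ ≠ 0) :
    ∃ l : Nat.Primes, (l : ℕ) ∉ T ∧ (l : ℕ) ∉ Smin ∧ (l : ℕ) ≠ p ∧ p ^ (n + 1) ∣ (l : ℕ) - 1 ∧
      IsTWPrime ρbar l ∧ resAt l (tateDual p (ad0Rep ρbar)) ψ ≠ 0 := by
  classical
  have hp : p.Prime := Fact.out
  set M' := tateDual p (ad0Rep ρbar) with hM'
  rw [mem_continuousH1S_iff] at hψ
  obtain ⟨c, ⟨F, hF, hc⟩, rfl⟩ := hψ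
  haveI := hF.1
  -- a level where `M'` is trivial
  obtain ⟨K', -, hK'triv⟩ := Fermat.Agent.CFT.Bridge.exists_levelS_trivialOn M' S₁ hsm hunr
  -- the level of `ρbar`
  obtain ⟨Lρ, hLρfin, hLρ⟩ := ρbar.factorsThroughFiniteLevel
  haveI := hLρfin
  -- a primitive root of unity
  obtain ⟨ζ, hζ⟩ := HasEnoughRootsOfUnity.exists_primitiveRoot (AlgebraicClosure ℚ) (p ^ (n + 1))
  haveI := Fermat.Agent.Lib.Helper6.isGalois_rat_algebraicClosure
  have hζint : IsIntegral ℚ ζ := Algebra.IsIntegral.isIntegral ζ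
  haveI : FiniteDimensional ℚ (IntermediateField.adjoin ℚ {ζ}) :=
    IntermediateField.adjoin.finiteDimensional hζint
  set F₀ : IntermediateField ℚ (AlgebraicClosure ℚ) :=
    F ⊔ K'.toIntermediateField ⊔ Lρ ⊔ IntermediateField.adjoin ℚ {ζ} with hF₀
  haveI : FiniteDimensional ℚ F₀ := by
    rw [hF₀]
    infer_instance
  have hF_le : F ≤ F₀ := le_sup_of_le_left (le_sup_of_le_left le_sup_left)
  have hK_le : K'.toIntermediateField ≤ F₀ := le_sup_of_le_left (le_sup_of_le_left le_sup_right)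
  have hL_le : Lρ ≤ F₀ := le_sup_of_le_left le_sup_right
  have hζF₀ : ζ ∈ F₀ :=
    (le_sup_right : _ ≤ F₀) (IntermediateField.mem_adjoin_simple_self ℚ ζ)
  have hFixF : F₀.fixingSubgroup ≤ F.fixingSubgroup :=
    IntermediateField.fixingSubgroup_antitone hF_le
  have hFixK : F₀.fixingSubgroup ≤ K'.N := IntermediateField.fixingSubgroup_antitone hK_le
  have hc₀ : ∀ g s, s ∈ F₀.fixingSubgroup → c (g * s) = c g := fun g s hs => hc g s (hFixF hs)
  have hNF : ∀ s ∈ F₀.fixingSubgroup, M'.ρ s = 1 := fun s hs => hK'triv s (hFixK hs)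
  -- elements which agree on `F₀` have the same image under `ρbar`
  have hρeq : ∀ τ₁ τ₂ : GQ, (∀ x ∈ F₀, τ₁ x = τ₂ x) → ρbar.ρ τ₁ = ρbar.ρ τ₂ := by
    intro τ₁ τ₂ h
    have h1 : ρbar.ρ (τ₂⁻¹ * τ₁) = 1 := hLρ _ (fun x hx => by
      rw [AlgEquiv.mul_apply, h x (hL_le hx)]
      exact τ₂.symm_apply_apply x)
    have : τ₁ = τ₂ * (τ₂⁻¹ * τ₁) := by rw [mul_inv_cancel_left]
    rw [this, map_mul, h1, mul_one]
  -- the element `σ`
  obtain ⟨σ, hσfix, ⟨α, β, hαβ, hcp⟩, hσc⟩ := hσ n c ⟨F, hF.1, hc⟩ hψ0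
  -- Frobenius selection
  obtain ⟨l, hlT, φ, hφ, -, ⟨g, a, b, hφg, hab⟩, hres⟩ :=
    exists_frobenius_of_not_cob hR4 c F₀ hc₀ hNF σ hσc (T ∪ Smin ∪ {p})
  have hlT' : (l : ℕ) ∉ T := fun h =>
    hlT (Finset.mem_union_left _ (Finset.mem_union_left _ h))
  have hlS : (l : ℕ) ∉ Smin := fun h =>
    hlT (Finset.mem_union_left _ (Finset.mem_union_right _ h))
  have hlp : (l : ℕ) ≠ p := fun h =>
    hlT (Finset.mem_union_right _ (Finset.mem_singleton.2 h))
  refine ⟨l, hlT', hlS, hlp, ?_, ?_, hres⟩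
  · -- the congruence
    have hfix : φ ζ = ζ := by
      rw [hφg ζ hζF₀]
      change g ((σ ^ a) (g⁻¹ ζ)) = ζ
      have h1 : (g⁻¹ ζ) ^ p ^ (n + 1) = 1 := by rw [← map_pow, hζ.pow_eq_one, map_one]
      have h2 : ∀ (j : ℕ) (z : AlgebraicClosure ℚ), z ^ p ^ (n + 1) = 1 → (σ ^ j) z = z := by
        intro j z hz
        induction j with
        | zero => rfl
        | succ j ih => rw [pow_succ, AlgEquiv.mul_apply, hσfix z hz, ih]
      rw [h2 a _ h1]
      exact g.apply_symm_apply ζ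
    exact pow_dvd_sub_one_of_frobenius_fixes l.2 hp hlp (tw_primeLocalPlace_liesOver l) hφ hζ hfix
  · -- the Taylor–Wiles property
    have h1 : ρbar.ρ φ = ρbar.ρ g * (ρbar.ρ σ) ^ a * ρbar.ρ g⁻¹ := by
      rw [hρeq φ (g * σ ^ a * g⁻¹) (fun x hx => hφg x hx), map_mul, map_mul, map_pow]
    have h2 : (ρbar.ρ σ) ^ (a * b) = ρbar.ρ σ := by
      rw [← map_pow]
      exact hρeq _ _ (fun x hx => hab x hx)
    obtain ⟨h3, h4⟩ := charpoly_pow_of_eigenbasis ρbar.finrank_eq (ρbar.ρ σ) hαβ hcp a b h2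
    refine isTWPrime_of_frobenius ρbar l (hunrρ l hlS) hφ h4 ?_
    rw [h1, charpoly_conj_of_mul_eq_one _ _ _ (rho_mul_rho_inv ρbar g) (rho_inv_mul_rho ρbar g)]
    exact h3

end Key

section Ind

variable {M' : Rep k GQ}

/-- the classes of `W` which are locally trivial at the primes of `Q` -/
def twU (W : Submodule k (H1 M')) (Q : Finset ℕ) : Submodule k (H1 M') :=
  W ⊓ ⨅ q ∈ primesOf Q, LinearMap.ker (resAt q M')

lemma mem_twU {W : Submodule k (H1 M')} {Q : Finset ℕ} {ψ : H1 M'} :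
    ψ ∈ twU W Q ↔ ψ ∈ W ∧ ∀ q : Nat.Primes, (q : ℕ) ∈ Q → resAt q M' ψ = 0 := by
  unfold twU
  rw [Submodule.mem_inf]
  refine and_congr Iff.rfl ?_
  simp only [Submodule.mem_iInf, LinearMap.mem_ker, mem_primesOf]

lemma twU_le (W : Submodule k (H1 M')) (Q : Finset ℕ) : twU W Q ≤ W := inf_le_left

lemma twU_anti (W : Submodule k (H1 M')) {Q Q' : Finset ℕ} (h : Q ⊆ Q') : twU W Q' ≤ twU W Q := by
  intro ψ hψ
  rw [mem_twU] at hψ ⊢
  exact ⟨hψ.1, fun q hq => hψ.2 q (h hq)⟩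

/-- **the induction**: if every non-zero class of `W` is detected by a good prime outside any
finite set, then `dim W` good primes kill `W` -/
theorem exists_finset_twU_eq_bot (W : Submodule k (H1 M')) [FiniteDimensional k W]
    (good : ℕ → Prop)
    (hKS : ∀ T : Finset ℕ, ∀ ψ ∈ W, ψ ≠ 0 →
      ∃ l : Nat.Primes, (l : ℕ) ∉ T ∧ good l ∧ resAt l M' ψ ≠ 0) :
    ∃ Q : Finset ℕ, Q.card = Module.finrank k W ∧ (∀ q ∈ Q, good q) ∧ twU W Q = ⊥ := by
  classical
  have key : ∀ j : ℕ, j ≤ Module.finrank k W → ∃ Q : Finset ℕ, Q.card = j ∧ (∀ q ∈ Q, good q) ∧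
      Module.finrank k (twU W Q) + j ≤ Module.finrank k W := by
    intro j
    induction j with
    | zero =>
      intro _
      refine ⟨∅, rfl, fun q hq => absurd hq (Finset.notMem_empty q), ?_⟩
      rw [add_zero]
      exact Submodule.finrank_mono (twU_le W ∅)
    | succ j ih =>
      intro hj
      obtain ⟨Q, hQcard, hQgood, hQr⟩ := ih (Nat.le_of_succ_le hj)
      haveI : FiniteDimensional k (twU W Q) := Submodule.finiteDimensional_of_le (twU_le W Q)
      -- choose a class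
      obtain ⟨ψ, hψW, hψ0, hψU⟩ : ∃ ψ ∈ W, ψ ≠ 0 ∧ (twU W Q ≠ ⊥ → ψ ∈ twU W Q) := by
        by_cases hU : twU W Q = ⊥
        · have hW : W ≠ ⊥ := by
            rintro hW
            rw [hW, finrank_bot] at hj
            exact Nat.not_succ_le_zero j hj
          obtain ⟨ψ, hψ, hψ0⟩ := Submodule.exists_mem_ne_zero_of_ne_bot hW
          exact ⟨ψ, hψ, hψ0, fun h => absurd hU h⟩
        · obtain ⟨ψ, hψ, hψ0⟩ := Submodule.exists_mem_ne_zero_of_ne_bot hU
          exact ⟨ψ, twU_le W Q hψ, hψ0, fun _ => hψ⟩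
      obtain ⟨l, hlQ, hlgood, hlres⟩ := hKS Q ψ hψW hψ0
      refine ⟨insert (l : ℕ) Q, ?_, ?_, ?_⟩
      · rw [Finset.card_insert_of_notMem hlQ, hQcard]
      · intro q hq
        rcases Finset.mem_insert.1 hq with rfl | hq
        · exact hlgood
        · exact hQgood q hq
      · have hle : twU W (insert (l : ℕ) Q) ≤ twU W Q := twU_anti W (Finset.subset_insert _ _)
        by_cases hU : twU W Q = ⊥
        · have : twU W (insert (l : ℕ) Q) = ⊥ := by
            rw [eq_bot_iff, ← hU]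
            exact hle
          rw [this, finrank_bot, zero_add]
          exact hj
        · have hlt : twU W (insert (l : ℕ) Q) < twU W Q := by
            refine lt_of_le_of_ne hle (fun heq => ?_)
            have h1 := hψU hU
            rw [← heq, mem_twU] at h1
            exact hlres (h1.2 l (Finset.mem_insert_self _ _))
          have := Submodule.finrank_lt_finrank_of_lt hlt
          omega
  obtain ⟨Q, hQcard, hQgood, hQr⟩ := key _ le_rfl
  refine ⟨Q, hQcard, hQgood, ?_⟩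
  haveI : FiniteDimensional k (twU W Q) := Submodule.finiteDimensional_of_le (twU_le W Q)
  have h0 : Module.finrank k (twU W Q) = 0 := by omega
  exact Submodule.finrank_eq_zero.1 h0

end Ind

section Mono

variable {M M' : Rep k GQ}

/-- enlarging the set of primes by primes with full local condition shrinks the dual Selmer group,
and the classes of the smaller group are locally trivial at the new primes -/
theorem dualSelmerGroup_union_le [FiniteDimensional k M'] (tp : LocalPairings M M')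
    (hPerf : ContractPerf tp) (Smin Q : Finset ℕ) (L : LocalConditions M)
    (hLtop : ∀ q : Nat.Primes, (q : ℕ) ∉ Smin → L q = locCont q M)
    (hsm : IsSmoothRep M') (hunr : IsUnramifiedOutsideRep (primesOf Smin) M')
    (hR4 : ∀ q, LocalSurjMod q) {ψ : H1 M'}
    (hψ : ψ ∈ dualSelmerGroup (primesOf (Smin ∪ Q)) tp L) :
    ψ ∈ dualSelmerGroup (primesOf Smin) tp L ∧
      ∀ q : Nat.Primes, (q : ℕ) ∈ Q → (q : ℕ) ∉ Smin → resAt q M' ψ = 0 := by
  have hres : ∀ q : Nat.Primes, q ∈ primesOf (Smin ∪ Q) → (q : ℕ) ∉ Smin →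
      resAt q M' ψ = 0 := fun q hq hqS =>
    resAt_eq_zero_of_mem_dualSelmerGroup _ tp hPerf L hq (hLtop q hqS) hψ
  have hψ' := (mem_dualSelmerGroup_iff _ tp L ψ).1 hψ
  refine ⟨(mem_dualSelmerGroup_iff _ tp L ψ).2 ⟨?_, ?_⟩, ?_⟩
  · exact mem_continuousH1S_of_resAt_eq_zero (primesOf Smin) (primesOf (Smin ∪ Q)) hsm hunr hR4
      hψ'.1 (fun q hq hqS => hres q hq (fun h => hqS (mem_primesOf.2 h)))
  · intro q hq x hx
    exact hψ'.2 q (mem_primesOf.2 (Finset.mem_union_left _ (mem_primesOf.1 hq))) x hx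
  · intro q hqQ hqS
    exact hres q (mem_primesOf.2 (Finset.mem_union_right _ hqQ)) hqS

end Mono

section Final

variable (p : ℕ) [Fact p.Prime] [Algebra (ZMod p) k] (ρbar : ResidualGaloisRep k)

/-- **(C-TW) from (C-SIGMA), (C-PERF) and (R4)** -/
theorem contractTW_of_contractSigma (hσ : ContractSigma p ρbar) (hR4 : ∀ q, LocalSurjMod q)
    (S Smin : Finset ℕ) (hSmin : Smin ⊆ S)
    (hunrρ : ∀ l : Nat.Primes, (l : ℕ) ∉ Smin → ρbar.IsUnramifiedAt l)
    (hsm : IsSmoothRep (tateDual p (ad0Rep ρbar)))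
    (hunr : IsUnramifiedOutsideRep (primesOf Smin) (tateDual p (ad0Rep ρbar)))
    (tp : LocalPairings (ad0Rep ρbar) (tateDual p (ad0Rep ρbar))) (hPerf : ContractPerf tp)
    (L : LocalConditions (ad0Rep ρbar)) : ContractTW p ρbar S Smin tp L := by
  classical
  intro hLtop hWfin n
  set W := dualSelmerGroup (primesOf Smin) tp L with hW
  haveI := hWfin
  have hWadm : ∀ ψ ∈ W, ψ ∈ continuousH1S (primesOf Smin) (tateDual p (ad0Rep ρbar)) :=
    fun ψ hψ => ((mem_dualSelmerGroup_iff _ tp L ψ).1 hψ).1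
  obtain ⟨Q, hQcard, hQgood, hQbot⟩ := exists_finset_twU_eq_bot W
    (fun q => q.Prime ∧ q ∉ S ∧ p ^ (n + 1) ∣ q - 1 ∧ IsTWPrime ρbar q)
    (fun T ψ hψ hψ0 => by
      obtain ⟨l, hlT, -, -, hdvd, hTW, hres⟩ := exists_twPrime_resAt_ne_zero p ρbar hσ hR4 Smin hunrρ
        hsm (primesOf Smin) hunr (primesOf Smin) n (T ∪ S) (hWadm ψ hψ) hψ0
      exact ⟨l, fun h => hlT (Finset.mem_union_left _ h),
        ⟨l.2, fun h => hlT (Finset.mem_union_right _ h), hdvd, hTW⟩, hres⟩)
  refine ⟨fun i => Q.orderEmbOfFin hQcard i, (Q.orderEmbOfFin hQcard).injective,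
    fun i => ?_, fun i => ?_, ?_⟩
  · obtain ⟨h1, h2, h3, -⟩ := hQgood _ (Q.orderEmbOfFin_mem hQcard i)
    exact ⟨h1, h2, h3⟩
  · exact (hQgood _ (Q.orderEmbOfFin_mem hQcard i)).2.2.2
  · rw [Finset.image_orderEmbOfFin_univ Q hQcard, eq_bot_iff]
    intro ψ hψ
    obtain ⟨h1, h2⟩ := dualSelmerGroup_union_le tp hPerf Smin Q L hLtop hsm hunr hR4 hψ
    have h3 : ψ ∈ twU W Q := by
      rw [mem_twU]
      exact ⟨h1, fun q hq => h2 q hq (fun h => (hQgood _ hq).2.1 (hSmin h))⟩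
    rwa [hQbot] at h3

/-- **(C-TW) from (C-SIGMA), (C-PERF) and (R4)**, with the hypotheses of S56 on `Smin` -/
theorem contractTW_of_contractSigma' (hσ : ContractSigma p ρbar) (hR4 : ∀ q, LocalSurjMod q)
    (S Smin : Finset ℕ) (hpSmin : p ∈ Smin) (hSmin : Smin ⊆ S)
    (hmin : ∀ q : ℕ, q.Prime → q ≠ p → (q ∈ Smin ↔ ¬ ρbar.IsUnramifiedAt q))
    (tp : LocalPairings (ad0Rep ρbar) (tateDual p (ad0Rep ρbar))) (hPerf : ContractPerf tp)
    (L : LocalConditions (ad0Rep ρbar)) : ContractTW p ρbar S Smin tp L := by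
  have hne : ∀ l : Nat.Primes, (l : ℕ) ∉ Smin → (l : ℕ) ≠ p := fun l hl h => hl (h ▸ hpSmin)
  have hunrρ : ∀ l : Nat.Primes, (l : ℕ) ∉ Smin → ρbar.IsUnramifiedAt l := by
    intro l hl
    by_contra hram
    exact hl ((hmin l l.2 (hne l hl)).2 hram)
  refine contractTW_of_contractSigma p ρbar hσ hR4 S Smin hSmin hunrρ
    (isSmoothRep_tateDual_ad0 p ρbar)
    (isUnramifiedOutsideRep_tateDual_ad0 p ρbar (primesOf Smin)
      (fun q hq => hne q (fun h => hq (mem_primesOf.2 h)))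
      (fun q hq => hunrρ q (fun h => hq (mem_primesOf.2 h)))) tp hPerf L

end Final

end

end Fermat.Agent.TW
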