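/-
P10 / S56 (Taylor–Wiles primes), package G8: the contract (C-SIGMA) of `TWAssembly.lean`.
-/
import Fermat.Agent.Lib.TW.TWAssembly
import Fermat.Agent.Lib.TW.TWPrimes.Exists

set_option autoImplicit false
set_option linter.style.haveILetI false

open Polynomial groupCohomology Fermat.Agent.S53Lib ExtCitation

namespace Fermat.Agent.TW

noncomputable section

variable {k : Type} [Field k] [Finite k] (p : ℕ) [Fact p.Prime] [Algebra (ZMod p) k]
  (ρbar : ResidualGaloisRep k)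

/-- **(C-SIGMA)** from the hypotheses of S56. -/
theorem tw_contractSigma (hp2 : p ≠ 2) (hpk : (p : k) = 0)
    (habs : ρbar.IsAbsolutelyIrreducible)
    (hdet : (GaloisRepAdic.ofResidualGaloisRep ρbar).DetIsCyclotomic p)
    (hsplit : ∀ σ : AlgebraicClosure ℚ ≃ₐ[ℚ] AlgebraicClosure ℚ,
      ∃ α β : k, LinearMap.charpoly (ρbar.ρ σ) = (X - C α) * (X - C β))
    (hTW : ∀ (K : Type) [Field K] [Algebra k K]
      (G : Subgroup (AlgebraicClosure ℚ ≃ₐ[ℚ] AlgebraicClosure ℚ)), G.index = 2 →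
      ∀ V : Submodule K (ρbar.baseChange K).V,
        (∀ σ ∈ G, ∀ x ∈ V, (ρbar.baseChange K).ρ σ x ∈ V) → V = ⊥ ∨ V = ⊤) :
    ContractSigma p ρbar := by
  intro n c _ hx
  have hp : p.Prime := Fact.out
  haveI : Fact (1 < p ^ (n + 1)) := ⟨Nat.one_lt_pow (Nat.succ_ne_zero n) hp.one_lt⟩
  haveI : CharP k p := (CharP.charP_iff_prime_eq_zero hp).2 hpk
  have h2 : (2 : k) ≠ 0 := by
    intro h
    have h2' : ((2 : ℕ) : k) = 0 := by exact_mod_cast h
    rw [CharP.cast_eq_zero_iff k p] at h2'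
    exact hp2 ((Nat.prime_dvd_prime_iff_eq hp Nat.prime_two).mp h2')
  have hdetK := twg_det_eq_cycloK ρbar p hpk hdet
  obtain ⟨σ, hχσ, α, β, hαβ, hch, hsel⟩ :=
    twp_exists_sigma p ρbar hp2 hpk h2 habs hdet hsplit hTW c n
  have hfix := (twpChi_eq_one_iff_fixes (p ^ (n + 1)) σ).1 hχσ
  have hdetσ : LinearMap.det (ρbar.ρ σ) = 1 :=
    twg_det_eq_one_of_fixes ρbar p hpk hdet (n + 1) (Nat.succ_ne_zero n) σ hfix
  refine ⟨σ, hfix, ⟨α, β, hαβ, hch⟩, ?_⟩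
  rintro ⟨y, hy⟩
  refine twg_not_mem_range_of_trace ρbar.ρ σ hdetσ (twgPsi ρbar h2 c σ) (hsel hx) ?_
  refine ⟨ad0Val ρbar ((twgThetaEquiv ρbar h2).symm y), ?_⟩
  have hy' : c σ = (tateDual p (ad0Rep ρbar)).ρ σ y - y := by
    rw [← hy]
    rfl
  unfold twgPsi
  rw [hy', map_sub, twgTheta_symm_ρ, ad0Val_sub, ad0Val_smul, ad0Val_ρ, adRepn_apply,
    twgAdDetRep_apply, hdetK σ]
  rfl

end

end Fermat.Agent.TW
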