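import Fermat.Agent.Lib.TW.TWAssembly
import Fermat.Agent.Lib.TW.TWPrimes.Main
import Fermat.Agent.Lib.TW.GroupContracts
import Fermat.Agent.Lib.TW.Local.Perf
import Fermat.Agent.Lib.TW.Local.OrdCondition
import Fermat.Agent.Lib.TW.Local.Arch

/-!
# P10: S56 from the items which are still open

`s56_of_open_items` : the statement of S56 (verbatim) from its own hypotheses and the items of the
P10 checklist which are not yet theorems:

* (O1) `ContractGW` for the pairings `tlTP` (G3 + G4);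
* (O2) `ContractLocP … (condFlat p)` (G7);
* (O3) `finrank (twUr q ad⁰) ≤ h⁰` (R1), (O4) `ContractLocTW` (R2);
* (O5) `dim H¹_cont(G_p, k(ω)) ≤ 2` (R3);
* (O7) `LocalSurjMod` (R4).

Everything else (C-ARCH, C-H0, C-PERF, C-LOC-min, C-LOC-p strict ordinary, C-TW, the wiring) is
proved.  For (C-TW) two independent proofs exist: helper9's `tw_contractTW` (`TWPrimes/Main.lean`,
used here: complete modulo (R4)) and `contractTW_of_contractSigma'` (`TWAssembly.lean`, modulo (R4)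
and the group-theoretic contract `ContractSigma`).
-/

set_option autoImplicit false
set_option linter.unusedSectionVars false
set_option linter.style.haveILetI false

open Fermat.Agent.S53Lib IsLocalRing groupCohomology ExtCitation CategoryTheory GaloisRep Polynomial

namespace Fermat.Agent.TW

/-- `ad⁰ ρbar` is smooth -/
theorem isSmoothRep_ad0 {k : Type} [Field k] (ρbar : ResidualGaloisRep k) :
    IsSmoothRep (ad0Rep ρbar) := by
  obtain ⟨Lρ, hLρfin, hLρ⟩ := ρbar.factorsThroughFiniteLevel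
  intro m
  refine ⟨Lρ, hLρfin, fun s hs => ?_⟩
  rw [IntermediateField.mem_fixingSubgroup_iff] at hs
  rw [ad0Rep_ρ_eq_one ρbar (hLρ s hs)]
  rfl

theorem s56_of_open_items
    {𝒪 : Type} [CommRing 𝒪] [IsDomain 𝒪] [IsDiscreteValuationRing 𝒪]
    [IsAdicComplete (maximalIdeal 𝒪) 𝒪] [Finite (ResidueField 𝒪)]
    (p : ℕ) [Fact p.Prime] (hp2 : p ≠ 2) (hp𝒪 : (p : 𝒪) ∈ maximalIdeal 𝒪)
    (ρbar : ResidualGaloisRep (ResidueField 𝒪))
    (habs : ρbar.IsAbsolutelyIrreducible)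
    (hdet : (GaloisRepAdic.ofResidualGaloisRep ρbar).DetIsCyclotomic p)
    (hsplit : ∀ σ : AlgebraicClosure ℚ ≃ₐ[ℚ] AlgebraicClosure ℚ,
      ∃ α β : ResidueField 𝒪, LinearMap.charpoly (ρbar.ρ σ) = (X - C α) * (X - C β))
    (hTW : ∀ (K : Type) [Field K] [Algebra (ResidueField 𝒪) K]
      (G : Subgroup (AlgebraicClosure ℚ ≃ₐ[ℚ] AlgebraicClosure ℚ)), G.index = 2 →
      ∀ V : Submodule K (ρbar.baseChange K).V,
        (∀ σ ∈ G, ∀ x ∈ V, (ρbar.baseChange K).ρ σ x ∈ V) → V = ⊥ ∨ V = ⊤)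
    (S Smin : Finset ℕ) (hpSmin : p ∈ Smin) (hSmin : Smin ⊆ S)
    (hmin : ∀ q : ℕ, q.Prime → q ≠ p → (q ∈ Smin ↔ ¬ ρbar.IsUnramifiedAt q))
    [Algebra (ZMod p) (ResidueField 𝒪)]
    -- the open items
    (hGW : ContractGW p (ad0Rep ρbar) (tateDual p (ad0Rep ρbar)) (tlTP p (ad0Rep ρbar)))
    (hLocFlat : ∀ b : Module.Basis (Fin 2) (ResidueField 𝒪) ρbar.V,
      ContractLocP p ρbar b (condFlat p))
    (hR1 : ∀ q : Nat.Primes, (q : ℕ) ≠ p →
      Module.finrank (ResidueField 𝒪) (twUr q (ad0Rep ρbar)) ≤ h0At ρbar q)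
    (hLocTW : ContractLocTW p ρbar)
    (hR3 : FiniteDimensional (ResidueField 𝒪)
        (locCont (pPrime p) (twCharRep (cycloK p (ResidueField 𝒪)))) ∧
      Module.finrank (ResidueField 𝒪)
        (locCont (pPrime p) (twCharRep (cycloK p (ResidueField 𝒪)))) ≤ 2)
    (hR4 : ∀ q, LocalSurjMod q) :
    (∃ r : ℕ, ∀ n : ℕ, ∃ qv : Fin r → ℕ, Function.Injective qv ∧
      (∀ i, (qv i).Prime ∧ qv i ∉ S ∧ p ^ (n + 1) ∣ qv i - 1) ∧
      (∀ i, ∀ P : ValuationSubring (AlgebraicClosure ℚ), P.LiesOverPrime (qv i) →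
        ∀ φ : AlgebraicClosure ℚ ≃ₐ[ℚ] AlgebraicClosure ℚ, P.IsFrobeniusAt φ (qv i) →
          ∃ α β : ResidueField 𝒪, α ≠ β ∧ LinearMap.charpoly (ρbar.ρ φ) = (X - C α) * (X - C β)) ∧
      ∀ DQ : GaloisRep.DeformationRingData 𝒪 ρbar (fun _A _ _ _ ρ =>
          GaloisRep.strictOrdinaryCondition 𝒪 p (Smin ∪ Finset.univ.image qv) ρ ∧
            ∀ q ∈ Smin, q.Prime → q ≠ p → ρ.IsUnipotentOnInertiaAt q),
        ∃ γ : MvPowerSeries (Fin r) 𝒪 →ₐ[𝒪] DQ.R, Function.Surjective γ) ∧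
    (∃ r : ℕ, ∀ n : ℕ, ∃ qv : Fin r → ℕ, Function.Injective qv ∧
      (∀ i, (qv i).Prime ∧ qv i ∉ S ∧ p ^ (n + 1) ∣ qv i - 1) ∧
      (∀ i, ∀ P : ValuationSubring (AlgebraicClosure ℚ), P.LiesOverPrime (qv i) →
        ∀ φ : AlgebraicClosure ℚ ≃ₐ[ℚ] AlgebraicClosure ℚ, P.IsFrobeniusAt φ (qv i) →
          ∃ α β : ResidueField 𝒪, α ≠ β ∧ LinearMap.charpoly (ρbar.ρ φ) = (X - C α) * (X - C β)) ∧
      ∀ DQ : GaloisRep.DeformationRingData 𝒪 ρbar (fun _A _ _ _ ρ =>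
          GaloisRep.flatCondition 𝒪 p (Smin ∪ Finset.univ.image qv) ρ ∧
            ∀ q ∈ Smin, q.Prime → q ≠ p → ρ.IsUnipotentOnInertiaAt q),
        ∃ γ : MvPowerSeries (Fin r) 𝒪 →ₐ[𝒪] DQ.R, Function.Surjective γ) := by
  have hp : p.Prime := Fact.out
  have hpk : (p : ResidueField 𝒪) = 0 := by
    rw [← map_natCast (residue 𝒪)]
    exact (residue_eq_zero_iff _).2 hp𝒪
  have h3 : 3 ≤ p := by
    have := hp.two_le
    omega
  have h2 : (2 : ResidueField 𝒪) ≠ 0 := by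
    haveI : CharP (ResidueField 𝒪) p := by
      refine (CharP.charP_iff_prime_eq_zero hp).2 hpk
    intro h
    have h' : ((2 : ℕ) : ResidueField 𝒪) = 0 := by exact_mod_cast h
    rw [CharP.cast_eq_zero_iff (ResidueField 𝒪) p] at h'
    have := Nat.le_of_dvd (by norm_num) h'
    omega
  let b : Module.Basis (Fin 2) (ResidueField 𝒪) ρbar.V := Module.finBasisOfFinrankEq _ _ ρbar.finrank_eq
  have hPerf : ContractPerf (tlTP p (ad0Rep ρbar)) :=
    tl_contractPerf p (ad0Rep ρbar) (isSmoothRep_ad0 ρbar)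
  exact s56_of_contracts p hp𝒪 ρbar S Smin hpSmin hSmin hmin b (tlTP p (ad0Rep ρbar)) hGW
    (tw_contractLocP_ord' h3 h2 hdet hR3.1 hR3.2) (hLocFlat b)
    (tw_contractLocMin ρbar b p hpk h2 hR1) hLocTW
    (tw_contractArch ρbar h2 (tw_det_complexConjugation ρbar p hdet))
    (tw_contractH0 ρbar h2 habs hsplit)
    (fun L => tw_contractTW p ρbar (fun q => hR4 q) hp2 hpk habs hdet hsplit hTW S Smin hpSmin hmin
      _ hPerf L)

end Fermat.Agent.TW
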